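/-
IHARA track / [RB] (helper9): the group-theoretic core.

`ihr_no_eigen` : a two-dimensional representation `M : G →* M₂(F)` which is irreducible over `F` and
whose image contains a transvection `M σ` (`M σ ≠ 1`, `(M σ - 1)² = 0`, `2 ≠ 0`) has no common
eigenvector over ANY field `K ⊇ F` for ANY subgroup `H` containing all conjugates of `σ²` (e.g. a
subgroup of index `≤ 2`).
-/
import Mathlib

set_option autoImplicit false

open Matrix

namespace Fermat.Agent.Ihara

/-- two vectors of `K²` orthogonal to a common non-zero vector are linearly dependent -/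
lemma ihr_det_eq_zero {K : Type*} [Field K] (a b w : Fin 2 → K) (hw : w ≠ 0)
    (ha : a 0 * w 0 + a 1 * w 1 = 0) (hb : b 0 * w 0 + b 1 * w 1 = 0) :
    a 0 * b 1 - a 1 * b 0 = 0 := by
  have h0 : (a 0 * b 1 - a 1 * b 0) * w 0 = 0 := by linear_combination b 1 * ha - a 1 * hb
  have h1 : (a 0 * b 1 - a 1 * b 0) * w 1 = 0 := by linear_combination a 0 * hb - b 0 * ha
  by_contra hne
  apply hw
  funext i
  fin_cases i
  · exact (mul_eq_zero.1 h0).resolve_left hne
  · exact (mul_eq_zero.1 h1).resolve_left hne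

/-- **no common eigenvector over any extension** -/
theorem ihr_no_eigen {F K G : Type*} [Field F] [Field K] [Group G] (ι : F →+* K)
    (h2 : (2 : F) ≠ 0) (M : G →* Matrix (Fin 2) (Fin 2) F)
    (hirr : ∀ W : Submodule F (Fin 2 → F), (∀ g : G, ∀ x ∈ W, M g *ᵥ x ∈ W) → W = ⊥ ∨ W = ⊤)
    (σ : G) (hσ1 : M σ ≠ 1) (hσ2 : (M σ - 1) * (M σ - 1) = 0)
    (H : Subgroup G) (hH : ∀ τ : G, τ * σ ^ 2 * τ⁻¹ ∈ H)
    (w : Fin 2 → K) (hw : w ≠ 0)
    (hst : ∀ h ∈ H, ∃ c : K, ((M h).map ι) *ᵥ w = c • w) : False := by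
  set N : Matrix (Fin 2) (Fin 2) F := M σ - 1 with hN
  have hN0 : N ≠ 0 := fun h => hσ1 (sub_eq_zero.1 h)
  have hMσ : M σ = 1 + N := by rw [hN]; abel
  have hι2 : (2 : K) ≠ 0 := by
    have : ι 2 ≠ 0 := (map_ne_zero ι).2 h2
    rwa [map_ofNat] at this
  -- step 1: `(N * M τ)^ι w = 0` for all `τ`
  have hker : ∀ τ : G, ((N * M τ).map ι) *ᵥ w = 0 := by
    intro τ
    have hmem : τ⁻¹ * σ ^ 2 * τ ∈ H := by
      have := hH τ⁻¹
      rwa [inv_inv] at this
    obtain ⟨c, hc⟩ := hst _ hmem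
    set B : Matrix (Fin 2) (Fin 2) F := M τ⁻¹ * N * M τ with hB
    have hinv : M τ⁻¹ * M τ = 1 := by rw [← map_mul, inv_mul_cancel, map_one]
    have hinv' : M τ * M τ⁻¹ = 1 := by rw [← map_mul, mul_inv_cancel, map_one]
    have hBB : B * B = 0 := by
      rw [hB]
      calc M τ⁻¹ * N * M τ * (M τ⁻¹ * N * M τ)
          = M τ⁻¹ * N * (M τ * M τ⁻¹) * N * M τ := by simp only [Matrix.mul_assoc]
        _ = M τ⁻¹ * (N * N) * M τ := by rw [hinv', Matrix.mul_one]; simp only [Matrix.mul_assoc]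
        _ = 0 := by rw [hσ2, Matrix.mul_zero, Matrix.zero_mul]
    have hMh : M (τ⁻¹ * σ ^ 2 * τ) = 1 + (2 : F) • B := by
      rw [map_mul, map_mul, map_pow, hMσ, hB]
      have : (1 + N) ^ 2 = 1 + (2 : F) • N := by
        rw [pow_two, Matrix.add_mul, Matrix.mul_add, Matrix.mul_add, Matrix.one_mul, Matrix.one_mul,
          Matrix.mul_one, hσ2, add_zero, two_smul]
        abel
      rw [this, Matrix.mul_add, Matrix.add_mul, Matrix.mul_one, hinv, Matrix.mul_smul,
        Matrix.smul_mul]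
    rw [hMh] at hc
    -- `(2 B)^ι w = (c - 1) w`
    have hmap : ((1 : Matrix (Fin 2) (Fin 2) F) + (2 : F) • B).map ι = 1 + (2 : K) • B.map ι := by
      ext i j
      simp only [Matrix.map_apply, Matrix.add_apply, Matrix.smul_apply, smul_eq_mul, map_add,
        map_mul, Matrix.one_apply, map_ofNat]
      split_ifs <;> simp
    rw [hmap, Matrix.add_mulVec, Matrix.one_mulVec, Matrix.smul_mulVec] at hc
    have h1 : (2 : K) • (B.map ι *ᵥ w) = (c - 1) • w := by
      rw [sub_smul, one_smul, ← hc]; abel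
    have hBBι : B.map ι *ᵥ (B.map ι *ᵥ w) = 0 := by
      rw [Matrix.mulVec_mulVec, ← Matrix.map_mul, hBB, Matrix.map_zero _ (map_zero ι),
        Matrix.zero_mulVec]
    have h3 : ((c - 1) * (c - 1)) • w = 0 := by
      have h4 : B.map ι *ᵥ ((2 : K) • (B.map ι *ᵥ w)) = (c - 1) • (B.map ι *ᵥ w) := by
        rw [h1, Matrix.mulVec_smul]
      rw [Matrix.mulVec_smul, hBBι, smul_zero] at h4
      have h5 : (2 : K) • ((c - 1) • (B.map ι *ᵥ w)) = 0 := by rw [← h4, smul_zero]
      rw [smul_comm, h1, smul_smul] at h5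
      exact h5
    have hc1 : c - 1 = 0 := by
      rcases smul_eq_zero.1 h3 with h | h
      · exact mul_self_eq_zero.1 h
      · exact absurd h hw
    rw [hc1, zero_smul] at h1
    have hBw : B.map ι *ᵥ w = 0 := (smul_eq_zero.1 h1).resolve_left hι2
    -- multiply by `(M τ)^ι`
    have h6 : (M τ).map ι *ᵥ (B.map ι *ᵥ w) = 0 := by rw [hBw, Matrix.mulVec_zero]
    rw [Matrix.mulVec_mulVec, ← Matrix.map_mul, hB] at h6
    have h7 : M τ * (M τ⁻¹ * N * M τ) = N * M τ := by
      rw [← Matrix.mul_assoc, ← Matrix.mul_assoc, hinv', Matrix.one_mul]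
    rwa [h7] at h6
  -- step 2: a common kernel vector over `F`
  obtain ⟨i₀, j₀, hij⟩ : ∃ i j, N i j ≠ 0 := by
    by_contra hcon
    push Not at hcon
    exact hN0 (Matrix.ext hcon)
  set r : Fin 2 → F := N i₀ with hr
  set v : Fin 2 → F := ![-r 1, r 0] with hv
  have hv0 : v ≠ 0 := by
    intro h
    have h0 : v 0 = 0 := by rw [h]; rfl
    have h1 : v 1 = 0 := by rw [h]; rfl
    simp only [hv, Matrix.cons_val_zero, Matrix.cons_val_one, neg_eq_zero] at h0 h1
    fin_cases j₀
    · exact hij h1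
    · exact hij h0
  have hrow : ∀ (τ : G) (i : Fin 2), ((N * M τ).map ι i) 0 * w 0 + ((N * M τ).map ι i) 1 * w 1 = 0 := by
    intro τ i
    have := congrFun (hker τ) i
    simpa [Matrix.mulVec, dotProduct, Fin.sum_univ_two] using this
  have hCv : ∀ τ : G, (N * M τ) *ᵥ v = 0 := by
    intro τ
    funext i
    have h1 := hrow 1 i₀
    rw [map_one, Matrix.mul_one] at h1
    have h2 := hrow τ i
    have h3 := ihr_det_eq_zero _ _ w hw h1 h2
    simp only [Matrix.map_apply] at h3
    rw [← map_mul, ← map_mul, ← map_sub] at h3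
    have h4 : N i₀ 0 * (N * M τ) i 1 - N i₀ 1 * (N * M τ) i 0 = 0 := (map_eq_zero ι).1 h3
    simp only [Matrix.mulVec, dotProduct, Fin.sum_univ_two, hv, Matrix.cons_val_zero,
      Matrix.cons_val_one, Pi.zero_apply, hr]
    linear_combination h4
  -- step 3: the stable subspace
  let W : Submodule F (Fin 2 → F) :=
    { carrier := {x | ∀ τ : G, (N * M τ) *ᵥ x = 0}
      add_mem' := fun {x y} hx hy τ => by rw [Matrix.mulVec_add, hx τ, hy τ, add_zero]
      zero_mem' := fun τ => Matrix.mulVec_zero _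
      smul_mem' := fun c x hx τ => by rw [Matrix.mulVec_smul, hx τ, smul_zero] }
  have hWst : ∀ g : G, ∀ x ∈ W, M g *ᵥ x ∈ W := by
    intro g x hx τ
    rw [Matrix.mulVec_mulVec, Matrix.mul_assoc, ← map_mul]
    exact hx (τ * g)
  rcases hirr W hWst with h | h
  · have : v ∈ W := hCv
    rw [h, Submodule.mem_bot] at this
    exact hv0 this
  · have hall : ∀ x : Fin 2 → F, N *ᵥ x = 0 := by
      intro x
      have hx : x ∈ W := by rw [h]; exact Submodule.mem_top
      have := hx 1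
      rwa [map_one, Matrix.mul_one] at this
    apply hN0
    ext i j
    have := congrFun (hall (Pi.single j 1)) i
    simpa using this

end Fermat.Agent.Ihara
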