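/-
IHARA track / [RB] (helper9): from the matrix lemma `ihr_no_eigen` to the hypotheses `habs`, `hTW`,
`hsplit` of S56 for a residual representation which is DEFINED OVER A SUBFIELD `F` with respect to a
basis (`toMatrix b b (ρbar.ρ g) = (M g).map ι₀`, `M : G_ℚ →* M₂(F)`).
-/
import Fermat.Prelude.Def_GaloisRep_Residual
import Fermat.Agent.Lib.Ihara.Rb.Group

set_option autoImplicit false
set_option linter.unusedSectionVars false

open Matrix Polynomial TensorProduct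

namespace Fermat.Agent.Ihara

local notation "GQ" => (AlgebraicClosure ℚ ≃ₐ[ℚ] AlgebraicClosure ℚ)

noncomputable section

variable {F k : Type} [Field F] [Field k] (ι₀ : F →+* k) (ρbar : ResidualGaloisRep k)
  (b : Module.Basis (Fin 2) k ρbar.V) (M : GQ →* Matrix (Fin 2) (Fin 2) F)
  (hM : ∀ g : GQ, LinearMap.toMatrix b b (ρbar.ρ g) = (M g).map ι₀)

include hM in
/-- **the core**: no stable line over any extension for a subgroup containing the conjugates of the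
square of a transvection -/
theorem ihr_irr_of_matrix (h2 : (2 : F) ≠ 0)
    (hirr : ∀ W : Submodule F (Fin 2 → F), (∀ g : GQ, ∀ x ∈ W, M g *ᵥ x ∈ W) → W = ⊥ ∨ W = ⊤)
    (σ : GQ) (hσ1 : M σ ≠ 1) (hσ2 : (M σ - 1) * (M σ - 1) = 0)
    (K : Type) [Field K] [Algebra k K] (H : Subgroup GQ) (hH : ∀ τ : GQ, τ * σ ^ 2 * τ⁻¹ ∈ H)
    (V : Submodule K (K ⊗[k] ρbar.V))
    (hV : ∀ s ∈ H, ∀ x ∈ V, (ρbar.ρ s).baseChange K x ∈ V) : V = ⊥ ∨ V = ⊤ := by
  classical
  by_contra hcon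
  push Not at hcon
  obtain ⟨hbot, htop⟩ := hcon
  set bK : Module.Basis (Fin 2) K (K ⊗[k] ρbar.V) := Algebra.TensorProduct.basis K b with hbK
  have hfr2 : Module.finrank K (K ⊗[k] ρbar.V) = 2 := by
    rw [Module.finrank_baseChange, ρbar.finrank_eq]
  have hlt : Module.finrank K V < 2 := by
    rw [← hfr2]
    exact Submodule.finrank_lt htop
  have hpos : 0 < Module.finrank K V :=
    Nat.pos_of_ne_zero (fun h0 => hbot (Submodule.finrank_eq_zero.1 h0))
  have h1 : Module.finrank K V = 1 := by omega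
  obtain ⟨w₀, hw₀V, hw₀ne⟩ := (Submodule.ne_bot_iff V).1 hbot
  have hspan : K ∙ w₀ = V := by
    apply Submodule.eq_of_le_of_finrank_eq
    · rwa [Submodule.span_singleton_le_iff_mem]
    · rw [finrank_span_singleton hw₀ne, h1]
  have hw₀span : ∀ x ∈ V, ∃ c : K, c • w₀ = x := fun x hx => by
    rw [← hspan] at hx
    exact Submodule.mem_span_singleton.1 hx
  set w : Fin 2 → K := fun i => bK.repr w₀ i with hw
  have hwne : w ≠ 0 := by
    intro h
    apply hw₀ne
    apply bK.repr.injective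
    rw [map_zero]
    ext i
    exact congrFun h i
  refine ihr_no_eigen ((algebraMap k K).comp ι₀) h2 M hirr σ hσ1 hσ2 H hH w hwne ?_
  intro s hs
  obtain ⟨c, hc⟩ := hw₀span _ (hV s hs w₀ hw₀V)
  have hc' : (ρbar.ρ s).baseChange K w₀ = c • w₀ := hc.symm
  refine ⟨c, ?_⟩
  have hmat : (M s).map ((algebraMap k K).comp ι₀) =
      LinearMap.toMatrix bK bK ((ρbar.ρ s).baseChange K) := by
    rw [hbK, LinearMap.toMatrix_baseChange, hM s]
    ext i j
    rfl
  rw [hmat]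
  have := LinearMap.toMatrix_mulVec_repr bK bK ((ρbar.ρ s).baseChange K) w₀
  rw [hc', map_smul] at this
  exact this

include hM in
/-- **`hTW` of S56** -/
theorem ihr_hTW_of_matrix (h2 : (2 : F) ≠ 0)
    (hirr : ∀ W : Submodule F (Fin 2 → F), (∀ g : GQ, ∀ x ∈ W, M g *ᵥ x ∈ W) → W = ⊥ ∨ W = ⊤)
    (σ : GQ) (hσ1 : M σ ≠ 1) (hσ2 : (M σ - 1) * (M σ - 1) = 0) :
    ∀ (K : Type) [Field K] [Algebra k K] (G : Subgroup GQ), G.index = 2 →
      ∀ V : Submodule K (ρbar.baseChange K).V,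
        (∀ s ∈ G, ∀ x ∈ V, (ρbar.baseChange K).ρ s x ∈ V) → V = ⊥ ∨ V = ⊤ := by
  intro K _ _ G hG V hV
  have hn : G.Normal := Subgroup.normal_of_index_eq_two hG
  exact ihr_irr_of_matrix ι₀ ρbar b M hM h2 hirr σ hσ1 hσ2 K G
    (fun τ => hn.conj_mem _ (Subgroup.sq_mem_of_index_two hG σ) τ) V hV

include hM in
/-- **`habs` of S56** -/
theorem ihr_habs_of_matrix (h2 : (2 : F) ≠ 0)
    (hirr : ∀ W : Submodule F (Fin 2 → F), (∀ g : GQ, ∀ x ∈ W, M g *ᵥ x ∈ W) → W = ⊥ ∨ W = ⊤)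
    (σ : GQ) (hσ1 : M σ ≠ 1) (hσ2 : (M σ - 1) * (M σ - 1) = 0) :
    ρbar.IsAbsolutelyIrreducible := by
  intro V hV
  exact ihr_irr_of_matrix ι₀ ρbar b M hM h2 hirr σ hσ1 hσ2 (AlgebraicClosure k) ⊤
    (fun τ => Subgroup.mem_top _) V (fun s _ x hx => hV s x hx)

include hM in
/-- **`hsplit` of S56**, if every element of `F` becomes a square in `k` -/
theorem ihr_hsplit_of_matrix (h2 : (2 : F) ≠ 0) (hsq : ∀ a : F, IsSquare (ι₀ a)) (g : GQ) :
    ∃ α β : k, LinearMap.charpoly (ρbar.ρ g) = (X - C α) * (X - C β) := by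
  classical
  have h2k : (2 : k) ≠ 0 := by
    have : ι₀ 2 ≠ 0 := (map_ne_zero ι₀).2 h2
    rwa [map_ofNat] at this
  set t : F := (M g).trace with ht
  set d : F := (M g).det with hd
  obtain ⟨s, hs⟩ := hsq (t ^ 2 - 4 * d)
  set α : k := (ι₀ t + s) / 2 with hα
  set β : k := (ι₀ t - s) / 2 with hβ
  have hα2 : 2 * α = ι₀ t + s := by rw [hα, mul_div_cancel₀ _ h2k]
  have hβ2 : 2 * β = ι₀ t - s := by rw [hβ, mul_div_cancel₀ _ h2k]
  have hs' : s * s = ι₀ t ^ 2 - 4 * ι₀ d := by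
    rw [← hs, map_sub, map_pow, map_mul, map_ofNat]
  have ht' : ι₀ t = α + β := by
    apply mul_left_cancel₀ h2k
    rw [mul_add, hα2, hβ2]
    ring
  have hd' : ι₀ d = α * β := by
    apply mul_left_cancel₀ (mul_ne_zero h2k h2k)
    have : 2 * 2 * (α * β) = (2 * α) * (2 * β) := by ring
    rw [this, hα2, hβ2]
    linear_combination hs'
  refine ⟨α, β, ?_⟩
  rw [← LinearMap.charpoly_toMatrix (ρbar.ρ g) b, hM g, Matrix.charpoly_fin_two]
  have htr : ((M g).map ι₀).trace = ι₀ t := by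
    rw [ht, Matrix.trace_fin_two, Matrix.trace_fin_two, map_add]
    rfl
  have hdet : ((M g).map ι₀).det = ι₀ d := by
    rw [hd, Matrix.det_fin_two, Matrix.det_fin_two, map_sub, map_mul, map_mul]
    rfl
  rw [htr, hdet, hd', ht']
  simp only [map_add, map_mul]
  ring

end

end Fermat.Agent.Ihara
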