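/-
IHARA track / [RB] (helper9): `habs`, `hTW`, `hsplit` of S56 for the base change `ρ.baseChange k` of a
residual representation `ρ` over a field `F` which is irreducible and has a transvection in its image.
-/
import Fermat.Agent.Lib.Ihara.Rb.Bridge

set_option autoImplicit false
set_option linter.unusedSectionVars false

open Matrix Polynomial TensorProduct

namespace Fermat.Agent.Ihara

local notation "GQ" => (AlgebraicClosure ℚ ≃ₐ[ℚ] AlgebraicClosure ℚ)

noncomputable section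

variable {F : Type} [Field F] (ρ : ResidualGaloisRep F)

/-- a basis of the space of a residual representation -/
def ihrBasis : Module.Basis (Fin 2) F ρ.V := Module.finBasisOfFinrankEq _ _ ρ.finrank_eq

/-- the matrices of a residual representation -/
def ihrMat : GQ →* Matrix (Fin 2) (Fin 2) F :=
  ((LinearMap.toMatrixAlgEquiv (ihrBasis ρ) : Module.End F ρ.V ≃ₐ[F] Matrix (Fin 2) (Fin 2) F) :
    Module.End F ρ.V →* Matrix (Fin 2) (Fin 2) F).comp ρ.ρ

lemma ihrMat_apply (g : GQ) :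
    ihrMat ρ g = LinearMap.toMatrix (ihrBasis ρ) (ihrBasis ρ) (ρ.ρ g) := rfl

lemma ihrMat_mulVec (g : GQ) (x : ρ.V) :
    ihrMat ρ g *ᵥ (ihrBasis ρ).equivFun x = (ihrBasis ρ).equivFun (ρ.ρ g x) := by
  rw [ihrMat_apply]
  exact LinearMap.toMatrix_mulVec_repr (ihrBasis ρ) (ihrBasis ρ) (ρ.ρ g) x

/-- irreducibility of the matrices -/
theorem ihr_irr_mat (hirr : ρ.IsIrreducible) :
    ∀ W : Submodule F (Fin 2 → F), (∀ g : GQ, ∀ x ∈ W, ihrMat ρ g *ᵥ x ∈ W) → W = ⊥ ∨ W = ⊤ := by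
  intro W hW
  set e := (ihrBasis ρ).equivFun with he
  set W' : Submodule F ρ.V := W.comap e.toLinearMap with hW'
  have hst : ∀ σ : GQ, ∀ x ∈ W', ρ.ρ σ x ∈ W' := by
    intro σ x hx
    have h1 : e x ∈ W := hx
    have h2 := hW σ _ h1
    rw [he, ihrMat_mulVec] at h2
    exact h2
  rcases hirr W' hst with h | h
  · left
    rw [eq_bot_iff]
    intro y hy
    have h1 : e.symm y ∈ W' := by
      show e (e.symm y) ∈ W
      rwa [LinearEquiv.apply_symm_apply]
    rw [h, Submodule.mem_bot] at h1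
    rw [Submodule.mem_bot, ← e.apply_symm_apply y, h1, _root_.map_zero]
  · right
    rw [eq_top_iff]
    intro y _
    have h1 : e.symm y ∈ W' := by rw [h]; exact Submodule.mem_top
    have h2 : e (e.symm y) ∈ W := h1
    rwa [LinearEquiv.apply_symm_apply] at h2

/-- a transvection, in matrix form -/
theorem ihr_transvection_mat {σ : GQ} (hσ1 : ρ.ρ σ ≠ 1)
    (hσ2 : (ρ.ρ σ - 1) * (ρ.ρ σ - 1) = 0) :
    ihrMat ρ σ ≠ 1 ∧ (ihrMat ρ σ - 1) * (ihrMat ρ σ - 1) = 0 := by
  constructor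
  · intro h1
    apply hσ1
    apply (LinearMap.toMatrixAlgEquiv (ihrBasis ρ)).injective
    rw [map_one]
    exact h1
  · have h4 := congrArg (LinearMap.toMatrixAlgEquiv (ihrBasis ρ)) hσ2
    rw [map_mul, map_sub, map_one, _root_.map_zero] at h4
    exact h4

variable (k : Type) [Field k] [Algebra F k]

/-- the basis of `k ⊗ V` -/
def ihrBasisK : Module.Basis (Fin 2) k (ρ.baseChange k).V :=
  Algebra.TensorProduct.basis k (ihrBasis ρ)

/-- `ρ.baseChange k` is defined over `F` -/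
theorem ihr_toMatrix (g : GQ) :
    LinearMap.toMatrix (ihrBasisK ρ k) (ihrBasisK ρ k) ((ρ.baseChange k).ρ g) =
      (ihrMat ρ g).map (algebraMap F k) := by
  rw [ihrMat_apply]
  exact LinearMap.toMatrix_baseChange k (ρ.ρ g) (ihrBasis ρ) (ihrBasis ρ)

/-- base change does not change the kernel -/
theorem ihr_baseChange_ρ_eq_one_iff (g : GQ) : (ρ.baseChange k).ρ g = 1 ↔ ρ.ρ g = 1 := by
  constructor
  · intro h
    have h1 := ihr_toMatrix ρ k g
    rw [h, Module.End.one_eq_id, LinearMap.toMatrix_id] at h1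
    have h2 : (ihrMat ρ g).map (algebraMap F k) = (1 : Matrix (Fin 2) (Fin 2) F).map (algebraMap F k) := by
      rw [← h1, Matrix.map_one _ (map_zero _) (map_one _)]
    have h3 : ihrMat ρ g = 1 := Matrix.map_injective (algebraMap F k).injective h2
    apply (LinearMap.toMatrixAlgEquiv (ihrBasis ρ)).injective
    rw [map_one]
    exact h3
  · intro h
    show (ρ.ρ g).baseChange k = 1
    rw [h]
    exact LinearMap.baseChange_one _ _

/-- base change of a scalar -/
theorem ihr_baseChange_ρ_scalar {g : GQ} {c : F} (h : ρ.ρ g = c • 1) :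
    (ρ.baseChange k).ρ g = algebraMap F k c • 1 := by
  show (ρ.ρ g).baseChange k = algebraMap F k c • 1
  rw [h]
  apply LinearMap.ext
  intro z
  induction z using TensorProduct.induction_on with
  | zero => simp
  | tmul a v =>
    rw [LinearMap.baseChange_tmul, LinearMap.smul_apply, LinearMap.smul_apply, Module.End.one_apply,
      Module.End.one_apply, TensorProduct.smul_tmul', smul_eq_mul, ← Algebra.smul_def,
      TensorProduct.smul_tmul]
  | add x y hx hy => rw [map_add, map_add, hx, hy]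

/-- **`habs`** -/
theorem ihr_habs_gen (h2 : (2 : F) ≠ 0) (hirr : ρ.IsIrreducible) {σ : GQ} (hσ1 : ρ.ρ σ ≠ 1)
    (hσ2 : (ρ.ρ σ - 1) * (ρ.ρ σ - 1) = 0) : (ρ.baseChange k).IsAbsolutelyIrreducible := by
  obtain ⟨h1, h3⟩ := ihr_transvection_mat ρ hσ1 hσ2
  exact ihr_habs_of_matrix (algebraMap F k) (ρ.baseChange k) (ihrBasisK ρ k) (ihrMat ρ)
    (ihr_toMatrix ρ k) h2 (ihr_irr_mat ρ hirr) σ h1 h3

/-- **`hTW`** -/
theorem ihr_hTW_gen (h2 : (2 : F) ≠ 0) (hirr : ρ.IsIrreducible) {σ : GQ} (hσ1 : ρ.ρ σ ≠ 1)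
    (hσ2 : (ρ.ρ σ - 1) * (ρ.ρ σ - 1) = 0) :
    ∀ (K : Type) [Field K] [Algebra k K] (G : Subgroup GQ), G.index = 2 →
      ∀ V : Submodule K ((ρ.baseChange k).baseChange K).V,
        (∀ s ∈ G, ∀ x ∈ V, ((ρ.baseChange k).baseChange K).ρ s x ∈ V) → V = ⊥ ∨ V = ⊤ := by
  obtain ⟨h1, h3⟩ := ihr_transvection_mat ρ hσ1 hσ2
  exact ihr_hTW_of_matrix (algebraMap F k) (ρ.baseChange k) (ihrBasisK ρ k) (ihrMat ρ)
    (ihr_toMatrix ρ k) h2 (ihr_irr_mat ρ hirr) σ h1 h3

/-- **`hsplit`**, if `F ⊆ k²` -/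
theorem ihr_hsplit_gen (h2 : (2 : F) ≠ 0) (hsq : ∀ a : F, IsSquare (algebraMap F k a)) (g : GQ) :
    ∃ α β : k, LinearMap.charpoly ((ρ.baseChange k).ρ g) = (X - C α) * (X - C β) :=
  ihr_hsplit_of_matrix (algebraMap F k) (ρ.baseChange k) (ihrBasisK ρ k) (ihrMat ρ)
    (ihr_toMatrix ρ k) h2 hsq g

end

end Fermat.Agent.Ihara
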