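/-
IHARA track / [RB] (helper9): the residual representation of the Frey curve.

* `ihrE P : ResidualGaloisRep (ZMod P.p)` : `E[p]` (Prelude's `residualGaloisRepOf`);
* `ihrRep P k := (ihrE P).baseChange k` for a field `k` of characteristic `p`;
* `ihr_habs`, `ihr_hTW`, `ihr_hsplit` : the hypotheses `habs`, `hTW`, `hsplit` of S56 for `ihrRep P k`,
  from the irreducibility of `E[p]` (Mazur) and the transvection in the image of the inertia at `2`.
-/
import Fermat.Agent.Lib.T1.Asm.Res.S42Glue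
import Fermat.Agent.Lib.S13.AtTwo.FreyTwo
import Fermat.Agent.Lib.Delta.Wire.AtTwo
import Fermat.Agent.Lib.Ihara.Rb.Gen

set_option autoImplicit false
set_option linter.unusedSectionVars false
set_option linter.style.haveILetI false

open Polynomial WeierstrassCurve WeierstrassCurve.Affine WeierstrassCurve.Affine.Point

namespace Fermat.Agent.Ihara

local notation "Qb" => AlgebraicClosure ℚ
local notation "GQ" => (AlgebraicClosure ℚ ≃ₐ[ℚ] AlgebraicClosure ℚ)

noncomputable section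

variable (P : FreyPackage) [Fact P.p.Prime]

/-- the mod `p` representation of the Frey curve -/
def ihrE : ResidualGaloisRep (ZMod P.p) :=
  P.freyCurve.residualGaloisRepOf P.p
    (Fermat.Agent.S13Lib.Torsion.natCard_torsionBy_frey P P.hppos)
    (Fermat.Agent.T1.ter_frey_finiteLevel P)

lemma ihrE_ρ_apply (σ : GQ) (x : Fermat.Agent.S13Lib.Tors P.freyCurve P.p) :
    (ihrE P).ρ σ x = σ • x := rfl

/-- irreducibility in the Prelude's form is irreducibility of `ihrE P` -/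
theorem ihrE_isIrreducible (hirr : GaloisRepIsIrreducible (K := Qb) ℚ P.freyCurve P.p) :
    (ihrE P).IsIrreducible :=
  fun W hW => hirr.2 W (fun σ x hx => hW σ x hx)

/-- **the transvection** in the image of the inertia group at `2` -/
theorem ihrE_exists_transvection' :
    ∃ (A : ValuationSubring Qb) (σ : GQ), A.LiesOverPrime 2 ∧ σ ∈ A.inertiaSubgroupIn ℚ ∧
      (ihrE P).ρ σ ≠ 1 ∧ ((ihrE P).ρ σ - 1) * ((ihrE P).ρ σ - 1) = 0 := by
  obtain ⟨A, hA⟩ :=
    Fermat.Agent.Lib.Helper6.exists_valuationSubring_liesOverPrime Qb Nat.prime_two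
  set 𝔓 : Fermat.Agent.TW.FFPlace := ⟨A, 2, Nat.prime_two, hA⟩ with h𝔓
  obtain ⟨σ, hσ, T, hT, hσT⟩ := Fermat.Agent.Delta.dlw_frey_ramified_two P 𝔓 rfl
  have hTmem : T ∈ Submodule.torsionBy ℤ (P.freyCurve.toAffine⁄Qb).Point (P.p : ℤ) := by
    rw [Submodule.mem_torsionBy_iff, natCast_zsmul]
    exact hT
  refine ⟨A, σ, hA, hσ, ?_, ?_⟩
  · intro h2
    have h3 : (ihrE P).ρ σ (⟨T, hTmem⟩ : Fermat.Agent.S13Lib.Tors P.freyCurve P.p) =
        (⟨T, hTmem⟩ : Fermat.Agent.S13Lib.Tors P.freyCurve P.p) := by rw [h2]; rfl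
    rw [ihrE_ρ_apply] at h3
    exact hσT (congrArg Subtype.val h3)
  · apply LinearMap.ext
    intro x
    have h2 := Fermat.Agent.S13Lib.frey_inertia_two_unipotent P A hA σ hσ x
    show (ihrE P).ρ σ ((ihrE P).ρ σ x - x) - ((ihrE P).ρ σ x - x) = 0
    rw [sub_eq_zero]
    exact h2

theorem ihrE_exists_transvection :
    ∃ σ : GQ, (ihrE P).ρ σ ≠ 1 ∧ ((ihrE P).ρ σ - 1) * ((ihrE P).ρ σ - 1) = 0 := by
  obtain ⟨A, σ, -, -, h1, h2⟩ := ihrE_exists_transvection' P
  exact ⟨σ, h1, h2⟩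

/-- `2 ≠ 0` in `𝔽_p` -/
lemma ihr_two_ne_zero : (2 : ZMod P.p) ≠ 0 := by
  intro h
  have h' : ((2 : ℕ) : ZMod P.p) = 0 := by exact_mod_cast h
  rw [ZMod.natCast_eq_zero_iff] at h'
  have := Nat.le_of_dvd (by norm_num) h'
  have := P.hp5
  omega

variable (k : Type) [Field k] [Algebra (ZMod P.p) k]

/-- the mod `p` representation of the Frey curve with coefficients in `k` -/
def ihrRep : ResidualGaloisRep k := (ihrE P).baseChange k

/-- **`habs`** -/
theorem ihr_habs (hirr : GaloisRepIsIrreducible (K := Qb) ℚ P.freyCurve P.p) :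
    (ihrRep P k).IsAbsolutelyIrreducible := by
  obtain ⟨σ, hσ1, hσ2⟩ := ihrE_exists_transvection P
  exact ihr_habs_gen (ihrE P) k (ihr_two_ne_zero P) (ihrE_isIrreducible P hirr) hσ1 hσ2

/-- **`hTW`** -/
theorem ihr_hTW (hirr : GaloisRepIsIrreducible (K := Qb) ℚ P.freyCurve P.p) :
    ∀ (K : Type) [Field K] [Algebra k K] (G : Subgroup GQ), G.index = 2 →
      ∀ V : Submodule K ((ihrRep P k).baseChange K).V,
        (∀ s ∈ G, ∀ x ∈ V, ((ihrRep P k).baseChange K).ρ s x ∈ V) → V = ⊥ ∨ V = ⊤ := by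
  obtain ⟨σ, hσ1, hσ2⟩ := ihrE_exists_transvection P
  exact ihr_hTW_gen (ihrE P) k (ihr_two_ne_zero P) (ihrE_isIrreducible P hirr) hσ1 hσ2

/-- **`hsplit`**, if `𝔽_p ⊆ k²` -/
theorem ihr_hsplit (hsq : ∀ a : ZMod P.p, IsSquare (algebraMap (ZMod P.p) k a)) (g : GQ) :
    ∃ α β : k, LinearMap.charpoly ((ihrRep P k).ρ g) = (X - C α) * (X - C β) :=
  ihr_hsplit_gen (ihrE P) k (ihr_two_ne_zero P) hsq g

end

end Fermat.Agent.Ihara
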