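/-
IHARA track / [RB] (helper9): Frobenius elements, determinant and ramification of the residual
representation of the Frey curve.

* `ihr_charpoly_frob` : for an integral model `W` of the Frey curve and a Frobenius element `σ` at a
  good prime `ℓ ≠ p`: `charpoly (ρ σ) = X² - a_ℓ(W) X + ℓ` (for `ihrE P` and `ihrRep P k`);
* `ihr_det_E`, `ihr_hdet` : `det = ` cyclotomic character (Chebotarev);
* `ihr_unramified`, `ihr_ramified_two`, `ihr_hmin` : ramification, `Smin = {2, p}`;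
* `ihr_scalar` : scalar Frobenius.
-/
import Fermat.Agent.Lib.S58.Cheb
import Fermat.Agent.Lib.S58.ET
import Fermat.Agent.Lib.Mazur2.Frey.FrobCyclo
import Fermat.Agent.Lib.Mazur2.Frey.Model
import Fermat.Agent.S05
import Fermat.Agent.Lib.Ihara.Rb.Frey

set_option autoImplicit false
set_option linter.unusedSectionVars false
set_option linter.style.haveILetI false

open Polynomial WeierstrassCurve WeierstrassCurve.Affine WeierstrassCurve.Affine.Point
open Fermat.Agent.S58 Fermat.Agent.S13Lib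

namespace Fermat.Agent.Ihara

local notation "Qb" => AlgebraicClosure ℚ
local notation "GQ" => (AlgebraicClosure ℚ ≃ₐ[ℚ] AlgebraicClosure ℚ)

noncomputable section

/-- the characteristic polynomial of an endomorphism of a plane -/
theorem ihr_charpoly_eq {F V : Type*} [Field F] [AddCommGroup V] [Module F V]
    [Module.Finite F V] (hV : Module.finrank F V = 2) (f : Module.End F V) :
    LinearMap.charpoly f = X ^ 2 - C (LinearMap.trace F V f) * X + C (LinearMap.det f) := by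
  classical
  let bV : Module.Basis (Fin 2) F V := Module.finBasisOfFinrankEq F V hV
  rw [← LinearMap.charpoly_toMatrix f bV, Matrix.charpoly_fin_two,
    LinearMap.trace_eq_matrix_trace F bV f, ← LinearMap.det_toMatrix bV f]

variable (P : FreyPackage) [Fact P.p.Prime]

/-- the Galois-equivariant linear isomorphism between `E[p]` and the `p`-torsion of an integral
model -/
theorem ihr_exists_equiv' {W : WeierstrassCurve ℤ} (hW : W.IsIntegralModelOf P.freyCurve) :
    ∃ e : Tors P.freyCurve P.p ≃ₗ[ZMod P.p] S58Tors W P.p,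
      ∀ (σ : GQ) (x : Tors P.freyCurve P.p), e (σ • x) = σ • e x := by
  obtain ⟨C, hC⟩ := hW
  obtain ⟨φ, hφ⟩ := exists_equivariant_equiv_of_eq P.freyCurve (s58E W) C hC.symm
  have h1 : ∀ x : (P.freyCurve.toAffine⁄Qb).Point,
      x ∈ Submodule.torsionBy ℤ (P.freyCurve.toAffine⁄Qb).Point (P.p : ℤ) →
      φ x ∈ Submodule.torsionBy ℤ ((s58E W).toAffine⁄Qb).Point (P.p : ℤ) := by
    intro x hx
    rw [Submodule.mem_torsionBy_iff] at hx ⊢
    rw [← map_zsmul, hx, _root_.map_zero]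
  have h2 : ∀ y : ((s58E W).toAffine⁄Qb).Point,
      y ∈ Submodule.torsionBy ℤ ((s58E W).toAffine⁄Qb).Point (P.p : ℤ) →
      φ.symm y ∈ Submodule.torsionBy ℤ (P.freyCurve.toAffine⁄Qb).Point (P.p : ℤ) := by
    intro x hx
    rw [Submodule.mem_torsionBy_iff] at hx ⊢
    rw [← map_zsmul, hx, _root_.map_zero]
  let ψ : Tors P.freyCurve P.p ≃+ S58Tors W P.p :=
    { toFun := fun x => ⟨φ x, h1 x x.2⟩
      invFun := fun y => ⟨φ.symm y, h2 y y.2⟩
      left_inv := fun x => Subtype.ext (φ.symm_apply_apply x)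
      right_inv := fun y => Subtype.ext (φ.apply_symm_apply y)
      map_add' := fun x y => Subtype.ext (map_add φ (x : (P.freyCurve.toAffine⁄Qb).Point)
        (y : (P.freyCurve.toAffine⁄Qb).Point)) }
  refine ⟨LinearEquiv.ofBijective (ψ.toAddMonoidHom.toZModLinearMap P.p) ψ.bijective, ?_⟩
  intro σ x
  apply Subtype.ext
  exact hφ σ (x : (P.freyCurve.toAffine⁄Qb).Point)

/-- the same, for `ihrE P` -/
theorem ihr_exists_equiv {W : WeierstrassCurve ℤ} (hW : W.IsIntegralModelOf P.freyCurve) :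
    ∃ e : (ihrE P).V ≃ₗ[ZMod P.p] S58Tors W P.p,
      ∀ (σ : GQ) (x : (ihrE P).V), e ((ihrE P).ρ σ x) = s58Gal W P.p σ (e x) :=
  ihr_exists_equiv' P hW

/-- **Frobenius characteristic polynomials of `E[p]`** -/
theorem ihr_charpoly_frob_E {W : WeierstrassCurve ℤ} (hW : W.IsIntegralModelOf P.freyCurve)
    (hΔ : W.Δ ≠ 0) {ℓ : ℕ} (hℓ : ℓ.Prime) (hgood : ¬ (ℓ : ℤ) ∣ W.Δ) (hℓp : ℓ ≠ P.p)
    (A : ValuationSubring Qb) (hA : A.LiesOverPrime ℓ) (σ : GQ) (hσ : A.IsFrobeniusAt σ ℓ) :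
    LinearMap.trace (ZMod P.p) (ihrE P).V ((ihrE P).ρ σ) = ((W.apOfModel ℓ : ℤ) : ZMod P.p) ∧
    LinearMap.det ((ihrE P).ρ σ) = ((ℓ : ℕ) : ZMod P.p) ∧
    LinearMap.charpoly ((ihrE P).ρ σ) =
      X ^ 2 - C (((W.apOfModel ℓ : ℤ) : ZMod P.p)) * X + C (((ℓ : ℕ) : ZMod P.p)) := by
  have hp : P.p.Prime := Fact.out
  obtain ⟨e, he⟩ := ihr_exists_equiv P hW
  obtain ⟨htr, hdet⟩ := s58_et W hΔ ℓ P.p 1 P.p hℓ hgood hp (Ne.symm hℓp) (pow_one _).symm A hA σ hσ
  have hconj : s58Gal W P.p σ = e.conj ((ihrE P).ρ σ) := by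
    apply LinearMap.ext
    intro y
    rw [LinearEquiv.conj_apply_apply]
    have := he σ (e.symm y)
    rw [LinearEquiv.apply_symm_apply] at this
    exact this.symm
  have h1 : LinearMap.trace (ZMod P.p) (ihrE P).V ((ihrE P).ρ σ) =
      ((W.apOfModel ℓ : ℤ) : ZMod P.p) := by
    rw [← htr, hconj, LinearMap.trace_conj']
  have h2 : LinearMap.det ((ihrE P).ρ σ) = ((ℓ : ℕ) : ZMod P.p) := by
    rw [← hdet, hconj, LinearEquiv.conj_apply, LinearMap.comp_assoc, LinearMap.det_conj]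
  refine ⟨h1, h2, ?_⟩
  rw [ihr_charpoly_eq (ihrE P).finrank_eq, h1, h2]

/-- the integral model `freyCurveInt` -/
theorem ihr_freyCurveInt_model : P.freyCurveInt.IsIntegralModelOf P.freyCurve :=
  ⟨1, by rw [one_smul, Fermat.Agent.Mazur2.mz2f_frey_eq]⟩

/-- **`det = ` cyclotomic character on `E[p]`** -/
theorem ihr_det_E (σ : GQ) :
    LinearMap.det ((ihrE P).ρ σ) = ((ExtCitation.cycloChar P.p σ : (ZMod P.p)ˣ) : ZMod P.p) := by
  classical
  have hp : P.p.Prime := Fact.out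
  set ρ' : GQ →* (Module.End (ZMod P.p) (ihrE P).V)ˣ × (ZMod P.p)ˣ :=
    ((ihrE P).ρ.toHomUnits).prod (ExtCitation.cycloChar P.p) with hρ'
  have hfin : GaloisFactorsThroughFiniteLevel ρ' := by
    obtain ⟨Lρ, hLρfin, hLρ⟩ := (ihrE P).factorsThroughFiniteLevel
    haveI := hLρfin
    obtain ⟨ζ, hζ⟩ := HasEnoughRootsOfUnity.exists_primitiveRoot Qb P.p
    haveI := Fermat.Agent.Lib.Helper6.isGalois_rat_algebraicClosure
    have hζint : IsIntegral ℚ ζ := Algebra.IsIntegral.isIntegral ζ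
    haveI : FiniteDimensional ℚ (IntermediateField.adjoin ℚ {ζ}) :=
      IntermediateField.adjoin.finiteDimensional hζint
    refine ⟨Lρ ⊔ IntermediateField.adjoin ℚ {ζ}, inferInstance, fun s hs => ?_⟩
    have h1 : (ihrE P).ρ s = 1 := hLρ s (fun x hx => hs x ((le_sup_left : Lρ ≤ _) hx))
    have hsζ : s ζ = ζ := hs ζ ((le_sup_right : IntermediateField.adjoin ℚ {ζ} ≤ _)
      (IntermediateField.mem_adjoin_simple_self ℚ ζ))
    have h2 : ∀ t : Qb, t ^ P.p = 1 → s t = t := by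
      intro t ht
      haveI : NeZero P.p := ⟨hp.ne_zero⟩
      obtain ⟨i, -, rfl⟩ := hζ.eq_pow_of_pow_eq_one ht
      rw [map_pow, hsζ]
    rw [hρ', MonoidHom.prod_apply, Prod.mk_eq_one]
    refine ⟨Units.ext ?_, Fermat.Agent.CFT.Bridge.cycloChar_eq_one_of_fixes P.p s h2⟩
    rw [MonoidHom.coe_toHomUnits, h1, Units.val_one]
  set T : Finset ℕ := insert P.p P.freyCurveInt.Δ.natAbs.primeFactors with hT
  obtain ⟨ℓ, hℓ, hℓT, A, φ, hA, hφ, heq⟩ := s58c_exists_frob ρ' hfin T σ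
  have hℓp : ℓ ≠ P.p := fun h => hℓT (h ▸ Finset.mem_insert_self _ _)
  have hgood : ¬ (ℓ : ℤ) ∣ P.freyCurveInt.Δ := by
    intro hdvd
    apply hℓT
    rw [hT, Finset.mem_insert]
    right
    rw [Nat.mem_primeFactors]
    refine ⟨hℓ, Int.natCast_dvd.1 hdvd, ?_⟩
    rw [Ne, Int.natAbs_eq_zero]
    exact Fermat.Agent.Mazur2.mz2f_Δ_ne_zero P
  rw [hρ', MonoidHom.prod_apply, MonoidHom.prod_apply, Prod.mk.injEq] at heq
  obtain ⟨heq1, heq2⟩ := heq
  have heq1' : (ihrE P).ρ φ = (ihrE P).ρ σ := by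
    have := congrArg Units.val heq1
    rwa [MonoidHom.coe_toHomUnits, MonoidHom.coe_toHomUnits] at this
  rw [← heq1', ← heq2,
    (ihr_charpoly_frob_E P (ihr_freyCurveInt_model P) (Fermat.Agent.Mazur2.mz2f_Δ_ne_zero P) hℓ hgood
      hℓp A hA φ hφ).2.1, ExtCitation.coe_cycloChar,
    Fermat.Agent.Mazur2.mz2g_cycloExp_frob hℓ hℓp A hA φ hφ]

variable (k : Type) [Field k] [Algebra (ZMod P.p) k]

/-- **Frobenius characteristic polynomials of `ihrRep P k`** (the `hfrob` of `ihd_exists_datum`) -/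
theorem ihr_charpoly_frob {W : WeierstrassCurve ℤ} (hW : W.IsIntegralModelOf P.freyCurve)
    (hΔ : W.Δ ≠ 0) {ℓ : ℕ} (hℓ : ℓ.Prime) (hgood : ¬ (ℓ : ℤ) ∣ W.Δ) (hℓp : ℓ ≠ P.p)
    (A : ValuationSubring Qb) (hA : A.LiesOverPrime ℓ) (σ : GQ) (hσ : A.IsFrobeniusAt σ ℓ) :
    LinearMap.charpoly ((ihrRep P k).ρ σ) =
      X ^ 2 - C (((W.apOfModel ℓ : ℤ) : k)) * X + C (((ℓ : ℕ) : k)) := by
  have h1 := (ihr_charpoly_frob_E P hW hΔ hℓ hgood hℓp A hA σ hσ).2.2
  have h2 : LinearMap.charpoly ((ihrRep P k).ρ σ) =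
      (LinearMap.charpoly ((ihrE P).ρ σ)).map (algebraMap (ZMod P.p) k) :=
    LinearMap.charpoly_baseChange ((ihrE P).ρ σ) k
  rw [h2, h1, Polynomial.map_add, Polynomial.map_sub, Polynomial.map_mul, Polynomial.map_pow,
    Polynomial.map_X, Polynomial.map_C, Polynomial.map_C, map_intCast, map_natCast]

/-- `p = 0` in `k` -/
lemma ihr_p_eq_zero : (P.p : k) = 0 := by
  have h : ((P.p : ZMod P.p) : ZMod P.p) = 0 := ZMod.natCast_self P.p
  have := congrArg (algebraMap (ZMod P.p) k) h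
  rwa [map_natCast, _root_.map_zero] at this

/-- **`hdet`** -/
theorem ihr_hdet :
    (GaloisRepAdic.ofResidualGaloisRep (ihrRep P k)).DetIsCyclotomic P.p := by
  have hp : P.p.Prime := Fact.out
  refine ⟨?_, ?_⟩
  · rw [ihr_p_eq_zero]
    exact Submodule.zero_mem _
  · intro n σ a ha
    rcases Nat.eq_zero_or_pos n with rfl | hn
    · rw [pow_zero, Nat.cast_one, Ideal.span_singleton_one]
      exact Submodule.mem_top
    · have hp0 : ((P.p ^ n : ℕ) : k) = 0 := by
        push_cast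
        rw [ihr_p_eq_zero, zero_pow hn.ne']
      rw [hp0, Ideal.span_singleton_zero, Ideal.mem_bot, sub_eq_zero]
      -- `a ≡ cycloExp σ mod p`
      obtain ⟨ζ, hζ⟩ := HasEnoughRootsOfUnity.exists_primitiveRoot Qb P.p
      have hζp : ζ ^ P.p = 1 := hζ.pow_eq_one
      have hζpn : ζ ^ P.p ^ n = 1 := by
        obtain ⟨m, rfl⟩ : ∃ m, n = m + 1 := ⟨n - 1, by omega⟩
        rw [pow_succ', pow_mul, hζp, one_pow]
      have h1 : σ ζ = ζ ^ a := ha ζ hζpn
      have h2 : σ ζ = ζ ^ ExtCitation.cycloExp P.p σ :=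
        Fermat.Agent.CFT.S14.apply_eq_pow_cycloExp P.p σ hζp
      have h3 : ζ ^ a = ζ ^ ExtCitation.cycloExp P.p σ := by rw [← h1, h2]
      have h4 : a ≡ ExtCitation.cycloExp P.p σ [MOD P.p] := by
        set u : Qbˣ := Units.ofPowEqOne ζ P.p hζp hp.ne_zero with hu
        have huz : (u : Qb) = ζ := Units.val_ofPowEqOne _ _ _ _
        have h3u : u ^ a = u ^ ExtCitation.cycloExp P.p σ := by
          apply Units.ext
          rw [Units.val_pow_eq_pow_val, Units.val_pow_eq_pow_val, huz]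
          exact h3
        have := pow_eq_pow_iff_modEq.1 h3u
        rwa [← orderOf_units, huz, ← hζ.eq_orderOf] at this
      have h5 : ((a : ℕ) : ZMod P.p) = ((ExtCitation.cycloExp P.p σ : ℕ) : ZMod P.p) :=
        (ZMod.natCast_eq_natCast_iff _ _ _).2 h4
      have h6 : LinearMap.det ((ihrRep P k).ρ σ) =
          algebraMap (ZMod P.p) k (LinearMap.det ((ihrE P).ρ σ)) :=
        LinearMap.det_baseChange ((ihrE P).ρ σ)
      show LinearMap.det ((ihrRep P k).ρ σ) = (a : k)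
      rw [h6, ihr_det_E, ExtCitation.coe_cycloChar, ← h5, map_natCast]

/-- unramified primes -/
theorem ihr_unramified {r : ℕ} (h : P.GaloisRepUnramifiedAt r) : (ihrRep P k).IsUnramifiedAt r := by
  intro A hA σ hσ
  have h1 : (ihrE P).ρ σ = 1 := LinearMap.ext (fun x => h A hA σ hσ x)
  show ((ihrE P).ρ σ).baseChange k = 1
  rw [h1]
  exact LinearMap.baseChange_one _ _

/-- `E[p]` is ramified at `2` -/
theorem ihr_ramified_two : ¬ (ihrRep P k).IsUnramifiedAt 2 := by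
  obtain ⟨A, σ, hA, hσ, h1, -⟩ := ihrE_exists_transvection' P
  intro h
  exact h1 ((ihr_baseChange_ρ_eq_one_iff (ihrE P) k σ).1 (h A hA σ hσ))

/-- **`hmin`** with `Smin = {2, p}` -/
theorem ihr_hmin : ∀ q : ℕ, q.Prime → q ≠ P.p →
    (q ∈ ({2, P.p} : Finset ℕ) ↔ ¬ (ihrRep P k).IsUnramifiedAt q) := by
  intro q hq hqp
  constructor
  · intro hmem
    rw [Finset.mem_insert, Finset.mem_singleton] at hmem
    rcases hmem with rfl | h
    · exact ihr_ramified_two P k
    · exact absurd h hqp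
  · intro hram
    by_contra hmem
    rw [Finset.mem_insert, Finset.mem_singleton, not_or] at hmem
    exact hram (ihr_unramified P k (Fermat.Agent.S05.result P hq hmem.1 hqp))

/-- scalar Frobenius elements -/
theorem ihr_scalar {φ : GQ} (hsc : ∃ c : ℤ, ∀ x : Tors P.freyCurve P.p, φ • x = c • x) :
    ∃ c : k, (ihrRep P k).ρ φ = c • 1 := by
  obtain ⟨c, hc⟩ := hsc
  have h : (ihrE P).ρ φ = ((c : ℤ) : ZMod P.p) • 1 := by
    apply LinearMap.ext
    intro x
    show (ihrE P).ρ φ x = ((c : ℤ) : ZMod P.p) • x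
    rw [Int.cast_smul_eq_zsmul]
    exact hc x
  exact ⟨_, ihr_baseChange_ρ_scalar (ihrE P) k h⟩

end

end Fermat.Agent.Ihara
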