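/-
IHARA track / [RB] (helper9): the C-primes (`v ≡ 1 mod p`, `E[p]` unramified at `v`, scalar
Frobenius).

* `ihr_sign` : a scalar Frobenius element at a prime `v ≡ 1 mod p` acts on `E[p] ⊗ k` as the residue
  of a sign `cs ∈ 𝒪ˣ`, `cs² = 1` (fields `cs`, `hcs`, `hcsρ` of `iha_main`);
* `ihr_inertia_eq_one` : inertia elements at an unramified prime act trivially (field `hσρ`);
* `iho_sub_one_mem` : `v - 1 ∈ 𝔪_𝒪` (field `hTc1`);
* `iho_isUnit_two` : `2 ∈ 𝒪ˣ`.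
-/
import Fermat.Agent.Lib.Ihara.Rb.Frob

set_option autoImplicit false
set_option linter.unusedSectionVars false
set_option linter.style.haveILetI false

open IsLocalRing

namespace Fermat.Agent.Ihara

local notation "Qb" => AlgebraicClosure ℚ
local notation "GQ" => (AlgebraicClosure ℚ ≃ₐ[ℚ] AlgebraicClosure ℚ)

noncomputable section

/-- `v - 1 ∈ 𝔪` for `v ≡ 1 mod p`, `p ∈ 𝔪` -/
theorem iho_sub_one_mem {𝒪 : Type*} [CommRing 𝒪] [IsLocalRing 𝒪] {p v : ℕ}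
    (hp𝒪 : (p : 𝒪) ∈ maximalIdeal 𝒪) (hv : 0 < v) (h1 : p ∣ v - 1) :
    ((v : 𝒪) - 1) ∈ maximalIdeal 𝒪 := by
  obtain ⟨m, hm⟩ := h1
  have h2 : v = 1 + p * m := by omega
  rw [h2]
  push_cast
  rw [add_sub_cancel_left]
  exact Ideal.mul_mem_right _ _ hp𝒪

/-- `2` is a unit of a local ring of odd residue characteristic -/
theorem iho_isUnit_two {𝒪 : Type*} [CommRing 𝒪] [IsLocalRing 𝒪] {p : ℕ} (hp : p.Prime)
    (hp2 : p ≠ 2) (hp𝒪 : (p : 𝒪) ∈ maximalIdeal 𝒪) : IsUnit (2 : 𝒪) := by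
  by_contra h2n
  have h2m : (2 : 𝒪) ∈ maximalIdeal 𝒪 := h2n
  obtain ⟨m, hm⟩ : Odd p := hp.eq_two_or_odd'.resolve_left hp2
  have h1 : (1 : 𝒪) ∈ maximalIdeal 𝒪 := by
    have e : (1 : 𝒪) = (p : 𝒪) - 2 * (m : 𝒪) := by
      rw [hm]
      push_cast
      ring
    rw [e]
    exact Ideal.sub_mem _ hp𝒪 (Ideal.mul_mem_right _ _ h2m)
  exact (Ideal.ne_top_iff_one _).mp (maximalIdeal.isMaximal 𝒪).ne_top h1

variable (P : FreyPackage) [Fact P.p.Prime]

/-- **the sign of a scalar Frobenius element at a prime `v ≡ 1 mod p`** -/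
theorem ihr_sign {𝒪 : Type} [CommRing 𝒪] [IsLocalRing 𝒪] [Algebra (ZMod P.p) (ResidueField 𝒪)]
    {v : ℕ} (hv : v.Prime) (hvp : v ≠ P.p) (h1 : P.p ∣ v - 1)
    {A : ValuationSubring Qb} (hA : A.LiesOverPrime v) {φ : GQ} (hφ : A.IsFrobeniusAt φ v)
    (hsc : ∃ c : ℤ, ∀ x : Fermat.Agent.S13Lib.Tors P.freyCurve P.p, φ • x = c • x) :
    ∃ cs : 𝒪ˣ, (cs : 𝒪) ^ 2 = 1 ∧
      (ihrRep P (ResidueField 𝒪)).ρ φ = residue 𝒪 (cs : 𝒪) • 1 := by
  have hp : P.p.Prime := Fact.out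
  obtain ⟨c, hc⟩ := hsc
  have h : (ihrE P).ρ φ = ((c : ℤ) : ZMod P.p) • 1 := by
    apply LinearMap.ext
    intro x
    show (ihrE P).ρ φ x = ((c : ℤ) : ZMod P.p) • x
    rw [Int.cast_smul_eq_zsmul]
    exact hc x
  -- the determinant
  have hdet : LinearMap.det ((ihrE P).ρ φ) = ((c : ℤ) : ZMod P.p) ^ 2 := by
    rw [h, LinearMap.det_smul, (ihrE P).finrank_eq, map_one, mul_one]
  have hcyc : LinearMap.det ((ihrE P).ρ φ) = (v : ZMod P.p) := by
    rw [ihr_det_E, ExtCitation.coe_cycloChar]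
    exact Fermat.Agent.Mazur2.mz2g_cycloExp_frob hv hvp A hA φ hφ
  have hv1 : (v : ZMod P.p) = 1 := by
    obtain ⟨m, hm⟩ := h1
    have h2 : v = 1 + P.p * m := by have := hv.pos; omega
    rw [h2]
    push_cast
    rw [ZMod.natCast_self, zero_mul, add_zero]
  have hsq : ((c : ℤ) : ZMod P.p) * ((c : ℤ) : ZMod P.p) = 1 := by
    rw [← pow_two, ← hdet, hcyc, hv1]
  have hk := ihr_baseChange_ρ_scalar (ihrE P) (ResidueField 𝒪) h
  rcases mul_self_eq_one_iff.1 hsq with h1' | h1'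
  · refine ⟨1, by simp, ?_⟩
    show ((ihrE P).baseChange (ResidueField 𝒪)).ρ φ = _
    rw [hk, h1', map_one, Units.val_one, map_one]
    rfl
  · refine ⟨-1, by simp, ?_⟩
    show ((ihrE P).baseChange (ResidueField 𝒪)).ρ φ = _
    rw [hk, h1', map_neg, map_one, Units.val_neg, Units.val_one, map_neg, map_one]
    rfl

/-- inertia elements at an unramified prime act trivially -/
theorem ihr_inertia_eq_one (k : Type) [Field k] [Algebra (ZMod P.p) k] {v : ℕ}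
    (hunr : P.GaloisRepUnramifiedAt v) {A : ValuationSubring Qb} (hA : A.LiesOverPrime v)
    {σ : GQ} (hσ : σ ∈ A.inertiaSubgroupIn ℚ) : (ihrRep P k).ρ σ = 1 :=
  ihr_unramified P k hunr A hA σ hσ

end

end Fermat.Agent.Ihara
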