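/-
IHARA track / [RB] (helper9): **the bridge between `ModularRepOfLevel` and the `θ`-part of the Betti
module** (`ih4Part`, helper3's [H4]).

`𝒪` a complete Noetherian local domain of characteristic zero with `p ∈ 𝔪_𝒪`, `W` an integral
Weierstrass model, `Ps` a set of primes, `θ₀ : ℕ → 𝒪` with `θ₀ ℓ ≡ a_ℓ(W) mod 𝔪_𝒪` for `ℓ ∈ Ps`.

* `ihr_part_ne_bot` : if `W` is residually modular of level `M` and `Ps` consists of good primes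
  `ℓ ∤ M p` then `ih4Part 𝒪 M Ps θ₀ ≠ ⊥`;
* `ihr_modular_of_part_ne_bot` : if `Ps` contains all the good primes `ℓ ∤ M p` and
  `ih4Part 𝒪 M Ps θ₀ ≠ ⊥` then `W` is residually modular of level `M`.
-/
import Mathlib
import Fermat.Prelude.Def_FLTPrelim_ModularRep
import Fermat.Agent.Lib.Ihara.H4.HeckeAct
import Fermat.Agent.Lib.LR.Wire.Back
import Fermat.Agent.Lib.T1.Asm.Res.EigenChar

set_option autoImplicit false
set_option linter.unusedSectionVars false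
set_option linter.unusedVariables false
set_option linter.style.haveILetI false

open Matrix MatrixGroups CongruenceSubgroup Fermat.Agent.T1 ModularCurve IsLocalRing CuspForm
  ModularFormClass
open scoped TensorProduct

namespace Fermat.Agent.Ihara

/-! ### an abstract criterion -/

/-- a nonzero functional killing the images of all the `S i` forces a nonzero `θ`-part -/
theorem ihr_nil_ne_bot {O : Type} [CommRing O] [IsLocalRing O] [IsNoetherianRing O]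
    [IsAdicComplete (maximalIdeal O) O] {H : Type} [AddCommGroup H] [Module O H]
    [Module.Finite O H] {ι : Type*} (S : ι → Module.End O H)
    (hS : ∀ i j, Commute (S i) (S j)) {K' : Type*} [AddCommGroup K'] [Module O K']
    (Ψ : H →ₗ[O] K') (hΨ : Ψ ≠ 0) (hΨS : ∀ i x, Ψ (S i x) = 0) :
    ih4pNil (maximalIdeal O) S ≠ ⊥ := by
  intro h
  have hc := ih4p_isCompl S hS
  rw [h] at hc
  have htop : ih4pInv S = ⊤ := by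
    have := hc.sup_eq_top
    rwa [bot_sup_eq] at this
  apply hΨ
  have hle : ih4pInv S ≤ LinearMap.ker Ψ := by
    unfold ih4pInv
    refine iSup_le fun i => ?_
    intro y hy
    rw [ih4p_mem_inv1] at hy
    obtain ⟨z, hz⟩ := hy 1
    rw [LinearMap.mem_ker, ← hz, pow_one, hΨS]
  apply LinearMap.ext
  intro x
  have hx : x ∈ LinearMap.ker Ψ := hle (htop ▸ Submodule.mem_top)
  rw [LinearMap.zero_apply]
  exact LinearMap.mem_ker.mp hx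

noncomputable section

variable (𝒪 : Type) [CommRing 𝒪] [IsDomain 𝒪] [CharZero 𝒪] [IsLocalRing 𝒪] [IsNoetherianRing 𝒪]
  [IsAdicComplete (maximalIdeal 𝒪) 𝒪] (M : ℕ) [NeZero M]

local notation "𝕋" => CuspForm.heckeAlgebra M 2 (∅ : Set ℕ)

/-- the standard generator of the full Hecke algebra at `ℓ` (`U_ℓ` if `ℓ ∣ M`, `T_ℓ` otherwise, `0` if
`ℓ` is not prime) -/
def ihrGen (ℓ : ℕ) : CuspForm.heckeAlgebra M 2 (∅ : Set ℕ) := by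
  classical
  exact if hℓ : ℓ.Prime then
    (if hM : ℓ ∣ M then CuspForm.heckeAlgebra.U hℓ hM (Set.notMem_empty ℓ)
      else CuspForm.heckeAlgebra.T hℓ hM (Set.notMem_empty ℓ)) else 0

theorem ihrGen_of_not_dvd {ℓ : ℕ} (hℓ : ℓ.Prime) (hM : ¬ ℓ ∣ M) :
    ihrGen M ℓ = CuspForm.heckeAlgebra.T hℓ hM (Set.notMem_empty ℓ) := by
  unfold ihrGen
  rw [dif_pos hℓ, dif_neg hM]

theorem ih4Hecke0_ihrGen (ℓ : ℕ) : ih4Hecke0 𝒪 M (ihrGen M ℓ) = ih4Op 𝒪 M ℓ := by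
  unfold ihrGen
  split_ifs with hℓ hM
  · exact ih4Hecke0_U 𝒪 M ℓ hℓ hM
  · exact ih4Hecke0_T 𝒪 M ℓ hℓ hM
  · rw [map_zero, ih4Op_of_not_prime 𝒪 M hℓ]

instance ihr_finite_hecke : Module.Finite ℤ (CuspForm.heckeAlgebra M 2 (∅ : Set ℕ)) :=
  Fermat.Agent.S22Lib.moduleFinite_heckeAlgebra M 2 ∅

/-- `ih4Hecke0` as a `ℤ`-algebra homomorphism -/
def ihrHeckeAlg : 𝕋 →ₐ[ℤ] Module.End 𝒪 (Ih4H 𝒪 𝒪 M) :=
  { ih4Hecke0 𝒪 M with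
    commutes' := fun n => by
      show ih4Hecke0 𝒪 M (algebraMap ℤ _ n) = algebraMap ℤ _ n
      rw [eq_intCast, eq_intCast, map_intCast] }

theorem ihrHeckeAlg_apply (t : 𝕋) : ihrHeckeAlg 𝒪 M t = ih4Hecke0 𝒪 M t := rfl

/-- the action of `𝒪 ⊗ 𝕋` on the Betti module -/
def ihrRho : 𝒪 ⊗[ℤ] 𝕋 →ₐ[𝒪] Module.End 𝒪 (Ih4H 𝒪 𝒪 M) :=
  Algebra.TensorProduct.lift (Algebra.ofId 𝒪 (Module.End 𝒪 (Ih4H 𝒪 𝒪 M)))
    (ihrHeckeAlg 𝒪 M) (fun a t => Algebra.commute_algebraMap_left a _)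

theorem ihrRho_includeRight (t : 𝕋) :
    ihrRho 𝒪 M (Algebra.TensorProduct.includeRight t) = ih4Hecke0 𝒪 M t := by
  show ihrRho 𝒪 M ((1 : 𝒪) ⊗ₜ[ℤ] t) = _
  rw [ihrRho, Algebra.TensorProduct.lift_tmul, map_one, one_mul, ihrHeckeAlg_apply]

/-- the elements `1 ⊗ T_ℓ - θ₀ ℓ ⊗ 1` -/
def ihrS (θ₀ : ℕ → 𝒪) (ℓ : ℕ) : 𝒪 ⊗[ℤ] 𝕋 :=
  Algebra.TensorProduct.includeRight (ihrGen M ℓ) - algebraMap 𝒪 (𝒪 ⊗[ℤ] 𝕋) (θ₀ ℓ)

theorem ihrRho_ihrS (θ₀ : ℕ → 𝒪) (ℓ : ℕ) :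
    ihrRho 𝒪 M (ihrS 𝒪 M θ₀ ℓ) =
      ih4Op 𝒪 M ℓ - algebraMap 𝒪 (Module.End 𝒪 (Ih4H 𝒪 𝒪 M)) (θ₀ ℓ) := by
  unfold ihrS
  rw [map_sub, ihrRho_includeRight, ih4Hecke0_ihrGen, AlgHom.commutes]

theorem ih4Part_eq_nil (Ps : Set ℕ) (θ₀ : ℕ → 𝒪) :
    ih4Part 𝒪 M Ps θ₀ =
      ih4pNil (maximalIdeal 𝒪) (fun ℓ : Ps => ihrRho 𝒪 M (ihrS 𝒪 M θ₀ ℓ)) := by
  unfold ih4Part
  congr 1
  funext ℓ
  rw [ihrRho_ihrS]

/-- **a nonzero `θ`-part gives a maximal ideal of `𝒪 ⊗ 𝕋` containing all the `1 ⊗ T_ℓ - θ₀ ℓ`** -/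
theorem ihr_exists_maximal (Ps : Set ℕ) (θ₀ : ℕ → 𝒪) (h : ih4Part 𝒪 M Ps θ₀ ≠ ⊥) :
    ∃ I : Ideal (𝒪 ⊗[ℤ] 𝕋), I.IsMaximal ∧ ∀ ℓ ∈ Ps, ihrS 𝒪 M θ₀ ℓ ∈ I := by
  classical
  by_contra hno
  apply h
  rw [eq_bot_iff]
  intro x hx
  rw [ih4Part_eq_nil, ih4p_mem_nil_iff 𝒪 (𝒪 ⊗[ℤ] 𝕋) (ihrRho 𝒪 M)] at hx
  have hP : ∀ J : MaximalSpectrum (𝒪 ⊗[ℤ] 𝕋),
      ¬ ih4pSupp (𝒪 ⊗[ℤ] 𝕋) (fun ℓ : Ps => ihrS 𝒪 M θ₀ ℓ) J := by
    intro J hJ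
    exact hno ⟨J.asIdeal, J.isMaximal, fun ℓ hℓ => hJ ⟨ℓ, hℓ⟩⟩
  have h0 : ih4pIdemP 𝒪 (𝒪 ⊗[ℤ] 𝕋)
      (ih4pSupp (𝒪 ⊗[ℤ] 𝕋) (fun ℓ : Ps => ihrS 𝒪 M θ₀ ℓ)) = 0 := by
    refine ih4p_ext 𝒪 (𝒪 ⊗[ℤ] 𝕋) fun J => ?_
    rw [ih4pIdemP_map_neg 𝒪 (𝒪 ⊗[ℤ] 𝕋) (hP J), map_zero]
  rw [h0, map_zero, LinearMap.zero_apply] at hx
  rw [Submodule.mem_bot]
  exact hx.symm

/-- elements of `𝔪_𝒪` lie in every maximal ideal of a finite `𝒪`-algebra -/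
theorem ihr_algebraMap_mem {B : Type*} [CommRing B] [Algebra 𝒪 B] [Module.Finite 𝒪 B]
    (I : Ideal B) [hI : I.IsMaximal] {a : 𝒪} (ha : a ∈ maximalIdeal 𝒪) : algebraMap 𝒪 B a ∈ I := by
  haveI : Algebra.IsIntegral 𝒪 B := Algebra.IsIntegral.of_finite 𝒪 B
  haveI : (I.comap (algebraMap 𝒪 B)).IsMaximal :=
    Ideal.isMaximal_comap_of_isIntegral_of_isMaximal I
  have h := IsLocalRing.eq_maximalIdeal (inferInstance : (I.comap (algebraMap 𝒪 B)).IsMaximal)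
  have h2 : a ∈ I.comap (algebraMap 𝒪 B) := by rw [h]; exact ha
  exact h2

/-- **(J4b)** a nonzero `θ`-part of the Betti module of level `M` gives residual modularity of level
`M` -/
theorem ihr_modular_of_part_ne_bot {p : ℕ} (hp : p.Prime) (hp𝒪 : (p : 𝒪) ∈ maximalIdeal 𝒪)
    (W : WeierstrassCurve ℤ) (Ps : Set ℕ) (θ₀ : ℕ → 𝒪)
    (hθ₀ : ∀ ℓ ∈ Ps, θ₀ ℓ - ((W.apOfModel ℓ : ℤ) : 𝒪) ∈ maximalIdeal 𝒪)
    (hPs : ∀ ℓ : ℕ, ℓ.Prime → W.IsGoodPrimeFor ℓ → ¬ ℓ ∣ M → ℓ ≠ p → ℓ ∈ Ps)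
    (h : ih4Part 𝒪 M Ps θ₀ ≠ ⊥) : W.IsResiduallyModularOfLevel p M := by
  classical
  obtain ⟨I, hI, hIs⟩ := ihr_exists_maximal 𝒪 M Ps θ₀ h
  haveI := hI
  -- the ideal of `𝕋`
  set inc : 𝕋 →+* 𝒪 ⊗[ℤ] 𝕋 :=
    (Algebra.TensorProduct.includeRight : 𝕋 →ₐ[ℤ] 𝒪 ⊗[ℤ] 𝕋).toRingHom with hinc
  set J : Ideal 𝕋 := I.comap inc with hJ
  have hJtop : J ≠ ⊤ := (Ideal.comap_ne_top inc hI.ne_top)
  have hpJ : ((p : ℕ) : 𝕋) ∈ J := by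
    rw [hJ, Ideal.mem_comap, map_natCast]
    have := ihr_algebraMap_mem 𝒪 I hp𝒪
    rwa [map_natCast] at this
  have hTJ : ∀ (ℓ : ℕ) (hℓ : ℓ.Prime) (hℓM : ¬ ℓ ∣ M), W.IsGoodPrimeFor ℓ → ℓ ≠ p →
      CuspForm.heckeAlgebra.T hℓ hℓM (Set.notMem_empty ℓ) - ((W.apOfModel ℓ : ℤ) : 𝕋) ∈ J := by
    intro ℓ hℓ hℓM hgood hℓp
    have hmem := hPs ℓ hℓ hgood hℓM hℓp
    rw [hJ, Ideal.mem_comap, map_sub, map_intCast]
    have h1 := hIs ℓ hmem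
    have h2 := ihr_algebraMap_mem 𝒪 I (hθ₀ ℓ hmem)
    have h3 : inc (CuspForm.heckeAlgebra.T hℓ hℓM (Set.notMem_empty ℓ)) -
        ((W.apOfModel ℓ : ℤ) : 𝒪 ⊗[ℤ] 𝕋) =
        ihrS 𝒪 M θ₀ ℓ + algebraMap 𝒪 (𝒪 ⊗[ℤ] 𝕋) (θ₀ ℓ - ((W.apOfModel ℓ : ℤ) : 𝒪)) := by
      unfold ihrS
      rw [ihrGen_of_not_dvd M hℓ hℓM, map_sub, map_intCast]
      show Algebra.TensorProduct.includeRight _ - _ = _
      ring
    rw [h3]
    exact Ideal.add_mem _ h1 h2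
  obtain ⟨𝔪₁, h𝔪₁, hJ𝔪₁⟩ := Ideal.exists_le_maximal J hJtop
  haveI := h𝔪₁
  -- Deligne–Serre lifting in the space of cusp forms
  obtain ⟨w, χ, 𝔪', hw0, hχ, h𝔪', hcomap⟩ :=
    Fermat.Agent.Lib.Helper8.exists_eigen_character_lifting
      (V := CuspForm (Gamma0 M) 2) (A := 𝕋)
      ((CuspForm.heckeAlgebra M 2 (∅ : Set ℕ)).val.toRingHom) Subtype.val_injective 𝔪₁
  obtain ⟨g, hg, hgT, -⟩ := Fermat.Agent.LR.lrw_exists_normalized w hw0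
    (fun t => ((χ t : integralClosure ℤ ℂ) : ℂ)) (fun T => hχ T)
  refine ⟨g, 𝔪', hg, h𝔪', ?_, ?_⟩
  · have h1 : ((p : ℕ) : 𝕋) ∈ 𝔪₁ := hJ𝔪₁ hpJ
    rw [← hcomap, Ideal.mem_comap, map_natCast] at h1
    exact h1
  · intro ℓ hℓ hgood hℓM hℓp
    refine ⟨χ (CuspForm.heckeAlgebra.T hℓ hℓM (Set.notMem_empty ℓ)), (hgT ℓ hℓ hℓM).symm, ?_⟩
    have h1 := hJ𝔪₁ (hTJ ℓ hℓ hℓM hgood hℓp)
    rw [← hcomap, Ideal.mem_comap, map_sub, map_intCast] at h1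
    exact h1

/-! ### the converse: residual modularity gives a nonzero `θ`-part -/

/-- the Hecke module structure of the lattice -/
@[reducible] def ihrLatModule : Module 𝕋 ↥(tdmL M) := Module.compHom ↥(tdmL M) (tdmHecke M)

/-- the annihilator of the lattice acts trivially on every eigenform: `𝔭 L ≠ L` for the kernel
`𝔭` of the reduction of the eigencharacter of a normalised eigenform -/
theorem ihr_smul_top_ne_top {f : CuspForm (Gamma0 M) 2} (hf : f.IsNormalizedEigenform)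
    {κ : Type*} [Field κ] (red : integralClosure ℤ ℂ →+* κ) :
    letI := ihrLatModule M
    (RingHom.ker (red.comp (terEigenChar hf (∅ : Set ℕ))) • (⊤ : Submodule 𝕋 ↥(tdmL M))) ≠ ⊤ := by
  letI := ihrLatModule M
  intro htop
  set 𝔭 : Ideal 𝕋 := RingHom.ker (red.comp (terEigenChar hf (∅ : Set ℕ))) with h𝔭
  haveI : Module.Finite 𝕋 ↥(tdmL M) := Module.Finite.of_restrictScalars_finite ℤ 𝕋 ↥(tdmL M)
  obtain ⟨r, hr1, hr0⟩ := Submodule.exists_sub_one_mem_and_smul_eq_zero_of_fg_of_le_smul 𝔭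
    (⊤ : Submodule 𝕋 ↥(tdmL M)) Module.Finite.fg_top (by rw [htop])
  have hzero : tdmHecke M r = 0 := by
    apply LinearMap.ext
    intro x
    exact hr0 x Submodule.mem_top
  -- `r` kills the eigenform
  have h1 := tdmHecke_spec M r f 0
  rw [hzero, LinearMap.baseChange_zero, LinearMap.zero_apply] at h1
  have h2 : ((r : Module.End ℂ (CuspForm (Gamma0 M) 2)) f,
      (r : Module.End ℂ (CuspForm (Gamma0 M) 2)) 0) = 0 := by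
    apply (tdmPhi M).injective
    rw [← h1, map_zero]
  have h3 : (r : Module.End ℂ (CuspForm (Gamma0 M) 2)) f = 0 := congrArg Prod.fst h2
  rw [terEigenCharC_apply hf (∅ : Set ℕ) r] at h3
  have h4 : terEigenCharC hf (∅ : Set ℕ) r = 0 := by
    rcases smul_eq_zero.1 h3 with h | h
    · exact h
    · exact absurd h hf.ne_zero
  have h5 : terEigenChar hf (∅ : Set ℕ) r = 0 := Subtype.ext h4
  have h6 : r ∈ 𝔭 := by rw [h𝔭, RingHom.mem_ker, RingHom.comp_apply, h5, map_zero]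
  have h7 : (1 : 𝕋) ∈ 𝔭 := by
    have := 𝔭.sub_mem h6 hr1
    rwa [sub_sub_cancel] at this
  rw [h𝔭, RingHom.mem_ker, map_one] at h7
  exact one_ne_zero h7

/-- **(J4a)** residual modularity of level `M` gives a nonzero `θ`-part of the Betti module of level
`M` -/
theorem ihr_part_ne_bot {p : ℕ} (hp : p.Prime) (hp𝒪 : (p : 𝒪) ∈ maximalIdeal 𝒪)
    (W : WeierstrassCurve ℤ) (hmod : W.IsResiduallyModularOfLevel p M)
    (Ps : Set ℕ) (hPs : ∀ ℓ ∈ Ps, ℓ.Prime ∧ W.IsGoodPrimeFor ℓ ∧ ¬ ℓ ∣ M ∧ ℓ ≠ p)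
    (θ₀ : ℕ → 𝒪) (hθ₀ : ∀ ℓ ∈ Ps, θ₀ ℓ - ((W.apOfModel ℓ : ℤ) : 𝒪) ∈ maximalIdeal 𝒪) :
    ih4Part 𝒪 M Ps θ₀ ≠ ⊥ := by
  classical
  obtain ⟨f, 𝔪, hf, h𝔪, hp𝔪, hcong⟩ := hmod
  haveI := h𝔪
  haveI : Fact p.Prime := ⟨hp⟩
  letI : Field (integralClosure ℤ ℂ ⧸ 𝔪) := Ideal.Quotient.field 𝔪
  letI := ihrLatModule M
  set χ := terEigenChar hf (∅ : Set ℕ) with hχ
  set 𝔭 : Ideal 𝕋 := RingHom.ker ((Ideal.Quotient.mk 𝔪).comp χ) with h𝔭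
  have hne : (𝔭 • (⊤ : Submodule 𝕋 ↥(tdmL M))) ≠ ⊤ := ihr_smul_top_ne_top M hf (Ideal.Quotient.mk 𝔪)
  -- elements of `𝔭`
  have hp𝔭 : ((p : ℕ) : 𝕋) ∈ 𝔭 := by
    rw [h𝔭, RingHom.mem_ker, RingHom.comp_apply, map_natCast, map_natCast]
    exact Ideal.Quotient.eq_zero_iff_mem.mpr hp𝔪
  have hT𝔭 : ∀ ℓ ∈ Ps, ihrGen M ℓ - ((W.apOfModel ℓ : ℤ) : 𝕋) ∈ 𝔭 := by
    intro ℓ hℓ
    obtain ⟨hℓp, hgood, hℓM, hℓne⟩ := hPs ℓ hℓ
    obtain ⟨a, ha, ham⟩ := hcong ℓ hℓp hgood hℓM hℓne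
    have h1 : χ (CuspForm.heckeAlgebra.T hℓp hℓM (Set.notMem_empty ℓ)) = a := by
      apply Subtype.ext
      rw [hχ, terEigenChar_T, ha]
    rw [ihrGen_of_not_dvd M hℓp hℓM, h𝔭, RingHom.mem_ker, RingHom.comp_apply, map_sub, map_intCast,
      h1]
    exact Ideal.Quotient.eq_zero_iff_mem.mpr ham
  -- the quotient `V = L / 𝔭 L` is a nonzero `𝔽_p`-vector space
  set D : Submodule 𝕋 ↥(tdmL M) := 𝔭 • (⊤ : Submodule 𝕋 ↥(tdmL M)) with hD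
  haveI : Nontrivial (↥(tdmL M) ⧸ D) := Submodule.Quotient.nontrivial_iff.2 hne
  have hsmul : ∀ (t : 𝕋) (x : ↥(tdmL M)), t • x = tdmHecke M t x := fun t x => rfl
  have hpV : ∀ v : ↥(tdmL M) ⧸ D, p • v = 0 := by
    intro v
    obtain ⟨x, rfl⟩ := Submodule.Quotient.mk_surjective D v
    rw [← Submodule.Quotient.mk_smul, Submodule.Quotient.mk_eq_zero]
    have h1 : p • x = ((p : ℕ) : 𝕋) • x := by
      rw [hsmul, map_natCast, Module.End.natCast_apply]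
    rw [h1]
    exact Submodule.smul_mem_smul hp𝔭 Submodule.mem_top
  obtain ⟨inst, -⟩ : ∃ _ : Module (ZMod p) (↥(tdmL M) ⧸ D), True :=
    ⟨AddCommGroup.zmodModule hpV, trivial⟩
  obtain ⟨v₀, hv₀⟩ := exists_ne (0 : ↥(tdmL M) ⧸ D)
  obtain ⟨φ, hφ⟩ := Module.Projective.exists_dual_ne_zero (ZMod p) hv₀
  obtain ⟨x₀, rfl⟩ := Submodule.Quotient.mk_surjective D v₀
  -- the residue field
  haveI : CharP (ResidueField 𝒪) p := by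
    refine (CharP.charP_iff_prime_eq_zero hp).2 ?_
    rw [← map_natCast (residue 𝒪)]
    exact (residue_eq_zero_iff _).2 hp𝒪
  letI : Algebra (ZMod p) (ResidueField 𝒪) := ZMod.algebra (ResidueField 𝒪) p
  -- the functional on the lattice
  set g₀ : ↥(tdmL M) →+ ResidueField 𝒪 :=
    { toFun := fun x => algebraMap (ZMod p) (ResidueField 𝒪) (φ (Submodule.Quotient.mk x))
      map_zero' := by rw [Submodule.Quotient.mk_zero, map_zero, map_zero]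
      map_add' := fun x y => by rw [Submodule.Quotient.mk_add, map_add, map_add] } with hg₀
  have hg₀D : ∀ x ∈ D, g₀ x = 0 := by
    intro x hx
    show algebraMap (ZMod p) (ResidueField 𝒪) (φ (Submodule.Quotient.mk x)) = 0
    rw [(Submodule.Quotient.mk_eq_zero D).2 hx, map_zero, map_zero]
  have hg₀x₀ : g₀ x₀ ≠ 0 := by
    show algebraMap (ZMod p) (ResidueField 𝒪) (φ (Submodule.Quotient.mk x₀)) ≠ 0
    rw [Ne, map_eq_zero]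
    exact hφ
  set g : ↥(tdmL M) →ₗ[ℤ] ResidueField 𝒪 := g₀.toIntLinearMap with hg
  set Ψ' : 𝒪 ⊗[ℤ] ↥(tdmL M) →ₗ[𝒪] ResidueField 𝒪 := LinearMap.liftBaseChange 𝒪 g with hΨ'
  set Ψ : Ih4H 𝒪 𝒪 M →ₗ[𝒪] ResidueField 𝒪 := Ψ' ∘ₗ (tdmBC M 𝒪).symm.toLinearMap with hΨ
  -- the key computation
  have hkey : ∀ ℓ ∈ Ps, ∀ z : 𝒪 ⊗[ℤ] ↥(tdmL M),
      Ψ' ((tdmHecke M (ihrGen M ℓ)).baseChange 𝒪 z) = θ₀ ℓ • Ψ' z := by
    intro ℓ hℓ z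
    induction z using TensorProduct.induction_on with
    | zero => simp
    | tmul a x =>
      rw [LinearMap.baseChange_tmul, hΨ', LinearMap.liftBaseChange_tmul,
        LinearMap.liftBaseChange_tmul, smul_comm]
      congr 1
      show g₀ (tdmHecke M (ihrGen M ℓ) x) = θ₀ ℓ • g₀ x
      have h1 : tdmHecke M (ihrGen M ℓ) x =
          (ihrGen M ℓ - ((W.apOfModel ℓ : ℤ) : 𝕋)) • x + (W.apOfModel ℓ) • x := by
        rw [hsmul, map_sub, map_intCast, LinearMap.sub_apply, Module.End.intCast_apply]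
        abel
      rw [h1, map_add, hg₀D _ (Submodule.smul_mem_smul (hT𝔭 ℓ hℓ) Submodule.mem_top), zero_add,
        map_zsmul]
      have h2 : residue 𝒪 (θ₀ ℓ) = ((W.apOfModel ℓ : ℤ) : ResidueField 𝒪) := by
        have := (residue_eq_zero_iff _).2 (hθ₀ ℓ hℓ)
        rw [map_sub, sub_eq_zero, map_intCast] at this
        exact this
      rw [Algebra.smul_def, IsLocalRing.ResidueField.algebraMap_eq, h2, zsmul_eq_mul]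
    | add z₁ z₂ h₁ h₂ => rw [map_add, map_add, h₁, h₂, map_add, smul_add]
  rw [ih4Part]
  refine ihr_nil_ne_bot _ ?_ Ψ ?_ ?_
  · intro i j
    have h1 : Commute (ih4Op 𝒪 M i) (ih4Op 𝒪 M j) := ih4Op_commute 𝒪 M i j
    have h2 : Commute (ih4Op 𝒪 M i) (algebraMap 𝒪 (Module.End 𝒪 (Ih4H 𝒪 𝒪 M)) (θ₀ j)) :=
      Algebra.commute_algebraMap_right (θ₀ j) (ih4Op 𝒪 M i)
    have h3 : Commute (algebraMap 𝒪 (Module.End 𝒪 (Ih4H 𝒪 𝒪 M)) (θ₀ i))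
        (ih4Op 𝒪 M j - algebraMap 𝒪 (Module.End 𝒪 (Ih4H 𝒪 𝒪 M)) (θ₀ j)) :=
      Algebra.commute_algebraMap_left (θ₀ i) _
    exact Commute.sub_left (R := Module.End 𝒪 (Ih4H 𝒪 𝒪 M))
      (Commute.sub_right (R := Module.End 𝒪 (Ih4H 𝒪 𝒪 M)) h1 h2) h3
  · intro h0
    have h1 : Ψ (tdmBC M 𝒪 ((1 : 𝒪) ⊗ₜ[ℤ] x₀)) = g₀ x₀ := by
      rw [hΨ, LinearMap.comp_apply, LinearEquiv.coe_coe, LinearEquiv.symm_apply_apply, hΨ',
        LinearMap.liftBaseChange_tmul, one_smul]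
      rfl
    rw [h0, LinearMap.zero_apply] at h1
    exact hg₀x₀ h1.symm
  · rintro ⟨ℓ, hℓ⟩ y
    show Ψ ((ih4Op 𝒪 M ℓ - algebraMap 𝒪 (Module.End 𝒪 (Ih4H 𝒪 𝒪 M)) (θ₀ ℓ)) y) = 0
    rw [LinearMap.sub_apply, Module.algebraMap_end_apply, map_sub, map_smul, ← ih4Hecke0_ihrGen,
      ih4Hecke0_apply, hΨ, LinearMap.comp_apply, LinearMap.comp_apply, LinearEquiv.coe_coe,
      LinearEquiv.symm_apply_apply, hkey ℓ hℓ, sub_self]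

end

end Fermat.Agent.Ihara
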