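/-
IHARA track / [RB+] (helper9), (R3): **the bridge (J4a) in its general form** (arbitrary integer lifts
`t ℓ` of the Hecke eigenvalues mod `𝔪`, no good-reduction hypothesis), and the weakened (J4b).
-/
import Mathlib
import Fermat.Agent.Lib.Ihara.Rb.Level

set_option autoImplicit false
set_option linter.unusedSectionVars false
set_option linter.unusedVariables false
set_option linter.style.haveILetI false

open Matrix MatrixGroups CongruenceSubgroup Fermat.Agent.T1 ModularCurve IsLocalRing CuspForm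
  ModularFormClass
open scoped TensorProduct

namespace Fermat.Agent.Ihara

noncomputable section

variable (𝒪 : Type) [CommRing 𝒪] [IsDomain 𝒪] [CharZero 𝒪] [IsLocalRing 𝒪] [IsNoetherianRing 𝒪]
  [IsAdicComplete (maximalIdeal 𝒪) 𝒪] (M : ℕ) [NeZero M]

local notation "𝕋" => CuspForm.heckeAlgebra M 2 (∅ : Set ℕ)

/-- **(J4a), general form**: an eigenform `f` of level `M`, a maximal ideal `𝔪 ∋ p` of `ℤ̄`, integers
`t ℓ ≡ a_ℓ(f) mod 𝔪` for `ℓ ∈ Ps` (primes not dividing `M`) and `θ₀ ℓ ≡ t ℓ mod 𝔪_𝒪` give a nonzero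
`θ₀`-part of the Betti module of level `M` -/
theorem ihr_part_ne_bot_of_cong {p : ℕ} (hp : p.Prime) (hp𝒪 : (p : 𝒪) ∈ maximalIdeal 𝒪)
    {f : CuspForm (Gamma0 M) 2} (hf : f.IsNormalizedEigenform)
    {𝔪 : Ideal (integralClosure ℤ ℂ)} (h𝔪 : 𝔪.IsMaximal)
    (hp𝔪 : ((p : ℕ) : integralClosure ℤ ℂ) ∈ 𝔪) (Ps : Set ℕ) (t : ℕ → ℤ)
    (hPs : ∀ ℓ ∈ Ps, ℓ.Prime ∧ ¬ ℓ ∣ M ∧ ∃ a : integralClosure ℤ ℂ,
      (a : ℂ) = ModularFormClass.qCoeff f ℓ ∧ a - ((t ℓ : ℤ) : integralClosure ℤ ℂ) ∈ 𝔪)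
    (θ₀ : ℕ → 𝒪) (hθ₀ : ∀ ℓ ∈ Ps, θ₀ ℓ - ((t ℓ : ℤ) : 𝒪) ∈ maximalIdeal 𝒪) :
    ih4Part 𝒪 M Ps θ₀ ≠ ⊥ := by
  classical
  haveI := h𝔪
  haveI : Fact p.Prime := ⟨hp⟩
  letI : Field (integralClosure ℤ ℂ ⧸ 𝔪) := Ideal.Quotient.field 𝔪
  letI := ihrLatModule M
  set χ := terEigenChar hf (∅ : Set ℕ) with hχ
  set 𝔭 : Ideal 𝕋 := RingHom.ker ((Ideal.Quotient.mk 𝔪).comp χ) with h𝔭
  have hne : (𝔭 • (⊤ : Submodule 𝕋 ↥(tdmL M))) ≠ ⊤ := ihr_smul_top_ne_top M hf (Ideal.Quotient.mk 𝔪)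
  -- elements of `𝔭`
  have hp𝔭 : ((p : ℕ) : 𝕋) ∈ 𝔭 := by
    rw [h𝔭, RingHom.mem_ker, RingHom.comp_apply, map_natCast, map_natCast]
    exact Ideal.Quotient.eq_zero_iff_mem.mpr hp𝔪
  have hT𝔭 : ∀ ℓ ∈ Ps, ihrGen M ℓ - ((t ℓ : ℤ) : 𝕋) ∈ 𝔭 := by
    intro ℓ hℓ
    obtain ⟨hℓp, hℓM, a, ha, ham⟩ := hPs ℓ hℓ
    have h1 : χ (CuspForm.heckeAlgebra.T hℓp hℓM (Set.notMem_empty ℓ)) = a := by
      apply Subtype.ext
      rw [hχ, terEigenChar_T, ha]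
    rw [ihrGen_of_not_dvd M hℓp hℓM, h𝔭, RingHom.mem_ker, RingHom.comp_apply, map_sub, map_intCast,
      h1]
    exact Ideal.Quotient.eq_zero_iff_mem.mpr ham
  -- the quotient `V = L / 𝔭 L` is a nonzero `𝔽_p`-vector space
  set D : Submodule 𝕋 ↥(tdmL M) := 𝔭 • (⊤ : Submodule 𝕋 ↥(tdmL M)) with hD
  haveI : Nontrivial (↥(tdmL M) ⧸ D) := Submodule.Quotient.nontrivial_iff.2 hne
  have hsmul : ∀ (t : 𝕋) (x : ↥(tdmL M)), t • x = tdmHecke M t x := fun t x => rfl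
  have hpV : ∀ v : ↥(tdmL M) ⧸ D, p • v = 0 := by
    intro v
    obtain ⟨x, rfl⟩ := Submodule.Quotient.mk_surjective D v
    rw [← Submodule.Quotient.mk_smul, Submodule.Quotient.mk_eq_zero]
    have h1 : p • x = ((p : ℕ) : 𝕋) • x := by
      rw [hsmul, map_natCast, Module.End.natCast_apply]
    rw [h1]
    exact Submodule.smul_mem_smul hp𝔭 Submodule.mem_top
  obtain ⟨inst, -⟩ : ∃ _ : Module (ZMod p) (↥(tdmL M) ⧸ D), True :=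
    ⟨AddCommGroup.zmodModule hpV, trivial⟩
  obtain ⟨v₀, hv₀⟩ := exists_ne (0 : ↥(tdmL M) ⧸ D)
  obtain ⟨φ, hφ⟩ := Module.Projective.exists_dual_ne_zero (ZMod p) hv₀
  obtain ⟨x₀, rfl⟩ := Submodule.Quotient.mk_surjective D v₀
  -- the residue field
  haveI : CharP (ResidueField 𝒪) p := by
    refine (CharP.charP_iff_prime_eq_zero hp).2 ?_
    rw [← map_natCast (residue 𝒪)]
    exact (residue_eq_zero_iff _).2 hp𝒪
  letI : Algebra (ZMod p) (ResidueField 𝒪) := ZMod.algebra (ResidueField 𝒪) p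
  -- the functional on the lattice
  set g₀ : ↥(tdmL M) →+ ResidueField 𝒪 :=
    { toFun := fun x => algebraMap (ZMod p) (ResidueField 𝒪) (φ (Submodule.Quotient.mk x))
      map_zero' := by rw [Submodule.Quotient.mk_zero, map_zero, map_zero]
      map_add' := fun x y => by rw [Submodule.Quotient.mk_add, map_add, map_add] } with hg₀
  have hg₀D : ∀ x ∈ D, g₀ x = 0 := by
    intro x hx
    show algebraMap (ZMod p) (ResidueField 𝒪) (φ (Submodule.Quotient.mk x)) = 0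
    rw [(Submodule.Quotient.mk_eq_zero D).2 hx, map_zero, map_zero]
  have hg₀x₀ : g₀ x₀ ≠ 0 := by
    show algebraMap (ZMod p) (ResidueField 𝒪) (φ (Submodule.Quotient.mk x₀)) ≠ 0
    rw [Ne, map_eq_zero]
    exact hφ
  set g : ↥(tdmL M) →ₗ[ℤ] ResidueField 𝒪 := g₀.toIntLinearMap with hg
  set Ψ' : 𝒪 ⊗[ℤ] ↥(tdmL M) →ₗ[𝒪] ResidueField 𝒪 := LinearMap.liftBaseChange 𝒪 g with hΨ'
  set Ψ : Ih4H 𝒪 𝒪 M →ₗ[𝒪] ResidueField 𝒪 := Ψ' ∘ₗ (tdmBC M 𝒪).symm.toLinearMap with hΨ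
  -- the key computation
  have hkey : ∀ ℓ ∈ Ps, ∀ z : 𝒪 ⊗[ℤ] ↥(tdmL M),
      Ψ' ((tdmHecke M (ihrGen M ℓ)).baseChange 𝒪 z) = θ₀ ℓ • Ψ' z := by
    intro ℓ hℓ z
    induction z using TensorProduct.induction_on with
    | zero => simp
    | tmul a x =>
      rw [LinearMap.baseChange_tmul, hΨ', LinearMap.liftBaseChange_tmul,
        LinearMap.liftBaseChange_tmul, smul_comm]
      congr 1
      show g₀ (tdmHecke M (ihrGen M ℓ) x) = θ₀ ℓ • g₀ x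
      have h1 : tdmHecke M (ihrGen M ℓ) x =
          (ihrGen M ℓ - ((t ℓ : ℤ) : 𝕋)) • x + (t ℓ) • x := by
        rw [hsmul, map_sub, map_intCast, LinearMap.sub_apply, Module.End.intCast_apply]
        abel
      rw [h1, map_add, hg₀D _ (Submodule.smul_mem_smul (hT𝔭 ℓ hℓ) Submodule.mem_top), zero_add,
        map_zsmul]
      have h2 : residue 𝒪 (θ₀ ℓ) = ((t ℓ : ℤ) : ResidueField 𝒪) := by
        have := (residue_eq_zero_iff _).2 (hθ₀ ℓ hℓ)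
        rw [map_sub, sub_eq_zero, map_intCast] at this
        exact this
      rw [Algebra.smul_def, IsLocalRing.ResidueField.algebraMap_eq, h2, zsmul_eq_mul]
    | add z₁ z₂ h₁ h₂ => rw [map_add, map_add, h₁, h₂, map_add, smul_add]
  rw [ih4Part]
  refine ihr_nil_ne_bot _ ?_ Ψ ?_ ?_
  · intro i j
    have h1 : Commute (ih4Op 𝒪 M i) (ih4Op 𝒪 M j) := ih4Op_commute 𝒪 M i j
    have h2 : Commute (ih4Op 𝒪 M i) (algebraMap 𝒪 (Module.End 𝒪 (Ih4H 𝒪 𝒪 M)) (θ₀ j)) :=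
      Algebra.commute_algebraMap_right (θ₀ j) (ih4Op 𝒪 M i)
    have h3 : Commute (algebraMap 𝒪 (Module.End 𝒪 (Ih4H 𝒪 𝒪 M)) (θ₀ i))
        (ih4Op 𝒪 M j - algebraMap 𝒪 (Module.End 𝒪 (Ih4H 𝒪 𝒪 M)) (θ₀ j)) :=
      Algebra.commute_algebraMap_left (θ₀ i) _
    exact Commute.sub_left (R := Module.End 𝒪 (Ih4H 𝒪 𝒪 M))
      (Commute.sub_right (R := Module.End 𝒪 (Ih4H 𝒪 𝒪 M)) h1 h2) h3
  · intro h0
    have h1 : Ψ (tdmBC M 𝒪 ((1 : 𝒪) ⊗ₜ[ℤ] x₀)) = g₀ x₀ := by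
      rw [hΨ, LinearMap.comp_apply, LinearEquiv.coe_coe, LinearEquiv.symm_apply_apply, hΨ',
        LinearMap.liftBaseChange_tmul, one_smul]
      rfl
    rw [h0, LinearMap.zero_apply] at h1
    exact hg₀x₀ h1.symm
  · rintro ⟨ℓ, hℓ⟩ y
    show Ψ ((ih4Op 𝒪 M ℓ - algebraMap 𝒪 (Module.End 𝒪 (Ih4H 𝒪 𝒪 M)) (θ₀ ℓ)) y) = 0
    rw [LinearMap.sub_apply, Module.algebraMap_end_apply, map_sub, map_smul, ← ih4Hecke0_ihrGen,
      ih4Hecke0_apply, hΨ, LinearMap.comp_apply, LinearMap.comp_apply, LinearEquiv.coe_coe,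
      LinearEquiv.symm_apply_apply, hkey ℓ hℓ, sub_self]

/-- **(J4b), weakened hypothesis** (`θ₀ ℓ ≡ a_ℓ(W)` only at the good primes of `Ps`): a nonzero `θ`-part of the Betti module of level `M` gives residual modularity of level
`M` -/
theorem ihr_modular_of_part_ne_bot' {p : ℕ} (hp : p.Prime) (hp𝒪 : (p : 𝒪) ∈ maximalIdeal 𝒪)
    (W : WeierstrassCurve ℤ) (Ps : Set ℕ) (θ₀ : ℕ → 𝒪)
    (hθ₀ : ∀ ℓ ∈ Ps, W.IsGoodPrimeFor ℓ → θ₀ ℓ - ((W.apOfModel ℓ : ℤ) : 𝒪) ∈ maximalIdeal 𝒪)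
    (hPs : ∀ ℓ : ℕ, ℓ.Prime → W.IsGoodPrimeFor ℓ → ¬ ℓ ∣ M → ℓ ≠ p → ℓ ∈ Ps)
    (h : ih4Part 𝒪 M Ps θ₀ ≠ ⊥) : W.IsResiduallyModularOfLevel p M := by
  classical
  obtain ⟨I, hI, hIs⟩ := ihr_exists_maximal 𝒪 M Ps θ₀ h
  haveI := hI
  -- the ideal of `𝕋`
  set inc : 𝕋 →+* 𝒪 ⊗[ℤ] 𝕋 :=
    (Algebra.TensorProduct.includeRight : 𝕋 →ₐ[ℤ] 𝒪 ⊗[ℤ] 𝕋).toRingHom with hinc
  set J : Ideal 𝕋 := I.comap inc with hJ
  have hJtop : J ≠ ⊤ := (Ideal.comap_ne_top inc hI.ne_top)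
  have hpJ : ((p : ℕ) : 𝕋) ∈ J := by
    rw [hJ, Ideal.mem_comap, map_natCast]
    have := ihr_algebraMap_mem 𝒪 I hp𝒪
    rwa [map_natCast] at this
  have hTJ : ∀ (ℓ : ℕ) (hℓ : ℓ.Prime) (hℓM : ¬ ℓ ∣ M), W.IsGoodPrimeFor ℓ → ℓ ≠ p →
      CuspForm.heckeAlgebra.T hℓ hℓM (Set.notMem_empty ℓ) - ((W.apOfModel ℓ : ℤ) : 𝕋) ∈ J := by
    intro ℓ hℓ hℓM hgood hℓp
    have hmem := hPs ℓ hℓ hgood hℓM hℓp
    rw [hJ, Ideal.mem_comap, map_sub, map_intCast]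
    have h1 := hIs ℓ hmem
    have h2 := ihr_algebraMap_mem 𝒪 I (hθ₀ ℓ hmem hgood)
    have h3 : inc (CuspForm.heckeAlgebra.T hℓ hℓM (Set.notMem_empty ℓ)) -
        ((W.apOfModel ℓ : ℤ) : 𝒪 ⊗[ℤ] 𝕋) =
        ihrS 𝒪 M θ₀ ℓ + algebraMap 𝒪 (𝒪 ⊗[ℤ] 𝕋) (θ₀ ℓ - ((W.apOfModel ℓ : ℤ) : 𝒪)) := by
      unfold ihrS
      rw [ihrGen_of_not_dvd M hℓ hℓM, map_sub, map_intCast]
      show Algebra.TensorProduct.includeRight _ - _ = _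
      ring
    rw [h3]
    exact Ideal.add_mem _ h1 h2
  obtain ⟨𝔪₁, h𝔪₁, hJ𝔪₁⟩ := Ideal.exists_le_maximal J hJtop
  haveI := h𝔪₁
  -- Deligne–Serre lifting in the space of cusp forms
  obtain ⟨w, χ, 𝔪', hw0, hχ, h𝔪', hcomap⟩ :=
    Fermat.Agent.Lib.Helper8.exists_eigen_character_lifting
      (V := CuspForm (Gamma0 M) 2) (A := 𝕋)
      ((CuspForm.heckeAlgebra M 2 (∅ : Set ℕ)).val.toRingHom) Subtype.val_injective 𝔪₁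
  obtain ⟨g, hg, hgT, -⟩ := Fermat.Agent.LR.lrw_exists_normalized w hw0
    (fun t => ((χ t : integralClosure ℤ ℂ) : ℂ)) (fun T => hχ T)
  refine ⟨g, 𝔪', hg, h𝔪', ?_, ?_⟩
  · have h1 : ((p : ℕ) : 𝕋) ∈ 𝔪₁ := hJ𝔪₁ hpJ
    rw [← hcomap, Ideal.mem_comap, map_natCast] at h1
    exact h1
  · intro ℓ hℓ hgood hℓM hℓp
    refine ⟨χ (CuspForm.heckeAlgebra.T hℓ hℓM (Set.notMem_empty ℓ)), (hgT ℓ hℓ hℓM).symm, ?_⟩
    have h1 := hJ𝔪₁ (hTJ ℓ hℓ hℓM hgood hℓp)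
    rw [← hcomap, Ideal.mem_comap, map_sub, map_intCast] at h1
    exact h1

end

end Fermat.Agent.Ihara
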