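/-
IHARA track / [RB] (helper9): the residual Hecke eigensystem `θ` of the Frey curve.

`ihr_exists_theta` : from the data of `P.ModularRepOfLevel N` (an eigenform `f` of level `N`, an integral
model `W` of the Frey curve, a maximal ideal `𝔪 ∋ p` of `ℤ̄` and the congruences
`a_ℓ(f) ≡ a_ℓ(W) mod 𝔪`) and a finite set `S` of primes containing `p`, the primes of `N` and the bad
primes of `W`: a ring homomorphism `θ : heckeAlgebra N 2 S →+* k` with `θ (T_ℓ) = a_ℓ(W)` and the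
hypothesis `hfrob` of `ihd_exists_datum` for `ρbar := ihrRep P k`.
-/
import Fermat.Agent.Lib.T1.Asm.Res.EigenChar
import Fermat.Agent.Lib.Ihara.Rb.Frob

set_option autoImplicit false
set_option linter.unusedSectionVars false
set_option linter.style.haveILetI false

open Polynomial CuspForm

namespace Fermat.Agent.Ihara

local notation "Qb" => AlgebraicClosure ℚ
local notation "GQ" => (AlgebraicClosure ℚ ≃ₐ[ℚ] AlgebraicClosure ℚ)

noncomputable section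

/-- a ring homomorphism to a field of characteristic `p` whose values on a generating set are images
of integers factors through `𝔽_p`, hence maps to any field of characteristic `p` -/
theorem ihr_exists_factor {p : ℕ} [Fact p.Prime] {B : Type*} [CommRing B]
    {κ : Type*} [Field κ] [CharP κ p] (k : Type*) [Field k] [Algebra (ZMod p) k]
    (θ₀ : B →+* κ) (G : Set B) (hG : Subring.closure G = ⊤)
    (a : B → ℤ) (ha : ∀ t ∈ G, θ₀ t = (a t : κ)) :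
    ∃ θ : B →+* k, ∀ t ∈ G, θ t = (a t : k) := by
  classical
  letI : Algebra (ZMod p) κ := ZMod.algebra κ p
  set ι : ZMod p →+* κ := algebraMap (ZMod p) κ with hι
  have hmem : ∀ t : B, θ₀ t ∈ ι.range := by
    intro t
    have ht : t ∈ Subring.closure G := by rw [hG]; exact Subring.mem_top t
    induction ht using Subring.closure_induction with
    | mem x hx => exact ⟨(a x : ZMod p), by rw [ha x hx, map_intCast]⟩
    | zero => rw [map_zero]; exact Subring.zero_mem _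
    | one => rw [map_one]; exact Subring.one_mem _
    | add x y _ _ hx hy => rw [map_add]; exact Subring.add_mem _ hx hy
    | neg x _ hx => rw [map_neg]; exact Subring.neg_mem _ hx
    | mul x y _ _ hx hy => rw [map_mul]; exact Subring.mul_mem _ hx hy
  set e : ZMod p ≃+* ι.range := RingEquiv.ofBijective ι.rangeRestrict
    ⟨fun x y h => ι.injective (congrArg Subtype.val h), ι.rangeRestrict_surjective⟩ with he
  set θ₁ : B →+* ι.range := θ₀.codRestrict ι.range hmem with hθ₁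
  refine ⟨(algebraMap (ZMod p) k).comp (e.symm.toRingHom.comp θ₁), fun t ht => ?_⟩
  have h1 : θ₁ t = e (a t : ZMod p) := by
    apply Subtype.ext
    show θ₀ t = ι (a t : ZMod p)
    rw [ha t ht, map_intCast]
  show algebraMap (ZMod p) k (e.symm (θ₁ t)) = (a t : k)
  rw [h1, RingEquiv.symm_apply_apply, map_intCast]

variable (P : FreyPackage) [Fact P.p.Prime] (k : Type) [Field k] [Algebra (ZMod P.p) k]

/-- **the residual eigensystem of the Frey curve and the hypothesis `hfrob` of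
`ihd_exists_datum`** -/
theorem ihr_exists_theta {N : ℕ} [NeZero N] {f : CuspForm (CongruenceSubgroup.Gamma0 N) 2}
    (hf : f.IsNormalizedEigenform) {W : WeierstrassCurve ℤ}
    (hW : W.IsIntegralModelOf P.freyCurve) (hΔ : W.Δ ≠ 0)
    {𝔪 : Ideal (integralClosure ℤ ℂ)} (h𝔪 : 𝔪.IsMaximal)
    (hp𝔪 : (P.p : integralClosure ℤ ℂ) ∈ 𝔪)
    (hcong : ∀ ℓ : ℕ, ℓ.Prime → W.IsGoodPrimeFor ℓ → ¬ ℓ ∣ N → ℓ ≠ P.p →
      ∃ a : integralClosure ℤ ℂ, (a : ℂ) = ModularFormClass.qCoeff f ℓ ∧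
        a - ((W.apOfModel ℓ : ℤ) : integralClosure ℤ ℂ) ∈ 𝔪)
    (S : Finset ℕ) (hpS : P.p ∈ S) (hNS : ∀ q : ℕ, q.Prime → q ∣ N → q ∈ S)
    (hbad : ∀ q : ℕ, q.Prime → (q : ℤ) ∣ W.Δ → q ∈ S) :
    ∃ θ : heckeAlgebra N 2 (↑S : Set ℕ) →+* k,
      (∀ (ℓ : ℕ) (hℓ : ℓ.Prime) (hℓN : ¬ ℓ ∣ N) (hℓS : ℓ ∉ (↑S : Set ℕ)),
        θ (heckeAlgebra.T hℓ hℓN hℓS) = ((W.apOfModel ℓ : ℤ) : k)) ∧
      ∀ (ℓ : ℕ) (hℓ : ℓ.Prime) (hℓN : ¬ ℓ ∣ N) (hℓS : ℓ ∉ (↑S : Set ℕ)),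
        ∀ A : ValuationSubring Qb, A.LiesOverPrime ℓ → ∀ σ : GQ, A.IsFrobeniusAt σ ℓ →
          LinearMap.charpoly ((ihrRep P k).ρ σ) =
            X ^ 2 - C (θ (heckeAlgebra.T hℓ hℓN hℓS)) * X + C ((ℓ : k)) := by
  classical
  haveI := h𝔪
  letI : Field (integralClosure ℤ ℂ ⧸ 𝔪) := Ideal.Quotient.field 𝔪
  haveI : CharP (integralClosure ℤ ℂ ⧸ 𝔪) P.p := by
    rw [CharP.charP_iff_prime_eq_zero (Fact.out : P.p.Prime), ← map_natCast (Ideal.Quotient.mk 𝔪)]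
    exact Ideal.Quotient.eq_zero_iff_mem.mpr hp𝔪
  set θ₀ : heckeAlgebra N 2 (↑S : Set ℕ) →+* integralClosure ℤ ℂ ⧸ 𝔪 :=
    (Ideal.Quotient.mk 𝔪).comp (Fermat.Agent.T1.terEigenChar hf (↑S : Set ℕ)) with hθ₀
  -- the generators
  set G : Set (heckeAlgebra N 2 (↑S : Set ℕ)) :=
    {t | ∃ (ℓ : ℕ) (hℓ : ℓ.Prime) (hℓN : ¬ ℓ ∣ N) (hℓS : ℓ ∉ (↑S : Set ℕ)),
      t = heckeAlgebra.T hℓ hℓN hℓS} with hG
  -- the integers
  set a : heckeAlgebra N 2 (↑S : Set ℕ) → ℤ := fun t =>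
    if h : ∃ (ℓ : ℕ) (hℓ : ℓ.Prime) (hℓN : ¬ ℓ ∣ N) (hℓS : ℓ ∉ (↑S : Set ℕ)),
      t = heckeAlgebra.T hℓ hℓN hℓS then W.apOfModel h.choose else 0 with ha
  -- the value at a generator
  have hval : ∀ (ℓ : ℕ) (hℓ : ℓ.Prime) (hℓN : ¬ ℓ ∣ N) (hℓS : ℓ ∉ (↑S : Set ℕ)),
      θ₀ (heckeAlgebra.T hℓ hℓN hℓS) = ((W.apOfModel ℓ : ℤ) : integralClosure ℤ ℂ ⧸ 𝔪) := by
    intro ℓ hℓ hℓN hℓS
    have hgood : W.IsGoodPrimeFor ℓ := fun hdvd => hℓS (hbad ℓ hℓ hdvd)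
    have hℓp : ℓ ≠ P.p := fun h => hℓS (h ▸ hpS)
    obtain ⟨b, hb, hbm⟩ := hcong ℓ hℓ hgood hℓN hℓp
    have h1 : Fermat.Agent.T1.terEigenChar hf (↑S : Set ℕ) (heckeAlgebra.T hℓ hℓN hℓS) = b := by
      apply Subtype.ext
      rw [Fermat.Agent.T1.terEigenChar_T, hb]
    rw [hθ₀, RingHom.comp_apply, h1, ← map_intCast (Ideal.Quotient.mk 𝔪), ← sub_eq_zero,
      ← map_sub]
    exact Ideal.Quotient.eq_zero_iff_mem.mpr hbm
  -- the generators generate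
  have hclos : Subring.closure G = ⊤ := by
    rw [eq_top_iff]
    rintro ⟨x, hx⟩ -
    have key : ∀ (y : Module.End ℂ (CuspForm (CongruenceSubgroup.Gamma0 N) 2))
        (hy : y ∈ Algebra.adjoin ℤ (heckeGenerators N 2 (↑S : Set ℕ))),
        (⟨y, hy⟩ : heckeAlgebra N 2 (↑S : Set ℕ)) ∈ Subring.closure G := by
      intro y hy
      induction hy using Algebra.adjoin_induction with
      | mem y hy =>
        rcases hy with ⟨ℓ, hℓ, hℓN, hℓS, rfl⟩ | ⟨q, hqN, hq, hqS, rfl⟩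
        · exact Subring.subset_closure ⟨ℓ, hℓ, hℓN, hℓS, rfl⟩
        · exact absurd (hNS q hq hqN) hqS
      | algebraMap r =>
        have h1 : (⟨algebraMap ℤ (Module.End ℂ (CuspForm (CongruenceSubgroup.Gamma0 N) 2)) r,
            Subalgebra.algebraMap_mem _ r⟩ : heckeAlgebra N 2 (↑S : Set ℕ)) =
            ((r : ℤ) : heckeAlgebra N 2 (↑S : Set ℕ)) := by
          apply Subtype.ext
          show algebraMap ℤ (Module.End ℂ (CuspForm (CongruenceSubgroup.Gamma0 N) 2)) r =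
            (((r : ℤ) : heckeAlgebra N 2 (↑S : Set ℕ)) :
              Module.End ℂ (CuspForm (CongruenceSubgroup.Gamma0 N) 2))
          rw [eq_intCast]
          norm_cast
        rw [h1]
        exact intCast_mem _ r
      | add y z hy hz ihy ihz => exact Subring.add_mem _ ihy ihz
      | mul y z hy hz ihy ihz => exact Subring.mul_mem _ ihy ihz
    exact key x hx
  have haG : ∀ t ∈ G, θ₀ t = ((a t : ℤ) : integralClosure ℤ ℂ ⧸ 𝔪) := by
    intro t ht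
    have h : ∃ (ℓ : ℕ) (hℓ : ℓ.Prime) (hℓN : ¬ ℓ ∣ N) (hℓS : ℓ ∉ (↑S : Set ℕ)),
        t = heckeAlgebra.T hℓ hℓN hℓS := ht
    obtain ⟨hℓ, hℓN, hℓS, hspec⟩ := h.choose_spec
    have h2 : a t = W.apOfModel h.choose := by rw [ha]; exact dif_pos h
    rw [h2]
    conv_lhs => rw [hspec]
    exact hval _ hℓ hℓN hℓS
  obtain ⟨θ, hθ⟩ := ihr_exists_factor (p := P.p) k θ₀ G hclos a haG
  have hθT : ∀ (ℓ : ℕ) (hℓ : ℓ.Prime) (hℓN : ¬ ℓ ∣ N) (hℓS : ℓ ∉ (↑S : Set ℕ)),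
      θ (heckeAlgebra.T hℓ hℓN hℓS) = ((W.apOfModel ℓ : ℤ) : k) := by
    intro ℓ hℓ hℓN hℓS
    have hmem : heckeAlgebra.T hℓ hℓN hℓS ∈ G := ⟨ℓ, hℓ, hℓN, hℓS, rfl⟩
    rw [hθ _ hmem]
    have h1 : ((a (heckeAlgebra.T hℓ hℓN hℓS) : ℤ) : integralClosure ℤ ℂ ⧸ 𝔪) =
        ((W.apOfModel ℓ : ℤ) : integralClosure ℤ ℂ ⧸ 𝔪) := by
      rw [← haG _ hmem, hval ℓ hℓ hℓN hℓS]
    have h2 := (CharP.intCast_eq_intCast (integralClosure ℤ ℂ ⧸ 𝔪) P.p).1 h1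
    have h3 : ((a (heckeAlgebra.T hℓ hℓN hℓS) : ℤ) : ZMod P.p) = ((W.apOfModel ℓ : ℤ) : ZMod P.p) :=
      (ZMod.intCast_eq_intCast_iff _ _ _).2 h2
    have h4 := congrArg (algebraMap (ZMod P.p) k) h3
    rwa [map_intCast, map_intCast] at h4
  refine ⟨θ, hθT, ?_⟩
  intro ℓ hℓ hℓN hℓS A hA σ hσ
  have hgood : ¬ (ℓ : ℤ) ∣ W.Δ := fun hdvd => hℓS (hbad ℓ hℓ hdvd)
  have hℓp : ℓ ≠ P.p := fun h => hℓS (h ▸ hpS)
  rw [hθT ℓ hℓ hℓN hℓS]
  exact ihr_charpoly_frob P k hW hΔ hℓ hgood hℓp A hA σ hσ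

end

end Fermat.Agent.Ihara
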