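/-
IHARA track / [RB+] (helper9), (R1): **the congruence `a_ℓ(f) ≡ tr ρbar(Frob_ℓ) mod 𝔪` at EVERY prime
`ℓ ∤ N p`** (also at the primes of bad reduction of the integral model `W`).

From the data of `P.ModularRepOfLevel N` (eigenform `f`, integral model `W`, maximal ideal `𝔪 ∋ p` of
`ℤ̄`, congruences `a_ℓ(f) ≡ a_ℓ(W) mod 𝔪` at the good primes): the residual representation `ρ_f` of `f`
over `κ = ℤ̄/𝔪` (S29) and `E[p] ⊗ κ` have the same Frobenius polynomials at the good primes, hence the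
same trace function (Chebotarev); evaluating at a Frobenius element of an arbitrary `ℓ ∤ N p` gives the
congruence. With absolute irreducibility the two representations are isomorphic, hence `E[p]` is
unramified outside `N p`; in particular `2 ∣ N` (R4).
-/
import Mathlib
import Fermat.Agent.S29
import Fermat.Agent.Lib.Helper6.FrobeniusExists
import Fermat.Agent.Lib.Ihara.Dat.Resid
import Fermat.Agent.Lib.Ihara.Rb.Theta

set_option autoImplicit false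
set_option linter.unusedSectionVars false
set_option linter.unusedVariables false
set_option linter.style.haveILetI false

open Polynomial CuspForm WeierstrassCurve WeierstrassCurve.Affine WeierstrassCurve.Affine.Point

namespace Fermat.Agent.Ihara

local notation "Qb" => AlgebraicClosure ℚ
local notation "GQ" => (AlgebraicClosure ℚ ≃ₐ[ℚ] AlgebraicClosure ℚ)

noncomputable section

variable (P : FreyPackage) [Fact P.p.Prime]

/-- the trace of `σ` on `E[p]`, in `𝔽_p` -/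
def ihrTr (σ : GQ) : ZMod P.p := ihdTr (ihrE P) σ

theorem ihdTr_ihrRep (k : Type) [Field k] [Algebra (ZMod P.p) k] (σ : GQ) :
    ihdTr (ihrRep P k) σ = algebraMap (ZMod P.p) k (ihrTr P σ) :=
  ihdTr_baseChange k (ihrE P) σ

/-- `det ρbar(Frob_ℓ) = ℓ` for every `ℓ ≠ p` -/
theorem ihr_det_frob (k : Type) [Field k] [Algebra (ZMod P.p) k] {ℓ : ℕ} (hℓ : ℓ.Prime)
    (hℓp : ℓ ≠ P.p) (A : ValuationSubring Qb) (hA : A.LiesOverPrime ℓ) (σ : GQ)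
    (hσ : A.IsFrobeniusAt σ ℓ) : LinearMap.det ((ihrRep P k).ρ σ) = (ℓ : k) := by
  have h6 : LinearMap.det ((ihrRep P k).ρ σ) =
      algebraMap (ZMod P.p) k (LinearMap.det ((ihrE P).ρ σ)) :=
    LinearMap.det_baseChange ((ihrE P).ρ σ)
  rw [h6, ihr_det_E, ExtCitation.coe_cycloChar,
    Fermat.Agent.Mazur2.mz2g_cycloExp_frob hℓ hℓp A hA σ hσ, map_natCast]

/-- the characteristic polynomial of `ρbar(Frob_ℓ)` in terms of the trace, `ℓ ≠ p` -/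
theorem ihr_charpoly_frob_tr (k : Type) [Field k] [Algebra (ZMod P.p) k] {ℓ : ℕ} (hℓ : ℓ.Prime)
    (hℓp : ℓ ≠ P.p) (A : ValuationSubring Qb) (hA : A.LiesOverPrime ℓ) (σ : GQ)
    (hσ : A.IsFrobeniusAt σ ℓ) :
    LinearMap.charpoly ((ihrRep P k).ρ σ) =
      X ^ 2 - C (algebraMap (ZMod P.p) k (ihrTr P σ)) * X + C ((ℓ : k)) := by
  rw [ihr_charpoly_eq (ihrRep P k).finrank_eq, ihr_det_frob P k hℓ hℓp A hA σ hσ]
  congr 3
  exact congrArg C (ihdTr_ihrRep P k σ)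

/-- the trace read off from the characteristic polynomial -/
theorem ihr_trace_of_charpoly {F : Type} [Field F] (ρ : ResidualGaloisRep F) (σ : GQ) (a d : F)
    (h : LinearMap.charpoly (ρ.ρ σ) = X ^ 2 - C a * X + C d) : ihdTr ρ σ = a := by
  have h1 := ihr_charpoly_eq ρ.finrank_eq (ρ.ρ σ)
  rw [h] at h1
  have h2 := congrArg (fun q : F[X] => q.coeff 1) h1
  simp only [coeff_add, coeff_sub, coeff_X_pow, coeff_C_mul, coeff_X_one, coeff_C] at h2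
  norm_num at h2
  exact h2.symm

section Mod

variable {N : ℕ} [NeZero N] {f : CuspForm (CongruenceSubgroup.Gamma0 N) 2}
  (hf : f.IsNormalizedEigenform) {W : WeierstrassCurve ℤ}
  (hW : W.IsIntegralModelOf P.freyCurve) (hΔ : W.Δ ≠ 0)
  {𝔪 : Ideal (integralClosure ℤ ℂ)} (h𝔪 : 𝔪.IsMaximal)
  (hp𝔪 : (P.p : integralClosure ℤ ℂ) ∈ 𝔪)
  (hcong : ∀ ℓ : ℕ, ℓ.Prime → W.IsGoodPrimeFor ℓ → ¬ ℓ ∣ N → ℓ ≠ P.p →
    ∃ a : integralClosure ℤ ℂ, (a : ℂ) = ModularFormClass.qCoeff f ℓ ∧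
      a - ((W.apOfModel ℓ : ℤ) : integralClosure ℤ ℂ) ∈ 𝔪)

include hf hW hΔ h𝔪 hp𝔪 hcong

/-- the residual representation of `f` over `κ = ℤ̄/𝔪` and its trace function -/
theorem ihr_exists_rep_f :
    letI : Field (integralClosure ℤ ℂ ⧸ 𝔪) := @Ideal.Quotient.field _ _ 𝔪 h𝔪
    ∃ (_ : Algebra (ZMod P.p) (integralClosure ℤ ℂ ⧸ 𝔪))
      (ρf : ResidualGaloisRep (integralClosure ℤ ℂ ⧸ 𝔪)),
      ρf.IsAttachedTo f (Ideal.Quotient.mk 𝔪) ∧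
      (∀ ℓ : ℕ, ℓ.Prime → ¬ ℓ ∣ N * P.p → ρf.IsUnramifiedAt ℓ) ∧
      ∀ σ : GQ, ihdTr (ihrRep P (integralClosure ℤ ℂ ⧸ 𝔪)) σ = ihdTr ρf σ := by
  classical
  have hp : P.p.Prime := Fact.out
  haveI := h𝔪
  letI : Field (integralClosure ℤ ℂ ⧸ 𝔪) := Ideal.Quotient.field 𝔪
  haveI : CharP (integralClosure ℤ ℂ ⧸ 𝔪) P.p := by
    rw [CharP.charP_iff_prime_eq_zero hp, ← map_natCast (Ideal.Quotient.mk 𝔪)]
    exact Ideal.Quotient.eq_zero_iff_mem.mpr hp𝔪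
  letI : Algebra (ZMod P.p) (integralClosure ℤ ℂ ⧸ 𝔪) := ZMod.algebra _ P.p
  obtain ⟨ρf, hatt, hunr⟩ := Fermat.Agent.S29.result hf hp (Ideal.Quotient.mk 𝔪)
  refine ⟨inferInstance, ρf, hatt, hunr, ?_⟩
  -- the big set of primes
  set Sb : Finset ℕ := insert P.p (N.primeFactors ∪ W.Δ.natAbs.primeFactors) with hSb
  have hSb1 : ∀ ℓ : ℕ, ℓ.Prime → ℓ ∉ Sb → ℓ ≠ P.p ∧ ¬ ℓ ∣ N ∧ ¬ (ℓ : ℤ) ∣ W.Δ := by
    intro ℓ hℓ hℓS
    rw [hSb, Finset.mem_insert, Finset.mem_union, not_or, not_or] at hℓS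
    refine ⟨hℓS.1, fun h => hℓS.2.1 (Nat.mem_primeFactors.mpr ⟨hℓ, h, NeZero.ne N⟩), fun h => ?_⟩
    refine hℓS.2.2 (Nat.mem_primeFactors.mpr ⟨hℓ, Int.natCast_dvd.1 h, ?_⟩)
    rwa [Ne, Int.natAbs_eq_zero]
  have hne0 : ∀ ℓ : ℕ, ℓ.Prime → ℓ ≠ P.p → ((ℓ : ℕ) : integralClosure ℤ ℂ ⧸ 𝔪) ≠ 0 := by
    intro ℓ hℓ hℓp h0
    have h1 := (CharP.cast_eq_zero_iff (integralClosure ℤ ℂ ⧸ 𝔪) P.p ℓ).1 h0
    exact hℓp ((Nat.prime_dvd_prime_iff_eq hp hℓ).1 h1).symm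
  intro σ
  refine ihd_tr_eq_of_frob Sb _ _
    (fun ℓ => ((W.apOfModel ℓ : ℤ) : integralClosure ℤ ℂ ⧸ 𝔪)) ?_ ?_ σ
  · intro ℓ hℓ hℓS A hA τ hτ
    obtain ⟨hℓp, hℓN, hgood⟩ := hSb1 ℓ hℓ hℓS
    exact ihr_charpoly_frob P _ hW hΔ hℓ hgood hℓp A hA τ hτ
  · intro ℓ hℓ hℓS A hA τ hτ
    obtain ⟨hℓp, hℓN, hgood⟩ := hSb1 ℓ hℓ hℓS
    obtain ⟨a, ha, hchar⟩ := hatt ℓ hℓ hℓN (hne0 ℓ hℓ hℓp) A hA τ hτ
    obtain ⟨b, hb, hbm⟩ := hcong ℓ hℓ hgood hℓN hℓp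
    have hab : a = b := Subtype.ext (ha.trans hb.symm)
    have h1 : Ideal.Quotient.mk 𝔪 a = ((W.apOfModel ℓ : ℤ) : integralClosure ℤ ℂ ⧸ 𝔪) := by
      rw [hab, ← map_intCast (Ideal.Quotient.mk 𝔪), ← sub_eq_zero, ← map_sub]
      exact Ideal.Quotient.eq_zero_iff_mem.mpr hbm
    show LinearMap.charpoly (ρf.ρ τ) = _
    rw [hchar, h1]

/-- **(R1)** the congruence at every prime `ℓ ∤ N p` -/
theorem ihr_cong_all (ℓ : ℕ) (hℓ : ℓ.Prime) (hℓN : ¬ ℓ ∣ N) (hℓp : ℓ ≠ P.p)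
    (A : ValuationSubring Qb) (hA : A.LiesOverPrime ℓ) (σ : GQ) (hσ : A.IsFrobeniusAt σ ℓ) :
    ∃ a : integralClosure ℤ ℂ, (a : ℂ) = ModularFormClass.qCoeff f ℓ ∧
      ∃ t : ℤ, (t : ZMod P.p) = ihrTr P σ ∧ a - ((t : ℤ) : integralClosure ℤ ℂ) ∈ 𝔪 := by
  classical
  have hp : P.p.Prime := Fact.out
  haveI := h𝔪
  letI : Field (integralClosure ℤ ℂ ⧸ 𝔪) := Ideal.Quotient.field 𝔪
  obtain ⟨alg, ρf, hatt, -, htr⟩ := ihr_exists_rep_f P hf hW hΔ h𝔪 hp𝔪 hcong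
  letI := alg
  haveI : CharP (integralClosure ℤ ℂ ⧸ 𝔪) P.p := by
    rw [CharP.charP_iff_prime_eq_zero hp, ← map_natCast (Ideal.Quotient.mk 𝔪)]
    exact Ideal.Quotient.eq_zero_iff_mem.mpr hp𝔪
  have hne0 : ((ℓ : ℕ) : integralClosure ℤ ℂ ⧸ 𝔪) ≠ 0 := by
    intro h0
    have h1 := (CharP.cast_eq_zero_iff (integralClosure ℤ ℂ ⧸ 𝔪) P.p ℓ).1 h0
    exact hℓp ((Nat.prime_dvd_prime_iff_eq hp hℓ).1 h1).symm
  obtain ⟨a, ha, hchar⟩ := hatt ℓ hℓ hℓN hne0 A hA σ hσ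
  refine ⟨a, ha, ((ihrTr P σ).val : ℤ), ?_, ?_⟩
  · rw [Int.cast_natCast, ZMod.natCast_zmod_val]
  · have h1 : ihdTr ρf σ = Ideal.Quotient.mk 𝔪 a := ihr_trace_of_charpoly ρf σ _ _ hchar
    have h2 := htr σ
    rw [ihdTr_ihrRep, h1] at h2
    rw [← Ideal.Quotient.eq_zero_iff_mem, map_sub, map_intCast, ← h2, sub_eq_zero,
      Int.cast_natCast]
    conv_lhs => rw [← ZMod.natCast_zmod_val (ihrTr P σ)]
    rw [map_natCast]

/-- `E[p]` (with coefficients in any `k`) is unramified at every prime `ℓ ∤ N p`, if it is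
irreducible -/
theorem ihr_unramified_of_not_dvd (hirr : GaloisRepIsIrreducible (K := Qb) ℚ P.freyCurve P.p)
    (k : Type) [Field k] [Algebra (ZMod P.p) k] {ℓ : ℕ} (hℓ : ℓ.Prime) (hℓN : ¬ ℓ ∣ N)
    (hℓp : ℓ ≠ P.p) : (ihrRep P k).IsUnramifiedAt ℓ := by
  classical
  have hp : P.p.Prime := Fact.out
  haveI := h𝔪
  letI : Field (integralClosure ℤ ℂ ⧸ 𝔪) := Ideal.Quotient.field 𝔪
  obtain ⟨alg, ρf, -, hunr, htr⟩ := ihr_exists_rep_f P hf hW hΔ h𝔪 hp𝔪 hcong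
  letI := alg
  have hG : IhdGram (ihrRep P (integralClosure ℤ ℂ ⧸ 𝔪)) :=
    ihdGram_of_abs _ (ihr_habs P (integralClosure ℤ ℂ ⧸ 𝔪) hirr)
  obtain ⟨e⟩ := ihd_isEquiv_of_trace hG htr
  have hℓNp : ¬ ℓ ∣ N * P.p := by
    rw [Nat.Prime.dvd_mul hℓ]
    rintro (h | h)
    · exact hℓN h
    · exact hℓp ((Nat.prime_dvd_prime_iff_eq hℓ hp).1 h)
  have hu := hunr ℓ hℓ hℓNp
  intro A hA σ hσ
  have h1 : ρf.ρ σ = 1 := hu A hA σ hσ
  have h2 : (ihrRep P (integralClosure ℤ ℂ ⧸ 𝔪)).ρ σ = 1 := by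
    apply LinearMap.ext
    intro x
    apply e.toLinearEquiv.injective
    rw [e.map_apply, h1]
    rfl
  have h3 : (ihrE P).ρ σ = 1 := (ihr_baseChange_ρ_eq_one_iff (ihrE P) _ σ).1 h2
  show ((ihrE P).ρ σ).baseChange k = 1
  rw [h3]
  exact LinearMap.baseChange_one _ _

/-- **(R4)** `2` divides every level of `E[p]` -/
theorem ihr_two_dvd_level (hirr : GaloisRepIsIrreducible (K := Qb) ℚ P.freyCurve P.p) :
    2 ∣ N := by
  by_contra h2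
  have hp2 : (2 : ℕ) ≠ P.p := by have := P.hp5; omega
  exact ihr_ramified_two P (ZMod P.p)
    (ihr_unramified_of_not_dvd P hf hW hΔ h𝔪 hp𝔪 hcong hirr (ZMod P.p) Nat.prime_two h2 hp2)

end Mod

end

end Fermat.Agent.Ihara
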