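/-
IHARA track / [RB] (helper9): **the primes of `a b c` are bad for every integral model of the Frey
curve** (`ihr_dvd_disc`), and `Δ ≠ 0` for every integral model (`ihr_disc_ne_zero`).
(`freyCurveInt` is semistable, and `c₄³ / Δ` is an invariant.)
-/
import Fermat.Agent.Lib.Mazur2.Frey.Model
import Fermat.Prelude.Def_FLTPrelim_Modularity

set_option autoImplicit false
set_option linter.unusedSectionVars false
set_option linter.style.haveILetI false

open WeierstrassCurve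

namespace Fermat.Agent.Ihara

variable (P : FreyPackage)

/-- the invariance of `c₄³ / Δ` -/
theorem ihr_c4_disc {W : WeierstrassCurve ℤ} (hW : W.IsIntegralModelOf P.freyCurve) :
    W.c₄ ^ 3 * P.freyCurveInt.Δ = P.freyCurveInt.c₄ ^ 3 * W.Δ := by
  obtain ⟨C, hC⟩ := hW
  rw [← Fermat.Agent.Mazur2.mz2f_frey_eq] at hC
  have h1 : ((W.Δ : ℤ) : ℚ) = (C.u⁻¹ : ℚ) ^ 12 * ((P.freyCurveInt.Δ : ℤ) : ℚ) := by
    have := congrArg WeierstrassCurve.Δ hC
    rw [variableChange_Δ, map_Δ, map_Δ] at this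
    simpa using this.symm
  have h2 : ((W.c₄ : ℤ) : ℚ) = (C.u⁻¹ : ℚ) ^ 4 * ((P.freyCurveInt.c₄ : ℤ) : ℚ) := by
    have := congrArg WeierstrassCurve.c₄ hC
    rw [variableChange_c₄, map_c₄, map_c₄] at this
    simpa using this.symm
  have h3 : ((W.c₄ ^ 3 * P.freyCurveInt.Δ : ℤ) : ℚ) = ((P.freyCurveInt.c₄ ^ 3 * W.Δ : ℤ) : ℚ) := by
    push_cast
    rw [h1, h2]
    ring
  exact_mod_cast h3

/-- **a prime dividing `a b c` divides the discriminant of every integral model of the Frey curve** -/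
theorem ihr_dvd_disc {W : WeierstrassCurve ℤ} (hW : W.IsIntegralModelOf P.freyCurve) {ℓ : ℕ}
    (hℓ : ℓ.Prime) (h : (ℓ : ℤ) ∣ P.a * P.b * P.c) : (ℓ : ℤ) ∣ W.Δ := by
  have hpr := Nat.prime_iff_prime_int.mp hℓ
  have h1 : (ℓ : ℤ) ∣ P.freyCurveInt.Δ := Fermat.Agent.Mazur2.mz2f_dvd_Δ_of_dvd_abc P hℓ h
  have h2 : ¬ (ℓ : ℤ) ∣ P.freyCurveInt.c₄ := Fermat.Agent.Mazur2.mz2f_semistable P hℓ h1
  have h3 : (ℓ : ℤ) ∣ P.freyCurveInt.c₄ ^ 3 * W.Δ := by
    rw [← ihr_c4_disc P hW]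
    exact Dvd.dvd.mul_left h1 _
  rcases hpr.dvd_or_dvd h3 with h4 | h4
  · exact absurd (hpr.dvd_of_dvd_pow h4) h2
  · exact h4

/-- the discriminant of an integral model of the Frey curve is nonzero -/
theorem ihr_disc_ne_zero {W : WeierstrassCurve ℤ} (hW : W.IsIntegralModelOf P.freyCurve) :
    W.Δ ≠ 0 := by
  obtain ⟨C, hC⟩ := hW
  rw [← Fermat.Agent.Mazur2.mz2f_frey_eq] at hC
  intro h0
  have := congrArg WeierstrassCurve.Δ hC
  rw [variableChange_Δ, map_Δ, map_Δ, h0, map_zero] at this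
  rcases mul_eq_zero.1 this with h | h
  · exact (pow_ne_zero 12 (Units.ne_zero C.u⁻¹)) h
  · have h' : (P.freyCurveInt.Δ : ℚ) = 0 := by simpa using h
    exact Fermat.Agent.Mazur2.mz2f_Δ_ne_zero P (by exact_mod_cast h')

end Fermat.Agent.Ihara
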