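/-
IHARA track / [RB+] (helper9), (R2)+(R3): **the Hecke eigensystem of `E[p]` at ALL primes `ℓ ∤ N p`**.

From the data of `P.ModularRepOfLevel N`:
* `ihr_exists_eig` : integers `t ℓ` (`ℓ ∤ N p` prime) with `t ℓ ≡ a_ℓ(f) mod 𝔪` and
  `t ℓ mod p = tr (E[p])(Frob_ℓ)` for EVERY Frobenius element at `ℓ`;
* `ihr_exists_theta'` (R2): for ANY finite `S ⊇ {p} ∪ primes(N)` the homomorphism
  `θ : heckeAlgebra N 2 S →+* k`, `θ (T_ℓ) = t ℓ`, with `hfrob` of `ihd_exists_datum`;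
* `ihr_frob_theta0` : `hfrob` in the form of helper7's `ihk_main_chi` (`θ₀ : ℕ → 𝒪`);
* `ihr_part_ne_bot'` (R3): `ih4Part 𝒪 N Ps θ₀ ≠ ⊥` for any set `Ps` of primes `ℓ ∤ N p`
  (e.g. all of them) whenever `θ₀ ℓ ≡ t ℓ mod 𝔪_𝒪` on `Ps`.
-/
import Mathlib
import Fermat.Agent.Lib.Ihara.Rb.CongAll
import Fermat.Agent.Lib.Ihara.Rb.Level2

set_option autoImplicit false
set_option linter.unusedSectionVars false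
set_option linter.unusedVariables false
set_option linter.style.haveILetI false

open Polynomial CuspForm IsLocalRing

namespace Fermat.Agent.Ihara

local notation "Qb" => AlgebraicClosure ℚ
local notation "GQ" => (AlgebraicClosure ℚ ≃ₐ[ℚ] AlgebraicClosure ℚ)

noncomputable section

variable (P : FreyPackage) [Fact P.p.Prime]

/-- the property of an integer eigenvalue function `t` of `E[p]` at level `N` -/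
def IhrEig {N : ℕ} (f : CuspForm (CongruenceSubgroup.Gamma0 N) 2)
    (𝔪 : Ideal (integralClosure ℤ ℂ)) (t : ℕ → ℤ) : Prop :=
  ∀ ℓ : ℕ, ℓ.Prime → ¬ ℓ ∣ N → ℓ ≠ P.p →
    (∃ a : integralClosure ℤ ℂ, (a : ℂ) = ModularFormClass.qCoeff f ℓ ∧
      a - ((t ℓ : ℤ) : integralClosure ℤ ℂ) ∈ 𝔪) ∧
    ∀ A : ValuationSubring Qb, A.LiesOverPrime ℓ → ∀ σ : GQ, A.IsFrobeniusAt σ ℓ →
      ((t ℓ : ℤ) : ZMod P.p) = ihrTr P σ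

section Mod

variable {N : ℕ} [NeZero N] {f : CuspForm (CongruenceSubgroup.Gamma0 N) 2}
  (hf : f.IsNormalizedEigenform) {W : WeierstrassCurve ℤ}
  (hW : W.IsIntegralModelOf P.freyCurve) (hΔ : W.Δ ≠ 0)
  {𝔪 : Ideal (integralClosure ℤ ℂ)} (h𝔪 : 𝔪.IsMaximal)
  (hp𝔪 : (P.p : integralClosure ℤ ℂ) ∈ 𝔪)
  (hcong : ∀ ℓ : ℕ, ℓ.Prime → W.IsGoodPrimeFor ℓ → ¬ ℓ ∣ N → ℓ ≠ P.p →
    ∃ a : integralClosure ℤ ℂ, (a : ℂ) = ModularFormClass.qCoeff f ℓ ∧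
      a - ((W.apOfModel ℓ : ℤ) : integralClosure ℤ ℂ) ∈ 𝔪)

include hf hW hΔ h𝔪 hp𝔪 hcong in
/-- **the integer eigenvalues of `E[p]` at all primes `ℓ ∤ N p`** -/
theorem ihr_exists_eig : ∃ t : ℕ → ℤ, IhrEig P f 𝔪 t := by
  classical
  have hp : P.p.Prime := Fact.out
  haveI := h𝔪
  letI : Field (integralClosure ℤ ℂ ⧸ 𝔪) := Ideal.Quotient.field 𝔪
  haveI : CharP (integralClosure ℤ ℂ ⧸ 𝔪) P.p := by
    rw [CharP.charP_iff_prime_eq_zero hp, ← map_natCast (Ideal.Quotient.mk 𝔪)]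
    exact Ideal.Quotient.eq_zero_iff_mem.mpr hp𝔪
  have key : ∀ ℓ : ℕ, ∃ t : ℤ, ℓ.Prime → ¬ ℓ ∣ N → ℓ ≠ P.p →
      (∃ a : integralClosure ℤ ℂ, (a : ℂ) = ModularFormClass.qCoeff f ℓ ∧
        a - ((t : ℤ) : integralClosure ℤ ℂ) ∈ 𝔪) ∧
      ∀ A : ValuationSubring Qb, A.LiesOverPrime ℓ → ∀ σ : GQ, A.IsFrobeniusAt σ ℓ →
        ((t : ℤ) : ZMod P.p) = ihrTr P σ := by
    intro ℓ
    by_cases h : ℓ.Prime ∧ ¬ ℓ ∣ N ∧ ℓ ≠ P.p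
    · obtain ⟨hℓ, hℓN, hℓp⟩ := h
      obtain ⟨A₀, σ₀, hA₀, hσ₀⟩ := Fermat.Agent.Lib.Helper6.exists_frobenius ℓ hℓ
      obtain ⟨a, ha, t, ht, hat⟩ :=
        ihr_cong_all P hf hW hΔ h𝔪 hp𝔪 hcong ℓ hℓ hℓN hℓp A₀ hA₀ σ₀ hσ₀
      refine ⟨t, fun _ _ _ => ⟨⟨a, ha, hat⟩, fun A hA σ hσ => ?_⟩⟩
      obtain ⟨a', ha', t', ht', hat'⟩ :=
        ihr_cong_all P hf hW hΔ h𝔪 hp𝔪 hcong ℓ hℓ hℓN hℓp A hA σ hσ
      have haa : a' = a := Subtype.ext (ha'.trans ha.symm)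
      rw [haa] at hat'
      have h1 : ((t : ℤ) : integralClosure ℤ ℂ ⧸ 𝔪) = ((t' : ℤ) : integralClosure ℤ ℂ ⧸ 𝔪) := by
        have h2 := 𝔪.sub_mem hat' hat
        rw [sub_sub_sub_cancel_left, ← Ideal.Quotient.eq_zero_iff_mem, map_sub, map_intCast,
          map_intCast, sub_eq_zero] at h2
        exact h2
      have h3 := (CharP.intCast_eq_intCast (integralClosure ℤ ℂ ⧸ 𝔪) P.p).1 h1
      rw [← ht']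
      exact (ZMod.intCast_eq_intCast_iff _ _ _).2 h3
    · exact ⟨0, fun h1 h2 h3 => absurd ⟨h1, h2, h3⟩ h⟩
  choose t ht using key
  exact ⟨t, ht⟩

end Mod

section Consequences

variable {N : ℕ} [NeZero N] {f : CuspForm (CongruenceSubgroup.Gamma0 N) 2}
  (hf : f.IsNormalizedEigenform) {𝔪 : Ideal (integralClosure ℤ ℂ)} (h𝔪 : 𝔪.IsMaximal)
  (hp𝔪 : (P.p : integralClosure ℤ ℂ) ∈ 𝔪) {t : ℕ → ℤ} (ht : IhrEig P f 𝔪 t)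

include ht in
/-- `hfrob` for the eigenvalue function `t` -/
theorem ihr_frob_eig (k : Type) [Field k] [Algebra (ZMod P.p) k] {ℓ : ℕ} (hℓ : ℓ.Prime)
    (hℓN : ¬ ℓ ∣ N) (hℓp : ℓ ≠ P.p) (A : ValuationSubring Qb) (hA : A.LiesOverPrime ℓ) (σ : GQ)
    (hσ : A.IsFrobeniusAt σ ℓ) :
    LinearMap.charpoly ((ihrRep P k).ρ σ) = X ^ 2 - C (((t ℓ : ℤ) : k)) * X + C ((ℓ : k)) := by
  rw [ihr_charpoly_frob_tr P k hℓ hℓp A hA σ hσ, ← (ht ℓ hℓ hℓN hℓp).2 A hA σ hσ, map_intCast]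

include ht in
/-- **`hfrob` in the form of helper7's `ihk_main_chi`**: `θ₀ : ℕ → 𝒪` any lift of `t` -/
theorem ihr_frob_theta0 {𝒪 : Type} [CommRing 𝒪] [IsLocalRing 𝒪]
    [Algebra (ZMod P.p) (ResidueField 𝒪)] (θ₀ : ℕ → 𝒪) {ℓ : ℕ} (hℓ : ℓ.Prime)
    (hℓN : ¬ ℓ ∣ N) (hℓp : ℓ ≠ P.p) (hθ₀ : θ₀ ℓ - ((t ℓ : ℤ) : 𝒪) ∈ maximalIdeal 𝒪)
    (A : ValuationSubring Qb) (hA : A.LiesOverPrime ℓ) (σ : GQ) (hσ : A.IsFrobeniusAt σ ℓ) :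
    LinearMap.charpoly ((ihrRep P (ResidueField 𝒪)).ρ σ) =
      X ^ 2 - C (residue 𝒪 (θ₀ ℓ)) * X + C ((ℓ : ResidueField 𝒪)) := by
  rw [ihr_frob_eig P ht (ResidueField 𝒪) hℓ hℓN hℓp A hA σ hσ]
  have h1 : residue 𝒪 (θ₀ ℓ) = ((t ℓ : ℤ) : ResidueField 𝒪) := by
    have := (residue_eq_zero_iff _).2 hθ₀
    rwa [map_sub, sub_eq_zero, map_intCast] at this
  rw [h1]

include ht in
/-- at the good primes of an integral model the eigenvalue function is `a_ℓ(W)` modulo `p` -/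
theorem ihr_eig_good {W : WeierstrassCurve ℤ} (hW : W.IsIntegralModelOf P.freyCurve)
    (hΔ : W.Δ ≠ 0) {ℓ : ℕ} (hℓ : ℓ.Prime) (hgood : W.IsGoodPrimeFor ℓ) (hℓN : ¬ ℓ ∣ N)
    (hℓp : ℓ ≠ P.p) : ((t ℓ : ℤ) : ZMod P.p) = ((W.apOfModel ℓ : ℤ) : ZMod P.p) := by
  obtain ⟨A, σ, hA, hσ⟩ := Fermat.Agent.Lib.Helper6.exists_frobenius ℓ hℓ
  rw [(ht ℓ hℓ hℓN hℓp).2 A hA σ hσ]
  exact (ihr_charpoly_frob_E P hW hΔ hℓ hgood hℓp A hA σ hσ).1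

include ht in
/-- the same in a local ring `𝒪` with `p ∈ 𝔪_𝒪` -/
theorem ihr_eig_good_sub_mem {W : WeierstrassCurve ℤ} (hW : W.IsIntegralModelOf P.freyCurve)
    (hΔ : W.Δ ≠ 0) {𝒪 : Type*} [CommRing 𝒪] [IsLocalRing 𝒪] (hp𝒪 : (P.p : 𝒪) ∈ maximalIdeal 𝒪)
    {ℓ : ℕ} (hℓ : ℓ.Prime) (hgood : W.IsGoodPrimeFor ℓ) (hℓN : ¬ ℓ ∣ N) (hℓp : ℓ ≠ P.p) :
    ((t ℓ : ℤ) : 𝒪) - ((W.apOfModel ℓ : ℤ) : 𝒪) ∈ maximalIdeal 𝒪 := by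
  have h1 := ihr_eig_good P ht hW hΔ hℓ hgood hℓN hℓp
  rw [ZMod.intCast_eq_intCast_iff_dvd_sub] at h1
  obtain ⟨c, hc⟩ := h1
  have h2 : ((t ℓ : ℤ) : 𝒪) - ((W.apOfModel ℓ : ℤ) : 𝒪) = -((P.p : 𝒪) * (c : 𝒪)) := by
    have := congrArg (fun z : ℤ => (z : 𝒪)) hc
    simp only [Int.cast_sub, Int.cast_mul, Int.cast_natCast] at this
    rw [← this]
    ring
  rw [h2]
  exact neg_mem (Ideal.mul_mem_right _ _ hp𝒪)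

include hf h𝔪 hp𝔪 ht in
/-- **(R2)** the residual eigensystem of `E[p]` on the Hecke algebra with ANY finite set
`S ⊇ {p} ∪ primes(N)` removed, and the hypothesis `hfrob` of `ihd_exists_datum` -/
theorem ihr_exists_theta' (k : Type) [Field k] [Algebra (ZMod P.p) k]
    (S : Finset ℕ) (hpS : P.p ∈ S) (hNS : ∀ q : ℕ, q.Prime → q ∣ N → q ∈ S) :
    ∃ θ : heckeAlgebra N 2 (↑S : Set ℕ) →+* k,
      (∀ (ℓ : ℕ) (hℓ : ℓ.Prime) (hℓN : ¬ ℓ ∣ N) (hℓS : ℓ ∉ (↑S : Set ℕ)),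
        θ (heckeAlgebra.T hℓ hℓN hℓS) = ((t ℓ : ℤ) : k)) ∧
      ∀ (ℓ : ℕ) (hℓ : ℓ.Prime) (hℓN : ¬ ℓ ∣ N) (hℓS : ℓ ∉ (↑S : Set ℕ)),
        ∀ A : ValuationSubring Qb, A.LiesOverPrime ℓ → ∀ σ : GQ, A.IsFrobeniusAt σ ℓ →
          LinearMap.charpoly ((ihrRep P k).ρ σ) =
            X ^ 2 - C (θ (heckeAlgebra.T hℓ hℓN hℓS)) * X + C ((ℓ : k)) := by
  classical
  haveI := h𝔪
  letI : Field (integralClosure ℤ ℂ ⧸ 𝔪) := Ideal.Quotient.field 𝔪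
  haveI : CharP (integralClosure ℤ ℂ ⧸ 𝔪) P.p := by
    rw [CharP.charP_iff_prime_eq_zero (Fact.out : P.p.Prime), ← map_natCast (Ideal.Quotient.mk 𝔪)]
    exact Ideal.Quotient.eq_zero_iff_mem.mpr hp𝔪
  set θ₀ : heckeAlgebra N 2 (↑S : Set ℕ) →+* integralClosure ℤ ℂ ⧸ 𝔪 :=
    (Ideal.Quotient.mk 𝔪).comp (Fermat.Agent.T1.terEigenChar hf (↑S : Set ℕ)) with hθ₀
  set G : Set (heckeAlgebra N 2 (↑S : Set ℕ)) :=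
    {x | ∃ (ℓ : ℕ) (hℓ : ℓ.Prime) (hℓN : ¬ ℓ ∣ N) (hℓS : ℓ ∉ (↑S : Set ℕ)),
      x = heckeAlgebra.T hℓ hℓN hℓS} with hG
  set a : heckeAlgebra N 2 (↑S : Set ℕ) → ℤ := fun x =>
    if h : ∃ (ℓ : ℕ) (hℓ : ℓ.Prime) (hℓN : ¬ ℓ ∣ N) (hℓS : ℓ ∉ (↑S : Set ℕ)),
      x = heckeAlgebra.T hℓ hℓN hℓS then t h.choose else 0 with ha
  have hval : ∀ (ℓ : ℕ) (hℓ : ℓ.Prime) (hℓN : ¬ ℓ ∣ N) (hℓS : ℓ ∉ (↑S : Set ℕ)),
      θ₀ (heckeAlgebra.T hℓ hℓN hℓS) = ((t ℓ : ℤ) : integralClosure ℤ ℂ ⧸ 𝔪) := by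
    intro ℓ hℓ hℓN hℓS
    have hℓp : ℓ ≠ P.p := fun h => hℓS (h ▸ hpS)
    obtain ⟨b, hb, hbm⟩ := (ht ℓ hℓ hℓN hℓp).1
    have h1 : Fermat.Agent.T1.terEigenChar hf (↑S : Set ℕ) (heckeAlgebra.T hℓ hℓN hℓS) = b := by
      apply Subtype.ext
      rw [Fermat.Agent.T1.terEigenChar_T, hb]
    rw [hθ₀, RingHom.comp_apply, h1, ← map_intCast (Ideal.Quotient.mk 𝔪), ← sub_eq_zero,
      ← map_sub]
    exact Ideal.Quotient.eq_zero_iff_mem.mpr hbm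
  have hclos : Subring.closure G = ⊤ := by
    rw [eq_top_iff]
    rintro ⟨x, hx⟩ -
    have key : ∀ (y : Module.End ℂ (CuspForm (CongruenceSubgroup.Gamma0 N) 2))
        (hy : y ∈ Algebra.adjoin ℤ (heckeGenerators N 2 (↑S : Set ℕ))),
        (⟨y, hy⟩ : heckeAlgebra N 2 (↑S : Set ℕ)) ∈ Subring.closure G := by
      intro y hy
      induction hy using Algebra.adjoin_induction with
      | mem y hy =>
        rcases hy with ⟨ℓ, hℓ, hℓN, hℓS, rfl⟩ | ⟨q, hqN, hq, hqS, rfl⟩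
        · exact Subring.subset_closure ⟨ℓ, hℓ, hℓN, hℓS, rfl⟩
        · exact absurd (hNS q hq hqN) hqS
      | algebraMap r =>
        have h1 : (⟨algebraMap ℤ (Module.End ℂ (CuspForm (CongruenceSubgroup.Gamma0 N) 2)) r,
            Subalgebra.algebraMap_mem _ r⟩ : heckeAlgebra N 2 (↑S : Set ℕ)) =
            ((r : ℤ) : heckeAlgebra N 2 (↑S : Set ℕ)) := by
          apply Subtype.ext
          show algebraMap ℤ (Module.End ℂ (CuspForm (CongruenceSubgroup.Gamma0 N) 2)) r =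
            (((r : ℤ) : heckeAlgebra N 2 (↑S : Set ℕ)) :
              Module.End ℂ (CuspForm (CongruenceSubgroup.Gamma0 N) 2))
          rw [eq_intCast]
          norm_cast
        rw [h1]
        exact intCast_mem _ r
      | add y z hy hz ihy ihz => exact Subring.add_mem _ ihy ihz
      | mul y z hy hz ihy ihz => exact Subring.mul_mem _ ihy ihz
    exact key x hx
  have haG : ∀ x ∈ G, θ₀ x = ((a x : ℤ) : integralClosure ℤ ℂ ⧸ 𝔪) := by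
    intro x hx
    have h : ∃ (ℓ : ℕ) (hℓ : ℓ.Prime) (hℓN : ¬ ℓ ∣ N) (hℓS : ℓ ∉ (↑S : Set ℕ)),
        x = heckeAlgebra.T hℓ hℓN hℓS := hx
    obtain ⟨hℓ, hℓN, hℓS, hspec⟩ := h.choose_spec
    have h2 : a x = t h.choose := by rw [ha]; exact dif_pos h
    rw [h2]
    conv_lhs => rw [hspec]
    exact hval _ hℓ hℓN hℓS
  obtain ⟨θ, hθ⟩ := ihr_exists_factor (p := P.p) k θ₀ G hclos a haG
  have hθT : ∀ (ℓ : ℕ) (hℓ : ℓ.Prime) (hℓN : ¬ ℓ ∣ N) (hℓS : ℓ ∉ (↑S : Set ℕ)),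
      θ (heckeAlgebra.T hℓ hℓN hℓS) = ((t ℓ : ℤ) : k) := by
    intro ℓ hℓ hℓN hℓS
    have hmem : heckeAlgebra.T hℓ hℓN hℓS ∈ G := ⟨ℓ, hℓ, hℓN, hℓS, rfl⟩
    rw [hθ _ hmem]
    have h1 : ((a (heckeAlgebra.T hℓ hℓN hℓS) : ℤ) : integralClosure ℤ ℂ ⧸ 𝔪) =
        ((t ℓ : ℤ) : integralClosure ℤ ℂ ⧸ 𝔪) := by
      rw [← haG _ hmem, hval ℓ hℓ hℓN hℓS]
    have h2 := (CharP.intCast_eq_intCast (integralClosure ℤ ℂ ⧸ 𝔪) P.p).1 h1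
    have h3 : ((a (heckeAlgebra.T hℓ hℓN hℓS) : ℤ) : ZMod P.p) = ((t ℓ : ℤ) : ZMod P.p) :=
      (ZMod.intCast_eq_intCast_iff _ _ _).2 h2
    have h4 := congrArg (algebraMap (ZMod P.p) k) h3
    rwa [map_intCast, map_intCast] at h4
  refine ⟨θ, hθT, ?_⟩
  intro ℓ hℓ hℓN hℓS A hA σ hσ
  have hℓp : ℓ ≠ P.p := fun h => hℓS (h ▸ hpS)
  rw [hθT ℓ hℓ hℓN hℓS]
  exact ihr_frob_eig P ht k hℓ hℓN hℓp A hA σ hσ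

include hf h𝔪 hp𝔪 ht in
/-- **(R3)** a nonzero `θ₀`-part of the Betti module of level `N` for ANY set `Ps` of primes
`ℓ ∤ N p` (e.g. all of them), `θ₀ ℓ ≡ t ℓ mod 𝔪_𝒪` on `Ps` -/
theorem ihr_part_ne_bot' (𝒪 : Type) [CommRing 𝒪] [IsDomain 𝒪] [CharZero 𝒪] [IsLocalRing 𝒪]
    [IsNoetherianRing 𝒪] [IsAdicComplete (maximalIdeal 𝒪) 𝒪]
    (hp𝒪 : (P.p : 𝒪) ∈ maximalIdeal 𝒪) (Ps : Set ℕ)
    (hPs : ∀ ℓ ∈ Ps, ℓ.Prime ∧ ¬ ℓ ∣ N ∧ ℓ ≠ P.p) (θ₀ : ℕ → 𝒪)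
    (hθ₀ : ∀ ℓ ∈ Ps, θ₀ ℓ - ((t ℓ : ℤ) : 𝒪) ∈ maximalIdeal 𝒪) :
    ih4Part 𝒪 N Ps θ₀ ≠ ⊥ :=
  ihr_part_ne_bot_of_cong 𝒪 N (Fact.out : P.p.Prime) hp𝒪 hf h𝔪 hp𝔪 Ps t
    (fun ℓ hℓ => ⟨(hPs ℓ hℓ).1, (hPs ℓ hℓ).2.1, (ht ℓ (hPs ℓ hℓ).1 (hPs ℓ hℓ).2.1 (hPs ℓ hℓ).2.2).1⟩)
    θ₀ hθ₀

end Consequences

end

end Fermat.Agent.Ihara
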