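/-
IHARA track / [RB+] (helper9): **one-call package** of everything the modular side needs from
`P.ModularRepOfLevel N` (for the assembly of `IhaModular`).
-/
import Mathlib
import Fermat.Agent.Lib.Ihara.Rb.Plus
import Fermat.Agent.Lib.Ihara.Rb.Disc

set_option autoImplicit false
set_option linter.unusedSectionVars false
set_option linter.unusedVariables false
set_option linter.style.haveILetI false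

open Polynomial CuspForm IsLocalRing
open WeierstrassCurve WeierstrassCurve.Affine WeierstrassCurve.Affine.Point

namespace Fermat.Agent.Ihara

local notation "Qb" => AlgebraicClosure ℚ
local notation "GQ" => (AlgebraicClosure ℚ ≃ₐ[ℚ] AlgebraicClosure ℚ)

variable (P : FreyPackage) [Fact P.p.Prime]

/-- **the eigenform data + the integer eigenvalue function `t` from `P.ModularRepOfLevel N`** (feed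
`hf h𝔪 hp𝔪 ht` to `ihr_exists_theta'`, `ihr_part_ne_bot'`, `ihr_frob_theta0`, `ihr_eig_good`, and
`hf hW hΔ h𝔪 hp𝔪 hcong` to `ihr_two_dvd_level`, `ihr_unramified_of_not_dvd`) -/
theorem ihr_exists_eig_of_modular {N : ℕ} [NeZero N] (hmod : P.ModularRepOfLevel N) :
    ∃ (f : CuspForm (CongruenceSubgroup.Gamma0 N) 2) (W : WeierstrassCurve ℤ)
      (𝔪 : Ideal (integralClosure ℤ ℂ)) (t : ℕ → ℤ),
      f.IsNormalizedEigenform ∧ W.IsIntegralModelOf P.freyCurve ∧ W.Δ ≠ 0 ∧ 𝔪.IsMaximal ∧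
      (P.p : integralClosure ℤ ℂ) ∈ 𝔪 ∧
      (∀ ℓ : ℕ, ℓ.Prime → W.IsGoodPrimeFor ℓ → ¬ ℓ ∣ N → ℓ ≠ P.p →
        ∃ a : integralClosure ℤ ℂ, (a : ℂ) = ModularFormClass.qCoeff f ℓ ∧
          a - ((W.apOfModel ℓ : ℤ) : integralClosure ℤ ℂ) ∈ 𝔪) ∧
      W.IsResiduallyModularOfLevel P.p N ∧ IhrEig P f 𝔪 t := by
  obtain ⟨f, W, 𝔪, hf, hW, h𝔪, hp𝔪, hcong⟩ := hmod
  have hΔ : W.Δ ≠ 0 := ihr_disc_ne_zero P hW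
  obtain ⟨t, ht⟩ := ihr_exists_eig P hf hW hΔ h𝔪 hp𝔪 hcong
  exact ⟨f, W, 𝔪, t, hf, hW, hΔ, h𝔪, hp𝔪, hcong, ⟨f, 𝔪, hf, h𝔪, hp𝔪, hcong⟩, ht⟩

/-- **the Galois-free summary**: `2 ∣ N`, and an integer function `t` with `t ℓ mod p = tr E[p](Frob_ℓ)`
at every `ℓ ∤ N p`, such that `θ₀`-parts of the Betti module of level `N` are nonzero for every lift
`θ₀` of `t` and every set `Ps` of primes `ℓ ∤ N p` -/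
theorem ihr_modular_summary {N : ℕ} [NeZero N] (hmod : P.ModularRepOfLevel N)
    (hirr : GaloisRepIsIrreducible (K := Qb) ℚ P.freyCurve P.p) :
    2 ∣ N ∧ ∃ t : ℕ → ℤ,
      (∀ ℓ : ℕ, ℓ.Prime → ¬ ℓ ∣ N → ℓ ≠ P.p → ∀ A : ValuationSubring Qb, A.LiesOverPrime ℓ →
        ∀ σ : GQ, A.IsFrobeniusAt σ ℓ → ((t ℓ : ℤ) : ZMod P.p) = ihrTr P σ) ∧
      (∀ (𝒪 : Type) [CommRing 𝒪] [IsLocalRing 𝒪] [Algebra (ZMod P.p) (ResidueField 𝒪)]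
        (θ₀ : ℕ → 𝒪) (ℓ : ℕ), ℓ.Prime → ¬ ℓ ∣ N → ℓ ≠ P.p →
        θ₀ ℓ - ((t ℓ : ℤ) : 𝒪) ∈ maximalIdeal 𝒪 →
        ∀ A : ValuationSubring Qb, A.LiesOverPrime ℓ → ∀ σ : GQ, A.IsFrobeniusAt σ ℓ →
          LinearMap.charpoly ((ihrRep P (ResidueField 𝒪)).ρ σ) =
            X ^ 2 - C (residue 𝒪 (θ₀ ℓ)) * X + C ((ℓ : ResidueField 𝒪))) ∧
      (∀ (𝒪 : Type) [CommRing 𝒪] [IsDomain 𝒪] [CharZero 𝒪] [IsLocalRing 𝒪] [IsNoetherianRing 𝒪]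
        [IsAdicComplete (maximalIdeal 𝒪) 𝒪], (P.p : 𝒪) ∈ maximalIdeal 𝒪 →
        ∀ (Ps : Set ℕ), (∀ ℓ ∈ Ps, ℓ.Prime ∧ ¬ ℓ ∣ N ∧ ℓ ≠ P.p) →
        ∀ θ₀ : ℕ → 𝒪, (∀ ℓ ∈ Ps, θ₀ ℓ - ((t ℓ : ℤ) : 𝒪) ∈ maximalIdeal 𝒪) →
          ih4Part 𝒪 N Ps θ₀ ≠ ⊥) := by
  obtain ⟨f, W, 𝔪, t, hf, hW, hΔ, h𝔪, hp𝔪, hcong, -, ht⟩ := ihr_exists_eig_of_modular P hmod
  refine ⟨ihr_two_dvd_level P hf hW hΔ h𝔪 hp𝔪 hcong hirr, t,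
    fun ℓ hℓ hℓN hℓp => (ht ℓ hℓ hℓN hℓp).2, ?_, ?_⟩
  · intro 𝒪 _ _ _ θ₀ ℓ hℓ hℓN hℓp hθ₀ A hA σ hσ
    exact ihr_frob_theta0 P ht θ₀ hℓ hℓN hℓp hθ₀ A hA σ hσ
  · intro 𝒪 _ _ _ _ _ _ hp𝒪 Ps hPs θ₀ hθ₀
    exact ihr_part_ne_bot' P hf h𝔪 hp𝔪 ht 𝒪 hp𝒪 Ps hPs θ₀ hθ₀

end Fermat.Agent.Ihara
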