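/-
IHARA track / [RB+] (helper9): **the eigenvalue functions at the Taylor–Wiles levels**.

For the assembly of `IhaModular` the rank `d` must be chosen BEFORE the Taylor–Wiles set `qv`, while
helper1's `[LVL]` gives the rank `finrank O (ih4Part O N Ps (ih4Shift O θ bq Q))` with `θ`, `bq`
depending on `Q`.  This file provides

* `ih4Part_congr`: the `θ`-part only depends on `θ` modulo the maximal ideal (on `Ps`);
* `ihr_tw_roots`: at a Taylor–Wiles prime `q` (`IsTWPrime (ihrRep P k) q`, `q ≡ 1 mod p`) the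
  polynomial `X² - t_q X + q` has roots `a, b ∈ 𝒪` with `a`, `a - b`, `1 - a²` units (Hensel);
* `ihr_exists_tw_theta`: for a list `Q` of Taylor–Wiles primes the functions `θ`, `bq` with
  `θ ℓ = t ℓ` off `Q`, the hypothesis `hθQ` of helper1's `ihm_lvl_free`, and
  **`ih4Shift 𝒪 θ bq Q = fun ℓ => t ℓ` EXACTLY** (so that `d` does not depend on `Q`).
-/
import Mathlib
import Fermat.Agent.Lib.Ihara.Rb.Plus
import Fermat.Agent.Lib.Ihara.H4.TwBetti
import Fermat.Agent.Lib.Ihara.H4.Hensel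
import Fermat.Agent.Lib.TW.Interface

set_option autoImplicit false
set_option linter.unusedSectionVars false
set_option linter.unusedVariables false
set_option linter.style.haveILetI false

open Polynomial IsLocalRing

namespace Fermat.Agent.Ihara

local notation "Qb" => AlgebraicClosure ℚ
local notation "GQ" => (AlgebraicClosure ℚ ≃ₐ[ℚ] AlgebraicClosure ℚ)

section Congr

variable {O : Type*} [CommRing O] {H : Type*} [AddCommGroup H] [Module O H]

/-- topological nilpotence is insensitive to a shift by a scalar of the ideal -/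
theorem ih4pNil1_add_le (𝔞 : Ideal O) (S : Module.End O H) (c : O) (hc : c ∈ 𝔞) :
    ih4pNil1 𝔞 S ≤ ih4pNil1 𝔞 (S + algebraMap O (Module.End O H) c) := by
  intro x hx
  rw [ih4p_mem_nil1] at hx ⊢
  intro n
  obtain ⟨N, hN⟩ := hx n
  refine ⟨N + n, ?_⟩
  have hcomm : Commute S (algebraMap O (Module.End O H) c) :=
    Algebra.commute_algebraMap_right c S
  rw [hcomm.add_pow, LinearMap.sum_apply]
  refine Submodule.sum_mem _ fun k hk => ?_
  have h1 : (S ^ k * (algebraMap O (Module.End O H) c) ^ (N + n - k) *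
      (((N + n).choose k : ℕ) : Module.End O H)) x
      = c ^ (N + n - k) • (((N + n).choose k : ℕ) • (S ^ k) x) := by
    rw [Module.End.mul_apply, Module.End.mul_apply, ← map_pow, Module.algebraMap_end_apply,
      map_smul]
    congr 1
    have h2 : (((N + n).choose k : ℕ) : Module.End O H) x = ((N + n).choose k : ℕ) • x := by
      rw [← nsmul_one, LinearMap.smul_apply, Module.End.one_apply]
    rw [h2, map_nsmul]
  rw [h1]
  by_cases hk' : N ≤ k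
  · exact Submodule.smul_mem _ _ (Submodule.smul_of_tower_mem _ _
      (ih4p_pow_apply_mem_of_le 𝔞 S hk' hN))
  · have h3 : n ≤ N + n - k := by omega
    exact Submodule.smul_mem_smul (Ideal.pow_le_pow_right h3 (Ideal.pow_mem_pow hc _))
      Submodule.mem_top

/-- topological nilpotence of `S - c` only depends on `c` modulo the ideal -/
theorem ih4pNil1_sub_congr (𝔞 : Ideal O) (S : Module.End O H) (c c' : O) (hc : c - c' ∈ 𝔞) :
    ih4pNil1 𝔞 (S - algebraMap O (Module.End O H) c)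
      = ih4pNil1 𝔞 (S - algebraMap O (Module.End O H) c') := by
  apply le_antisymm
  · have h1 := ih4pNil1_add_le 𝔞 (S - algebraMap O (Module.End O H) c) (c - c') hc
    have h2 : S - algebraMap O (Module.End O H) c + algebraMap O (Module.End O H) (c - c')
        = S - algebraMap O (Module.End O H) c' := by
      rw [map_sub]; abel
    rwa [h2] at h1
  · have hc' : c' - c ∈ 𝔞 := by
      have := 𝔞.neg_mem hc
      rwa [neg_sub] at this
    have h1 := ih4pNil1_add_le 𝔞 (S - algebraMap O (Module.End O H) c') (c' - c) hc'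
    have h2 : S - algebraMap O (Module.End O H) c' + algebraMap O (Module.End O H) (c' - c)
        = S - algebraMap O (Module.End O H) c := by
      rw [map_sub]; abel
    rwa [h2] at h1

end Congr

section PartCongr

variable (O : Type) [CommRing O] [IsDomain O] [CharZero O] [IsLocalRing O] [IsNoetherianRing O]
  [IsAdicComplete (IsLocalRing.maximalIdeal O) O]

/-- **the `θ`-part of the Betti module only depends on `θ` modulo the maximal ideal** -/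
theorem ih4Part_congr (M : ℕ) [NeZero M] (Ps : Set ℕ) (θ θ' : ℕ → O)
    (h : ∀ ℓ ∈ Ps, θ ℓ - θ' ℓ ∈ maximalIdeal O) : ih4Part O M Ps θ = ih4Part O M Ps θ' := by
  ext x
  rw [ih4_mem_part, ih4_mem_part]
  refine forall₂_congr fun ℓ hℓ => ?_
  rw [ih4pNil1_sub_congr (maximalIdeal O) (ih4Op O M ℓ) (θ ℓ) (θ' ℓ) (h ℓ hℓ)]

/-- the rank of the `θ`-part only depends on `θ` modulo the maximal ideal -/
theorem ih4Part_finrank_congr (M : ℕ) [NeZero M] (Ps : Set ℕ) (θ θ' : ℕ → O)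
    (h : ∀ ℓ ∈ Ps, θ ℓ - θ' ℓ ∈ maximalIdeal O) :
    Module.finrank O ↥(ih4Part O M Ps θ) = Module.finrank O ↥(ih4Part O M Ps θ') := by
  rw [ih4Part_congr O M Ps θ θ' h]

omit [CharZero O] [IsAdicComplete (IsLocalRing.maximalIdeal O) O] in
/-- a non-zero `θ`-part has positive rank -/
theorem ih4_finrank_part_pos (M : ℕ) [NeZero M] (Ps : Set ℕ) (θ : ℕ → O)
    (h : ih4Part O M Ps θ ≠ ⊥) : 0 < Module.finrank O ↥(ih4Part O M Ps θ) := by
  by_contra h0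
  have h0' : Module.finrank O ↥(ih4Part O M Ps θ) = 0 := by omega
  apply h
  rw [Submodule.eq_bot_iff]
  intro x hx
  have h00 := (Module.finrank_eq_zero_iff (R := O) (M := ↥(ih4Part O M Ps θ))).mp h0'
  obtain ⟨a, ha, hax⟩ := h00 ⟨x, hx⟩
  have h1 : a • x = 0 := by
    have := congrArg Subtype.val hax
    simpa using this
  apply Subtype.ext
  apply AddMonoidHom.ext
  intro γ
  have h2 := congrArg (fun y : Ih4H O O M => (y : Additive _ →+ O) γ) h1
  simp only [Submodule.coe_smul, AddMonoidHom.smul_apply, smul_eq_mul, ZeroMemClass.coe_zero,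
    AddMonoidHom.zero_apply] at h2
  rcases mul_eq_zero.mp h2 with h3 | h3
  · exact absurd h3 ha
  · exact h3

end PartCongr

/-- a complete local ring is Henselian -/
theorem ihr_henselian_of_complete (𝒪 : Type*) [CommRing 𝒪] [IsLocalRing 𝒪]
    [IsAdicComplete (maximalIdeal 𝒪) 𝒪] : HenselianLocalRing 𝒪 where
  is_henselian f hf a₀ h₁ h₂ := HenselianRing.is_henselian f hf a₀ h₁ (h₂.map _)

section Roots

variable (P : FreyPackage) [Fact P.p.Prime]
  {N : ℕ} [NeZero N] {f : CuspForm (CongruenceSubgroup.Gamma0 N) 2}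
  {𝔪 : Ideal (integralClosure ℤ ℂ)} {t : ℕ → ℤ} (ht : IhrEig P f 𝔪 t)

include ht in
/-- **the roots of `X² - t_q X + q` at a Taylor–Wiles prime** -/
theorem ihr_tw_roots {𝒪 : Type} [CommRing 𝒪] [IsLocalRing 𝒪]
    [IsAdicComplete (maximalIdeal 𝒪) 𝒪] [Algebra (ZMod P.p) (ResidueField 𝒪)] (hp𝒪 : (P.p : 𝒪) ∈ maximalIdeal 𝒪)
    {q : ℕ} (hq : q.Prime) (hqN : ¬ q ∣ N) (hqp : q ≠ P.p) (hq1 : P.p ∣ q - 1)
    (hTW : Fermat.Agent.TW.IsTWPrime (ihrRep P (ResidueField 𝒪)) q) :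
    ∃ a b : 𝒪, a + b = ((t q : ℤ) : 𝒪) ∧ a * b = (q : 𝒪) ∧ IsUnit a ∧ IsUnit (a - b) ∧
      IsUnit (1 - a ^ 2) := by
  obtain ⟨A, σ, hA, hσ⟩ := Fermat.Agent.Lib.Helper6.exists_frobenius q hq
  obtain ⟨α, β, hαβ, hcp⟩ := hTW A hA σ hσ
  rw [ihr_frob_eig P ht (ResidueField 𝒪) hq hqN hqp A hA σ hσ] at hcp
  -- compare coefficients
  have hsum : α + β = ((t q : ℤ) : ResidueField 𝒪) := by
    have h1 := congrArg (fun g : (ResidueField 𝒪)[X] => g.coeff 1) hcp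
    have h2 : (X - C α) * (X - C β) = X ^ 2 - C (α + β) * X + C (α * β) := by
      rw [map_add, map_mul]; ring
    rw [h2] at h1
    simp only [coeff_add, coeff_sub, coeff_X_pow, coeff_C_mul, coeff_X_one, coeff_C,
      mul_one] at h1
    norm_num at h1
    have h3 : α + β = -(-β + -α) := by ring
    rw [h3, ← h1]
    ring
  have hprod : α * β = ((q : ℕ) : ResidueField 𝒪) := by
    have h1 := congrArg (fun g : (ResidueField 𝒪)[X] => g.coeff 0) hcp
    have h2 : (X - C α) * (X - C β) = X ^ 2 - C (α + β) * X + C (α * β) := by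
      rw [map_add, map_mul]; ring
    rw [h2] at h1
    simp only [coeff_add, coeff_sub, coeff_X_pow, coeff_C_mul, coeff_X_zero, coeff_C_zero,
      mul_zero] at h1
    norm_num at h1
    exact h1.symm
  -- `q = 1` in the residue field
  have hq1k : ((q : ℕ) : ResidueField 𝒪) = 1 := by
    obtain ⟨c, hc⟩ := hq1
    have h1 : q = 1 + P.p * c := by have := hq.one_lt; omega
    have hpk : ((P.p : ℕ) : ResidueField 𝒪) = 0 := by
      rw [← map_natCast (residue 𝒪)]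
      exact (residue_eq_zero_iff _).2 hp𝒪
    rw [h1, Nat.cast_add, Nat.cast_mul, hpk, zero_mul, add_zero, Nat.cast_one]
  -- lifts
  obtain ⟨a₀, ha₀⟩ := residue_surjective (R := 𝒪) α
  obtain ⟨b₀, hb₀⟩ := residue_surjective (R := 𝒪) β
  have h1 : a₀ + b₀ - ((t q : ℤ) : 𝒪) ∈ maximalIdeal 𝒪 := by
    rw [← residue_eq_zero_iff, map_sub, map_add, ha₀, hb₀, map_intCast, hsum, sub_self]
  have h2 : a₀ * b₀ - ((q : ℕ) : 𝒪) ∈ maximalIdeal 𝒪 := by
    rw [← residue_eq_zero_iff, map_sub, map_mul, ha₀, hb₀, map_natCast, hprod, sub_self]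
  have h3 : IsUnit (a₀ - b₀) := by
    rw [← not_not (a := IsUnit (a₀ - b₀)), ← mem_nonunits_iff, ← mem_maximalIdeal,
      ← residue_eq_zero_iff, map_sub, ha₀, hb₀, sub_eq_zero]
    exact hαβ
  haveI : HenselianLocalRing 𝒪 := ihr_henselian_of_complete 𝒪
  obtain ⟨a, b, e1, e2, e3, e4⟩ := ih4_hensel_quadratic _ _ _ _ h1 h2 h3
  have hra : residue 𝒪 a = α := by
    have := (residue_eq_zero_iff _).2 e3
    rwa [map_sub, sub_eq_zero, ha₀] at this
  have hrb : residue 𝒪 b = β := by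
    have := (residue_eq_zero_iff _).2 e4
    rwa [map_sub, sub_eq_zero, hb₀] at this
  have hα0 : α ≠ 0 := by
    intro h0
    rw [h0, zero_mul, hq1k] at hprod
    exact zero_ne_one hprod
  have hunit : ∀ x : 𝒪, residue 𝒪 x ≠ 0 → IsUnit x := by
    intro x hx
    by_contra hx'
    exact hx ((residue_eq_zero_iff _).2 ((mem_maximalIdeal x).2 hx'))
  refine ⟨a, b, e1, e2, hunit a (by rw [hra]; exact hα0), hunit _ ?_, hunit _ ?_⟩
  · rw [map_sub, hra, hrb, sub_ne_zero]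
    exact hαβ
  · rw [map_sub, map_one, map_pow, hra]
    intro h0
    -- `α² = 1 = α β` gives `α = β`
    have h4 : α ^ 2 = α * β := by
      rw [hprod, hq1k]
      exact (sub_eq_zero.mp h0).symm
    have h5 : α * (α - β) = 0 := by rw [mul_sub, ← h4]; ring
    rcases mul_eq_zero.mp h5 with h6 | h6
    · exact hα0 h6
    · exact hαβ (sub_eq_zero.mp h6)

include ht in
/-- **the eigenvalue functions `θ`, `bq` at the level `N · ∏ Q`** for a list `Q` of Taylor–Wiles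
primes: `θ = t` off `Q`, the hypothesis `hθQ` of helper1's `ihm_lvl_free`, and the shift of `θ` back
to level `N` is `t` EXACTLY -/
theorem ihr_exists_tw_theta {𝒪 : Type} [CommRing 𝒪] [IsLocalRing 𝒪]
    [IsAdicComplete (maximalIdeal 𝒪) 𝒪] [Algebra (ZMod P.p) (ResidueField 𝒪)] (hp𝒪 : (P.p : 𝒪) ∈ maximalIdeal 𝒪)
    (Q : List ℕ)
    (hQ : ∀ q ∈ Q, q.Prime ∧ ¬ q ∣ N ∧ q ≠ P.p ∧ P.p ∣ q - 1 ∧
      Fermat.Agent.TW.IsTWPrime (ihrRep P (ResidueField 𝒪)) q) :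
    ∃ θ bq : ℕ → 𝒪,
      (∀ ℓ, ℓ ∉ Q → θ ℓ = ((t ℓ : ℤ) : 𝒪)) ∧
      (∀ ℓ, θ ℓ - ((t ℓ : ℤ) : 𝒪) ∈ maximalIdeal 𝒪 ∨ ℓ ∈ Q) ∧
      (∀ r ∈ Q, θ r * bq r = ((r : ℕ) : 𝒪) ∧ IsUnit (θ r) ∧ IsUnit (θ r - bq r) ∧
        IsUnit (1 - θ r ^ 2)) ∧
      (∀ r ∈ Q, θ r + bq r = ((t r : ℤ) : 𝒪)) ∧
      ih4Shift 𝒪 θ bq Q = fun ℓ => ((t ℓ : ℤ) : 𝒪) := by
  classical
  have hex : ∀ q : ℕ, ∃ a b : 𝒪, q ∈ Q → (a + b = ((t q : ℤ) : 𝒪) ∧ a * b = (q : 𝒪) ∧
      IsUnit a ∧ IsUnit (a - b) ∧ IsUnit (1 - a ^ 2)) := by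
    intro q
    by_cases hq : q ∈ Q
    · obtain ⟨h1, h2, h3, h4, h5⟩ := hQ q hq
      obtain ⟨a, b, hab⟩ := ihr_tw_roots P ht hp𝒪 h1 h2 h3 h4 h5
      exact ⟨a, b, fun _ => hab⟩
    · exact ⟨0, 0, fun h => absurd h hq⟩
  choose a b hab using hex
  refine ⟨fun ℓ => if ℓ ∈ Q then a ℓ else ((t ℓ : ℤ) : 𝒪), b, ?_, ?_, ?_, ?_, ?_⟩
  · intro ℓ hℓ
    simp only [if_neg hℓ]
  · intro ℓ
    by_cases hℓ : ℓ ∈ Q
    · exact Or.inr hℓ
    · left
      simp only [if_neg hℓ, sub_self]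
      exact zero_mem _
  · intro r hr
    simp only [if_pos hr]
    obtain ⟨h1, h2, h3, h4, h5⟩ := hab r hr
    exact ⟨h2, h3, h4, h5⟩
  · intro r hr
    simp only [if_pos hr]
    exact (hab r hr).1
  · funext ℓ
    unfold ih4Shift
    by_cases hℓ : ℓ ∈ Q
    · simp only [if_pos hℓ]
      exact (hab ℓ hℓ).1
    · simp only [if_neg hℓ]

/-- **the canonical set of Hecke primes**: all primes `ℓ ∤ N p` -/
def ihrPs (N p : ℕ) : Set ℕ := {ℓ | ℓ.Prime ∧ ¬ ℓ ∣ N ∧ ℓ ≠ p}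

theorem ihr_mem_Ps {N p ℓ : ℕ} : ℓ ∈ ihrPs N p ↔ ℓ.Prime ∧ ¬ ℓ ∣ N ∧ ℓ ≠ p := Iff.rfl

/-- the level `N · ∏ Q` as a `foldl` (the form of helper3's `ih4_tw_list` / helper1's `[LVL]`) -/
theorem ihr_foldl_mul (N : ℕ) (Q : List ℕ) : Q.foldl (· * ·) N = N * Q.prod := by
  induction Q generalizing N with
  | nil => simp
  | cons r Q ih => rw [List.foldl_cons, ih, List.prod_cons, mul_assoc]

theorem ihr_foldl_ofFn (N : ℕ) {r : ℕ} (qv : Fin r → ℕ) :
    (List.ofFn qv).foldl (· * ·) N = N * ∏ i, qv i := by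
  rw [ihr_foldl_mul, List.prod_ofFn]

include ht in
/-- **the same for a Taylor–Wiles set `qv : Fin r → ℕ` in the form of `IhaModular`** (`Q := List.ofFn qv`,
`M = N * ∏ i, qv i`) -/
theorem ihr_exists_tw_theta_fn {𝒪 : Type} [CommRing 𝒪] [IsLocalRing 𝒪]
    [IsAdicComplete (maximalIdeal 𝒪) 𝒪] [Algebra (ZMod P.p) (ResidueField 𝒪)] (hp𝒪 : (P.p : 𝒪) ∈ maximalIdeal 𝒪)
    {r n : ℕ} (qv : Fin r → ℕ) (hqinj : Function.Injective qv)
    (hqv : ∀ i, (qv i).Prime ∧ ¬ qv i ∣ N ∧ qv i ≠ P.p ∧ P.p ^ (n + 1) ∣ qv i - 1)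
    (hTW : ∀ i, Fermat.Agent.TW.IsTWPrime (ihrRep P (ResidueField 𝒪)) (qv i)) :
    (N * ∏ i, qv i = (List.ofFn qv).foldl (· * ·) N) ∧ (List.ofFn qv).Nodup ∧
    (∀ q ∈ List.ofFn qv, q.Prime ∧ ¬ q ∣ N) ∧
    ∃ θ bq : ℕ → 𝒪,
      (∀ ℓ, ℓ ∉ List.ofFn qv → θ ℓ = ((t ℓ : ℤ) : 𝒪)) ∧
      (∀ q ∈ List.ofFn qv, θ q * bq q = ((q : ℕ) : 𝒪) ∧ IsUnit (θ q) ∧ IsUnit (θ q - bq q) ∧
        IsUnit (1 - θ q ^ 2)) ∧
      (∀ q ∈ List.ofFn qv, θ q + bq q = ((t q : ℤ) : 𝒪)) ∧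
      ih4Shift 𝒪 θ bq (List.ofFn qv) = fun ℓ => ((t ℓ : ℤ) : 𝒪) := by
  have hmem : ∀ q ∈ List.ofFn qv, ∃ i, qv i = q := fun q hq => (List.mem_ofFn' qv q).mp hq
  refine ⟨(ihr_foldl_ofFn N qv).symm, List.nodup_ofFn.mpr hqinj, ?_, ?_⟩
  · intro q hq
    obtain ⟨i, rfl⟩ := hmem q hq
    exact ⟨(hqv i).1, (hqv i).2.1⟩
  · obtain ⟨θ, bq, h1, -, h3, h4, h5⟩ := ihr_exists_tw_theta P ht hp𝒪 (List.ofFn qv) (by
      intro q hq
      obtain ⟨i, rfl⟩ := hmem q hq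
      refine ⟨(hqv i).1, (hqv i).2.1, (hqv i).2.2.1, ?_, hTW i⟩
      exact dvd_trans (dvd_pow_self P.p (Nat.succ_ne_zero n)) (hqv i).2.2.2)
    exact ⟨θ, bq, h1, h3, h4, h5⟩

include ht in
/-- **the rank `d`** of `IhaModular`: the rank of the `t`-part at level `N` for the canonical set of
Hecke primes is positive (and, by `ihr_exists_tw_theta_fn` + helper1's `ihm_lvl_free`, it is the
rank of the modules at every Taylor–Wiles level) -/
theorem ihr_rank_pos (hf : f.IsNormalizedEigenform) (h𝔪 : 𝔪.IsMaximal)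
    (hp𝔪 : (P.p : integralClosure ℤ ℂ) ∈ 𝔪)
    (𝒪 : Type) [CommRing 𝒪] [IsDomain 𝒪] [CharZero 𝒪] [IsLocalRing 𝒪]
    [IsNoetherianRing 𝒪] [IsAdicComplete (maximalIdeal 𝒪) 𝒪]
    (hp𝒪 : (P.p : 𝒪) ∈ maximalIdeal 𝒪) :
    0 < Module.finrank 𝒪 ↥(ih4Part 𝒪 N (ihrPs N P.p) (fun ℓ => ((t ℓ : ℤ) : 𝒪))) :=
  ih4_finrank_part_pos 𝒪 N _ _
    (ihr_part_ne_bot' P hf h𝔪 hp𝔪 ht 𝒪 hp𝒪 (ihrPs N P.p) (fun ℓ hℓ => hℓ) _
      (fun ℓ _ => by rw [sub_self]; exact zero_mem _))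

end Roots

end Fermat.Agent.Ihara
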