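/-
IHARA track / [RB+] (helper9): **the minimality hypothesis at the lower level `N₀ = N / q₀`** in the form
of helper3's `ihod_bot_of_not_modular` (`hmin`, `hPsW`, `hθW`), for (I) [E′] / (VANISH).
-/
import Mathlib
import Fermat.Agent.Lib.Ihara.Rb.Inst
import Fermat.Agent.Lib.Ihara.Rb.TwTheta
import Fermat.Prelude.Def_FreyPackage_IsConductorLevel

set_option autoImplicit false
set_option linter.unusedSectionVars false
set_option linter.unusedVariables false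
set_option linter.style.haveILetI false

open IsLocalRing

namespace Fermat.Agent.Ihara

variable (P : FreyPackage) [Fact P.p.Prime]

/-- **`hmin`**: no residual modularity of an integral model at a level where `E[p]` is not modular -/
theorem ihr_not_residually_modular {N₀ : ℕ} {W : WeierstrassCurve ℤ}
    (hW : W.IsIntegralModelOf P.freyCurve) (hmin : ¬ P.ModularRepOfLevel N₀) :
    ¬ W.IsResiduallyModularOfLevel P.p N₀ := by
  rintro ⟨f, 𝔪, hf, h𝔪, hp𝔪, hcong⟩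
  exact hmin ⟨f, W, 𝔪, hf, hW, h𝔪, hp𝔪, hcong⟩

/-- the primes of a conductor level are bad for every integral model -/
theorem ihr_not_good_of_dvd_level {N : ℕ} (hcond : P.IsConductorLevel N) {W : WeierstrassCurve ℤ}
    (hW : W.IsIntegralModelOf P.freyCurve) {q : ℕ} (hq : q.Prime) (hqN : q ∣ N) :
    ¬ W.IsGoodPrimeFor q := fun hgood => hgood (ihr_dvd_disc P hW hq (hcond.support q hq hqN))

/-- **`hPsW`**: the good primes `ℓ ∤ N₀ p` of an integral model lie in the canonical set of Hecke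
primes of level `N = N₀ q₀` (`q₀` is bad) -/
theorem ihr_mem_Ps_of_good {N N₀ q₀ : ℕ} (hcond : P.IsConductorLevel N) {W : WeierstrassCurve ℤ}
    (hW : W.IsIntegralModelOf P.freyCurve) (hN : N = N₀ * q₀) (hq₀ : q₀.Prime) {ℓ : ℕ}
    (hℓ : ℓ.Prime) (hgood : W.IsGoodPrimeFor ℓ) (hℓN₀ : ¬ ℓ ∣ N₀) (hℓp : ℓ ≠ P.p) :
    ℓ ∈ ihrPs N P.p := by
  refine ⟨hℓ, fun hℓN => ?_, hℓp⟩
  have h1 : ℓ ∣ N₀ * q₀ := hN ▸ hℓN
  rcases (Nat.Prime.dvd_mul hℓ).mp h1 with h | h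
  · exact hℓN₀ h
  · have h2 : ℓ = q₀ := (Nat.prime_dvd_prime_iff_eq hℓ hq₀).mp h
    exact ihr_not_good_of_dvd_level P hcond hW hℓ hℓN hgood

/-- `q₀ ∣ N` is not in the canonical set of Hecke primes -/
theorem ihr_notMem_Ps_of_dvd {N q₀ : ℕ} (hq₀N : q₀ ∣ N) (p : ℕ) : q₀ ∉ ihrPs N p :=
  fun h => h.2.1 hq₀N

section Good

variable {N : ℕ} [NeZero N] {f : CuspForm (CongruenceSubgroup.Gamma0 N) 2}
  {𝔪 : Ideal (integralClosure ℤ ℂ)} {t : ℕ → ℤ} (ht : IhrEig P f 𝔪 t)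

include ht in
/-- **`hθW`** over any coefficient ring `R` (local, `p ∈ 𝔪_R`): the eigenvalue function `t` is `a_ℓ(W)`
modulo `𝔪_R` at the good primes of `W` in the canonical set of Hecke primes -/
theorem ihr_theta_good {W : WeierstrassCurve ℤ} (hW : W.IsIntegralModelOf P.freyCurve)
    {R : Type*} [CommRing R] [IsLocalRing R] (hpR : (P.p : R) ∈ maximalIdeal R)
    (θ : ℕ → R) (hθ : ∀ ℓ ∈ ihrPs N P.p, θ ℓ = ((t ℓ : ℤ) : R)) :
    ∀ ℓ ∈ ihrPs N P.p, W.IsGoodPrimeFor ℓ →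
      θ ℓ - ((W.apOfModel ℓ : ℤ) : R) ∈ maximalIdeal R := by
  intro ℓ hℓ hgood
  rw [hθ ℓ hℓ]
  exact ihr_eig_good_sub_mem P ht hW (ihr_disc_ne_zero P hW) hpR hℓ.1 hgood hℓ.2.1 hℓ.2.2

end Good

end Fermat.Agent.Ihara
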