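/-
IHARA track / [RB+] (helper9): **the complete discharge of the `hE` binder of helper7's `ihk_hecke`**
(the field [E′] of `IhaHecke`) in the concrete setting of `IhaModular`:

  `ihr_hE … : ∀ a θ' hpart [Nontrivial …] rA hcts, IhkOut … → ∀ v, ∃ v', ihiAct … ((rA (φv q₀)).trace -
      algebraMap _ _ (cs q₀ * (1 + q₀))) v = ϖ • v'`.

Proof: helper5's `ihv_hE` (Van/HE.lean: lead's `ihe_field_out` + (VANISH)) for the companion character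
`χ″` (`= χ` off the `q₀`-factor of `Δ₁`, trivial on it; `ihq_exists_companion`), whose inputs are:
`H′ = ker κ` of the family without `q₀` (Grp/Lower, Grp/Kappa, Grp/Tw), the pair of levels (`ihq_lower`),
and the vanishing of the `θ`-part at the lower level `Γ_{Hm}(Nm)`, `Nm = (N/q₀) ∏ qv`, over every point
ring (helper5's `ihv_hbot` = helper3's `ihod_bot_of_not_modular_alg` / `_top_alg`), from the minimality
of `N` (Rb/Lower).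
-/
import Mathlib
import Fermat.Agent.Lib.Ihara.Van.HE
import Fermat.Agent.Lib.Ihara.Hm.Lvl
import Fermat.Agent.Lib.Ihara.Grp.Lower
import Fermat.Agent.Lib.Ihara.Rb.Lower

set_option autoImplicit false
set_option linter.unusedSectionVars false
set_option linter.unusedVariables false
set_option linter.style.haveILetI false

open IsLocalRing Matrix Polynomial Fermat.Agent.S53Lib Fermat.Agent.TW
open Matrix MatrixGroups CongruenceSubgroup ModularCurve ModularCurve.Period Module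
open Fermat.Agent.DS Fermat.Agent.T1 Fermat.Agent.T1G Fermat.Agent.T2
open WeierstrassCurve WeierstrassCurve.Affine WeierstrassCurve.Affine.Point ExtCitation

namespace Fermat.Agent.Ihara

local notation "Qbar" => AlgebraicClosure ℚ
local notation "GQ" => (AlgebraicClosure ℚ ≃ₐ[ℚ] AlgebraicClosure ℚ)

/-- a subgroup of the units of `ZMod n`, `n = 2`, is everything -/
theorem ihq_subgroup_eq_top_of_eq_two {n : ℕ} (hn : n = 2) (H : Subgroup (ZMod n)ˣ) : H = ⊤ := by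
  subst hn
  exact ihq_subgroup_zmod_two H

/-- a product of primes which is `1` is empty -/
theorem ihr_isEmpty_of_prod_eq_one {r : ℕ} (qv : Fin r → ℕ) (hq : ∀ i, (qv i).Prime)
    (h : ∏ i, qv i = 1) : IsEmpty (Fin r) := by
  refine ⟨fun i => ?_⟩
  have h1 : qv i ∣ ∏ i, qv i := Finset.dvd_prod_of_mem qv (Finset.mem_univ i)
  rw [h] at h1
  exact (hq i).one_lt.ne' (Nat.dvd_one.mp h1)

section Companion

variable {p M r : ℕ} [NeZero M] {Tc : Finset Nat.Primes} {qv : Fin r → ℕ}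
  (h : IhqData M (ihqPrimes Tc qv) (ihqOrders Tc qv p))

/-- the generators of `Δ₁` have `p`-power order -/
theorem ihq_D1_gen_pow (hp : p.Prime) (v : ↥Tc) :
    ((ihqD1Equiv h).symm (ihqGen _ v)) ^ (p ^ padicValNat p (((v : Nat.Primes) : ℕ) - 1)) = 1 := by
  haveI : ∀ v : ↥Tc, NeZero (p ^ padicValNat p (((v : Nat.Primes) : ℕ) - 1)) :=
    fun v => ⟨(pow_pos hp.pos _).ne'⟩
  rw [← map_pow]
  have h1 : ihqGen (fun v : ↥Tc => p ^ padicValNat p (((v : Nat.Primes) : ℕ) - 1)) v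
      ^ (p ^ padicValNat p (((v : Nat.Primes) : ℕ) - 1)) = 1 := by
    have h2 := ihq_orderOf_gen
      (m := fun v : ↥Tc => p ^ padicValNat p (((v : Nat.Primes) : ℕ) - 1)) v
    rw [← h2]
    exact pow_orderOf_eq_one _
  rw [h1, map_one]

/-- **the companion character `χ″`**: equal to `χ` on the generators `γ_v`, `v ≠ q₀`, trivial at
`γ_{q₀}`, and congruent to `χ` modulo the maximal ideal -/
theorem ihq_exists_companion {𝒪 : Type*} [CommRing 𝒪] [IsLocalRing 𝒪] (hp : p.Prime)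
    (hp𝒪 : (p : 𝒪) ∈ maximalIdeal 𝒪) (χ : ↥(ihqD1 h) →* 𝒪) (q₀ : ↥Tc) :
    ∃ χ'' : ↥(ihqD1 h) →* 𝒪, χ'' ((ihqD1Equiv h).symm (ihqGen _ q₀)) = 1 ∧
      (∀ v : ↥Tc, v ≠ q₀ → χ'' ((ihqD1Equiv h).symm (ihqGen _ v))
        = χ ((ihqD1Equiv h).symm (ihqGen _ v))) ∧
      ∀ g : ↥(ihqD1 h), χ g - χ'' g ∈ maximalIdeal 𝒪 := by
  classical
  obtain ⟨χ'', hχ''⟩ := ihq_exists_chi h
    (Function.update (fun v : ↥Tc => χ ((ihqD1Equiv h).symm (ihqGen _ v))) q₀ 1) (by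
      intro v
      by_cases hv : v = q₀
      · subst hv
        rw [Function.update_self, one_pow]
      · rw [Function.update_of_ne hv, ← map_pow, ihq_D1_gen_pow h hp, map_one])
  refine ⟨χ'', ?_, ?_, fun g => ihq_char_sub_mem hp hp𝒪 χ χ'' g _ (ihqD1_pow h g)⟩
  · rw [hχ'' q₀, Function.update_self]
  · intro v hv
    rw [hχ'' v, Function.update_of_ne hv]

end Companion

section FieldE

variable (P : FreyPackage) [Fact P.p.Prime] {N : ℕ} [NeZero N]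

/-- **the `hE` binder of `ihk_hecke`** -/
theorem ihr_hE (hcond : P.IsConductorLevel N) (h2N : 2 ∣ N)
    (hirr : GaloisRepIsIrreducible (K := Qbar) ℚ P.freyCurve P.p)
    (hmin : ∀ M : ℕ, M ∣ N → M ≠ N → ¬ P.ModularRepOfLevel M)
    {f : CuspForm (CongruenceSubgroup.Gamma0 N) 2} {W : WeierstrassCurve ℤ}
    {𝔪 : Ideal (integralClosure ℤ ℂ)} {t : ℕ → ℤ}
    (hf : f.IsNormalizedEigenform) (hW : W.IsIntegralModelOf P.freyCurve) (h𝔪 : 𝔪.IsMaximal)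
    (hp𝔪 : (P.p : integralClosure ℤ ℂ) ∈ 𝔪) (ht : IhrEig P f 𝔪 t)
    (O : Type) [CommRing O] [IsDomain O] [IsDiscreteValuationRing O] [CharZero O]
    [IsAdicComplete (IsLocalRing.maximalIdeal O) O] [Finite (ResidueField O)]
    [Algebra (ZMod P.p) (ResidueField O)]
    (hpO : (P.p : O) ∈ IsLocalRing.maximalIdeal O)
    (b : Module.Basis (Fin 2) (ResidueField O) (ihrRep P (ResidueField O)).V)
    {Tc : Finset Nat.Primes} (hTc : ∀ v : Nat.Primes, v ∈ Tc ↔ (v : ℕ) ∣ N ∧ (v : ℕ) ≠ 2)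
    {r : ℕ} {qv : Fin r → ℕ} (hqinj : Function.Injective qv)
    (hqv : ∀ i, (qv i).Prime ∧ ¬ qv i ∣ N ∧ qv i ≠ P.p)
    -- the level
    (M : ℕ) [NeZero M] (hM : 6 ≤ M) (hMN : M = N * ∏ i, qv i)
    (h : IhqData M (ihqPrimes Tc qv) (ihqOrders Tc qv P.p))
    -- the eigenvalue functions
    (θ bq : ℕ → O) (hoff : ∀ ℓ, ℓ ∉ List.ofFn qv → θ ℓ = ((t ℓ : ℤ) : O))
    (hθQ : ∀ q ∈ List.ofFn qv, θ q * bq q = ((q : ℕ) : O) ∧ IsUnit (θ q) ∧ IsUnit (θ q - bq q) ∧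
      IsUnit (1 - θ q ^ 2))
    (hshift : ih4Shift O θ bq (List.ofFn qv) = fun ℓ => ((t ℓ : ℤ) : O))
    -- the non-Eisenstein prime
    {ℓ₀ : ℕ} (hℓ₀ : ℓ₀.Prime) (hℓ₀M : ¬ ℓ₀ ∣ M) (hℓ₀Ps : ℓ₀ ∈ ihrPs N P.p)
    (hθ : IsUnit (θ ℓ₀ - ((ℓ₀ : O) + 1)))
    (χ : ↥(ihqD1 h) →* O)
    -- the composite twist and the level of the Hecke algebra
    {Rl : List ℕ} {k : ℕ → ℕ} (hyp : IhtcHyp M (ihqKappa h).ker Rl k) (hne : Rl ≠ [])
    {N' : ℕ} [NeZero N'] (hN' : N' = M * Rl.prod)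
    (Smin : Finset ℕ) {S : Finset ℕ} (hpS : P.p ∈ S)
    (hS : ∀ l : ℕ, l.Prime → l ∣ N' → l ∈ S) (hPs : ∀ l : ℕ, l.Prime → l ∉ S → l ∈ ihrPs N P.p)
    (hpN' : ¬ P.p ∣ N')
    (hSmin : ∀ q ∈ Smin, q.Prime → q ≠ P.p → q ∣ N' ∧ ¬ q ^ 2 ∣ N')
    (hfrob : ∀ (ℓ : ℕ), ℓ.Prime → ℓ ∉ S →
      ∀ A : ValuationSubring Qbar, A.LiesOverPrime ℓ → ∀ σ : GQ, A.IsFrobeniusAt σ ℓ →
        LinearMap.charpoly ((ihrRep P (ResidueField O)).ρ σ) =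
          X ^ 2 - C (residue O (θ ℓ)) * X + C ((ℓ : ResidueField O)))
    -- the data at `q₀`
    (φv : Nat.Primes → GQ)
    (hφv : ∀ v ∈ Tc, (primeLocalPlace v).IsFrobeniusAt (φv v) (v : ℕ))
    (ϖ : O) (hϖ : maximalIdeal O = Ideal.span {ϖ})
    (cs : ↥Tc → Oˣ) (hcs : ∀ v, (cs v : O) ^ 2 = 1)
    (hcsρ : ∀ v : ↥Tc, (ihrRep P (ResidueField O)).ρ (φv v) = residue O (cs v : O) • 1)
    (q₀ : ↥Tc) (hq₀1 : P.p ∣ ((q₀ : Nat.Primes) : ℕ) - 1) (hq₀Rl : ((q₀ : Nat.Primes) : ℕ) ∈ Rl) :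
    ∀ (a : CuspForm.heckeAlgebra N' 2 (↑S : Set ℕ) →+*
          Module.End O (IhmChiPart O M hM (ihqKappa h).ker (ihrPs N P.p) θ (ihqD1 h) χ))
        (θ' : CuspForm.heckeAlgebra N' 2 (↑S : Set ℕ) →+* ResidueField O)
        (hpart : ihdPart O a θ' = ⊤) [Nontrivial ↥(ihdPart O a θ')]
        (rA : GQ →* Matrix (Fin 2) (Fin 2) (IhdImg O a θ')) (hcts : MatCts (IhdImg O a θ') rA),
        IhkOut O M hM (ihqKappa h).ker (ihrPs N P.p) θ (ihqD1 h) χ (ihtcZ M Rl k) P.p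
          (ihrRep P (ResidueField O)) b Smin a θ' hpart rA hcts →
        ∀ v, ∃ v', ihiAct O a θ' hpart ((rA (φv q₀)).trace -
          algebraMap O (IhdImg O a θ') ((cs q₀ : O) * (1 + (((q₀ : Nat.Primes) : ℕ) : O)))) v
            = ϖ • v' := by
  classical
  intro a θ' hpart hnt rA hcts out v
  subst hMN
  have hp : P.p.Prime := Fact.out
  have hp5 : 5 ≤ P.p := P.hp5
  have hp2 : P.p ≠ 2 := by omega
  have hN0 : 0 < N := hcond.pos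
  have hNsq : Squarefree N := hcond.squarefree
  have hqprime : ∀ i, (qv i).Prime := fun i => (hqv i).1
  have hqN : ∀ i, ¬ qv i ∣ N := fun i => (hqv i).2.1
  have hqp : ∀ i, qv i ≠ P.p := fun i => (hqv i).2.2
  have hMsq : Squarefree (N * ∏ i, qv i) := ihq_squarefree_level qv hNsq hqinj hqprime hqN
  have hL : IhfLevel P.p (N * ∏ i, qv i) (ihqKappa h).ker :=
    ihq_level hp hp5 hMsq h (ihqOrders_pow Tc qv)
  -- the list of Taylor–Wiles primes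
  have hmem : ∀ q ∈ List.ofFn qv, ∃ i, qv i = q := fun q hq => (List.mem_ofFn' qv q).mp hq
  have hMQ : N * ∏ i, qv i = (List.ofFn qv).foldl (· * ·) N := (ihr_foldl_ofFn N qv).symm
  have hnd : (List.ofFn qv).Nodup := List.nodup_ofFn.mpr hqinj
  have hQ : ∀ q ∈ List.ofFn qv, q.Prime ∧ ¬ q ∣ N := by
    intro q hq
    obtain ⟨i, rfl⟩ := hmem q hq
    exact ⟨hqprime i, hqN i⟩
  have hPsQ : ∀ q ∈ List.ofFn qv, q ∈ ihrPs N P.p := by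
    intro q hq
    obtain ⟨i, rfl⟩ := hmem q hq
    exact ⟨hqprime i, hqN i, hqp i⟩
  -- the companion character
  obtain ⟨χ'', hχ''q₀, -, hχcong⟩ := ihq_exists_companion h hp hpO χ q₀
  have hϖmax : (Ideal.span {ϖ}).IsMaximal := hϖ ▸ maximalIdeal.isMaximal O
  have hχ : ∀ g : ↥(ihqD1 h), χ g - χ'' g ∈ Ideal.span {ϖ} := fun g => hϖ ▸ hχcong g
  -- the instances
  have hpartne : ih4Part O N (ihrPs N P.p) (ih4Shift O θ bq (List.ofFn qv)) ≠ ⊥ := by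
    rw [hshift]
    exact ihr_part_ne_bot' P hf h𝔪 hp𝔪 ht O hpO (ihrPs N P.p) (fun ℓ hℓ => hℓ) _
      (fun ℓ _ => by rw [sub_self]; exact zero_mem _)
  obtain ⟨hfree1, hnt1⟩ := ihm_lvl_chi_inst O (N * ∏ i, qv i) hM (ihqKappa h).ker (ihrPs N P.p) θ hL
    hpO hℓ₀ hℓ₀M hℓ₀Ps hθ N (List.ofFn qv) hMQ hnd hQ hPsQ bq hθQ (ihqD1 h) χ (ihqD2 h)
    (ihqD_isCompl h)
  obtain ⟨hfree2, hnt2⟩ := ihm_lvl_chi_inst O (N * ∏ i, qv i) hM (ihqKappa h).ker (ihrPs N P.p) θ hL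
    hpO hℓ₀ hℓ₀M hℓ₀Ps hθ N (List.ofFn qv) hMQ hnd hQ hPsQ bq hθQ (ihqD1 h) χ'' (ihqD2 h)
    (ihqD_isCompl h)
  haveI := hfree1
  haveI := hfree2
  haveI : Nontrivial (IhmChiPart O (N * ∏ i, qv i) hM (ihqKappa h).ker (ihrPs N P.p) θ (ihqD1 h)
    χ'') := hnt2 hpartne
  -- the lower level
  obtain ⟨hN₀dvd, hN₀ne, hN₀pos, h2N₀, hN₀sq, -, hqvN₀, heq, hNmpos, hNmsq, hq₀Nm, hNm26, hm, hP,
    hLm⟩ := ihq_lower Tc qv hp hp5 hN0 hNsq h2N hTc hqinj hqprime hqN q₀ h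
  haveI : NeZero (N / ((q₀ : Nat.Primes) : ℕ)) := ⟨hN₀pos.ne'⟩
  haveI : NeZero (N / ((q₀ : Nat.Primes) : ℕ) * ∏ i, qv i) := ⟨hNmpos.ne'⟩
  have hq₀pr : (((q₀ : Nat.Primes) : ℕ)).Prime := (q₀ : Nat.Primes).2
  have hq₀N : ((q₀ : Nat.Primes) : ℕ) ∣ N := ((hTc q₀).1 q₀.2).1
  have hMN' : N * ∏ i, qv i ∣ N' := hN' ▸ Dvd.intro _ rfl
  have hq₀p : ((q₀ : Nat.Primes) : ℕ) ≠ P.p := fun h0 =>
    hpN' (h0 ▸ (hq₀N.trans ((Dvd.intro _ rfl).trans hMN')))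
  have hNeq : N = N / ((q₀ : Nat.Primes) : ℕ) * ((q₀ : Nat.Primes) : ℕ) :=
    (Nat.div_mul_cancel hq₀N).symm
  -- the hypotheses of `ihv_hbot`
  have hMQm : N / ((q₀ : Nat.Primes) : ℕ) * ∏ i, qv i
      = (List.ofFn qv).foldl (· * ·) (N / ((q₀ : Nat.Primes) : ℕ)) :=
    (ihr_foldl_ofFn (N / ((q₀ : Nat.Primes) : ℕ)) qv).symm
  have hQm : ∀ q ∈ List.ofFn qv, q.Prime ∧ ¬ q ∣ N / ((q₀ : Nat.Primes) : ℕ) := by
    intro q hq
    obtain ⟨i, rfl⟩ := hmem q hq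
    exact ⟨hqprime i, hqvN₀ i⟩
  have hθW : ∀ ℓ ∈ ihrPs N P.p, W.IsGoodPrimeFor ℓ →
      ih4Shift O θ bq (List.ofFn qv) ℓ - ((W.apOfModel ℓ : ℤ) : O) ∈ maximalIdeal O :=
    ihr_theta_good P ht hW hpO (ih4Shift O θ bq (List.ofFn qv)) (fun ℓ _ => by rw [hshift])
  have hPsW : ∀ ℓ : ℕ, ℓ.Prime → W.IsGoodPrimeFor ℓ → ¬ ℓ ∣ N / ((q₀ : Nat.Primes) : ℕ) →
      ℓ ≠ P.p → ℓ ∈ ihrPs N P.p :=
    fun ℓ hℓ hg hℓN₀ hℓp => ihr_mem_Ps_of_good P hcond hW hNeq hq₀pr hℓ hg hℓN₀ hℓp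
  have hminW : ¬ W.IsResiduallyModularOfLevel P.p (N / ((q₀ : Nat.Primes) : ℕ)) :=
    ihr_not_residually_modular P hW (hmin _ hN₀dvd hN₀ne)
  have hcase : ((ihqKappa hm).ker = ⊤ ∧ List.ofFn qv = []) ∨
      (6 ≤ N / ((q₀ : Nat.Primes) : ℕ) * ∏ i, qv i ∧
        IhfLevel P.p (N / ((q₀ : Nat.Primes) : ℕ) * ∏ i, qv i) (ihqKappa hm).ker ∧
        ∃ ℓ₀ : ℕ, ℓ₀.Prime ∧ ¬ ℓ₀ ∣ N / ((q₀ : Nat.Primes) : ℕ) * ∏ i, qv i ∧ ℓ₀ ∈ ihrPs N P.p ∧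
          IsUnit (θ ℓ₀ - ((ℓ₀ : O) + 1))) := by
    rcases hNm26 with h2 | h6
    · left
      refine ⟨ihq_subgroup_eq_top_of_eq_two h2 _, ?_⟩
      have h3 : ∏ i, qv i = 1 := by
        obtain ⟨c, hc⟩ := h2N₀
        rw [hc, mul_assoc] at h2
        have h4 : c * ∏ i, qv i = 1 := by omega
        exact Nat.eq_one_of_mul_eq_one_left h4
      haveI := ihr_isEmpty_of_prod_eq_one qv hqprime h3
      exact List.eq_nil_iff_forall_not_mem.mpr (fun q hq => by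
        obtain ⟨i, -⟩ := hmem q hq
        exact isEmptyElim i)
    · right
      exact ⟨h6, hLm, ℓ₀, hℓ₀, fun hd => hℓ₀M (heq ▸ Dvd.dvd.mul_right hd _), hℓ₀Ps, hθ⟩
  exact ihv_hE O (N * ∏ i, qv i) hM (ihqKappa h).ker (ihrPs N P.p) θ hL hpO (ihqD1 h) χ χ'' ϖ
    hϖmax hχ hyp hq₀Rl hq₀p hq₀1 hN' hpS hS hPs hpN'
    (ihqKappa (h.comp (Subtype.val : {j // j ≠ (Sum.inl q₀ : ↥Tc ⊕ Fin r)} → _)
      Subtype.val_injective)).ker
    (ihq_ker_le_comp h (Subtype.val : {j // j ≠ (Sum.inl q₀ : ↥Tc ⊕ Fin r)} → _)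
      Subtype.val_injective) (fun u => ihq_iota_mem_ker_ne hMsq h (Sum.inl q₀) u)
    (ihq_chi_trivial_inl h χ'' q₀ hχ''q₀) hP (ihrPs N P.p) (Set.Subset.refl _)
    (ihr_notMem_Ps_of_dvd hq₀N _)
    (fun R _ _ _ _ _ _ _ _ => ihv_hbot O (N / ((q₀ : Nat.Primes) : ℕ) * ∏ i, qv i) (ihqKappa hm).ker
      (ihrPs N P.p) θ hp hpO (N / ((q₀ : Nat.Primes) : ℕ)) (List.ofFn qv) hMQm hnd hQm hPsQ bq hθQ
      W hθW hPsW hminW hcase R)
    (ihrRep P (ResidueField O)) (ihr_habs P _ hirr) hfrob b Smin hSmin (φv q₀)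
    (primeLocalPlace q₀) (tw_primeLocalPlace_liesOver q₀) (hφv q₀ q₀.2) (cs q₀ : O) (hcs q₀)
    (hcsρ q₀) a θ' hpart rA hcts out v

end FieldE

end Fermat.Agent.Ihara
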