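/-
IHARA track / [RB+] (helper9): **the local data at the Taylor–Wiles primes** `qv i` (which are not among
the binders of `IhaModular`): a place `Pl i` over `qv i`, a Frobenius element `φ i`, a universal tame
generator `σ i` (`IhgGen`), and unramifiedness of `ρbar = ihrRep P k` at `qv i` — the per-`i` inputs of
helper4's `ihn_chi_AQ_WL`, helper8's `ihsc_field_sum`, helper7's `ihk_fields_AQ_WL`.
-/
import Mathlib
import Fermat.Agent.Lib.Ihara.Rb.Inst
import Fermat.Agent.Lib.Ihara.G1.Final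

set_option autoImplicit false
set_option linter.unusedSectionVars false
set_option linter.unusedVariables false
set_option linter.style.haveILetI false

open Fermat.Agent.S53Lib Fermat.Agent.TW IsLocalRing groupCohomology ExtCitation CategoryTheory
open WeierstrassCurve WeierstrassCurve.Affine WeierstrassCurve.Affine.Point

namespace Fermat.Agent.Ihara

local notation "Qb" => AlgebraicClosure ℚ
local notation "GQ" => (AlgebraicClosure ℚ ≃ₐ[ℚ] AlgebraicClosure ℚ)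

/-- places, Frobenius elements and universal tame generators at a family of primes `≠ p` -/
theorem ihg_exists_frob_gen_fn (p : ℕ) [Fact p.Prime] {r : ℕ} (qv : Fin r → ℕ)
    (hq : ∀ i, (qv i).Prime) (hqp : ∀ i, qv i ≠ p) :
    ∃ (Pl : Fin r → ValuationSubring Qb) (φ σ : Fin r → GQ), ∀ i,
      (Pl i).LiesOverPrime (qv i) ∧ (Pl i).IsFrobeniusAt (φ i) (qv i) ∧ IhgGen p (Pl i) (σ i) := by
  have hp : p.Prime := Fact.out
  have h1 : ∀ i, ∃ (A : ValuationSubring Qb) (φ σ : GQ),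
      A.LiesOverPrime (qv i) ∧ A.IsFrobeniusAt φ (qv i) ∧ IhgGen p A σ := by
    intro i
    set v : Nat.Primes := ⟨qv i, hq i⟩ with hv
    have hA : (primeLocalPlace v).LiesOverPrime (qv i) := tw_primeLocalPlace_liesOver v
    obtain ⟨φ, hφ⟩ := Fermat.Agent.Lib.Helper6.exists_isFrobeniusAt (primeLocalPlace v) (hq i) hA
    obtain ⟨σ, hσ⟩ := ihg_exists_gen hp (hq i) (Ne.symm (hqp i)) (primeLocalPlace v) hA
    exact ⟨primeLocalPlace v, φ, σ, hA, hφ, hσ⟩
  choose Pl φ σ h using h1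
  exact ⟨Pl, φ, σ, h⟩

variable (P : FreyPackage) [Fact P.p.Prime]

/-- **the local data at the Taylor–Wiles primes** -/
theorem ihr_tw_local {N : ℕ} [NeZero N] (hmod : P.ModularRepOfLevel N)
    (hirr : GaloisRepIsIrreducible (K := Qb) ℚ P.freyCurve P.p)
    (k : Type) [Field k] [Algebra (ZMod P.p) k] {r : ℕ} (qv : Fin r → ℕ)
    (hq : ∀ i, (qv i).Prime ∧ ¬ qv i ∣ N ∧ qv i ≠ P.p) :
    ∃ (Pl : Fin r → ValuationSubring Qb) (φ σ : Fin r → GQ), ∀ i,
      (Pl i).LiesOverPrime (qv i) ∧ (Pl i).IsFrobeniusAt (φ i) (qv i) ∧ IhgGen P.p (Pl i) (σ i) ∧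
      (ihrRep P k).IsUnramifiedAt (qv i) := by
  obtain ⟨f, W, 𝔪, t, hf, hW, hΔ, h𝔪, hp𝔪, hcong, -, -⟩ := ihr_exists_eig_of_modular P hmod
  obtain ⟨Pl, φ, σ, h⟩ := ihg_exists_frob_gen_fn P.p qv (fun i => (hq i).1) (fun i => (hq i).2.2)
  exact ⟨Pl, φ, σ, fun i => ⟨(h i).1, (h i).2.1, (h i).2.2,
    ihr_unramified_of_not_dvd P hf hW hΔ h𝔪 hp𝔪 hcong hirr k (hq i).1 (hq i).2.1 (hq i).2.2⟩⟩

/-- unramifiedness at the primes of `Tc` (from the `IhwCPrime` hypotheses one has it too; this is the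
version from the level: NOT applicable to `v ∣ N` — see `IhwCPrime.unram`) and at every `ℓ ∤ N p` -/
theorem ihr_unramified_of_modular {N : ℕ} [NeZero N] (hmod : P.ModularRepOfLevel N)
    (hirr : GaloisRepIsIrreducible (K := Qb) ℚ P.freyCurve P.p)
    (k : Type) [Field k] [Algebra (ZMod P.p) k] {ℓ : ℕ} (hℓ : ℓ.Prime) (hℓN : ¬ ℓ ∣ N)
    (hℓp : ℓ ≠ P.p) : (ihrRep P k).IsUnramifiedAt ℓ := by
  obtain ⟨f, W, 𝔪, t, hf, hW, hΔ, h𝔪, hp𝔪, hcong, -, -⟩ := ihr_exists_eig_of_modular P hmod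
  exact ihr_unramified_of_not_dvd P hf hW hΔ h𝔪 hp𝔪 hcong hirr k hℓ hℓN hℓp

end Fermat.Agent.Ihara
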