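/-
IHARA track / [RB+] (helper9): **cross-check assembly of `IhaModular`** (the target of the modular side,
helper2's `Asm/Top.lean`) from the delivered packages — a second, independent wiring of
`iha_modular` (helper2's `Asm/Modular.lean` is the primary one):

* front: `ihr_exists_eig_of_modular` (`f, W, 𝔪, t`), `S := {2, p} ∪ Tc`, `Ps := ihrPs N p`,
  `θ₀ := t`, `d := rank of the θ₀-part at level N` (`ihr_rank_pos`);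
* per Taylor–Wiles set `qv`: `ihq_data_of_modular`, `ihq_arith` [GRP], helper1's `ihm_lvl_free_TW`
  (`θ, bq` at level `M = N ∏ qv`), `ihm_exists_nonEis` (`ℓ₀`), `ihq_exists_chi` (`χ`), then helper7's
  `ihk_hecke` with `hTC := ihk_fields_TC` (helper7/helper4), `hAQ := ihsc_hAQ` (helper8),
  `hE := ihr_hE` (Rb/FieldE: lead's [E′] + helper5's (VANISH)).
-/
import Mathlib
import Fermat.Agent.Lib.Ihara.Asm.Top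
import Fermat.Agent.Lib.Ihara.Glue.Hecke
import Fermat.Agent.Lib.Ihara.Glue.Fields
import Fermat.Agent.Lib.Ihara.Sc.AQ
import Fermat.Agent.Lib.Ihara.Rb.FieldE
import Fermat.Agent.Lib.Ihara.Rb.TwLocal
import Fermat.Agent.Lib.Ihara.Hm.LvlTW
import Fermat.Agent.Lib.Ihara.Hm.NonEis
import Fermat.Agent.Lib.Ihara.Grp.Arith

set_option autoImplicit false
set_option linter.unusedSectionVars false
set_option linter.unusedVariables false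
set_option linter.style.haveILetI false
set_option maxHeartbeats 1000000

open IsLocalRing Matrix Polynomial Fermat.Agent.S53Lib Fermat.Agent.TW
open Matrix MatrixGroups CongruenceSubgroup ModularCurve ModularCurve.Period Module
open Fermat.Agent.DS Fermat.Agent.T1 Fermat.Agent.T1G Fermat.Agent.T2
open WeierstrassCurve WeierstrassCurve.Affine WeierstrassCurve.Affine.Point ExtCitation

namespace Fermat.Agent.Ihara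

local notation "Qbar" => AlgebraicClosure ℚ
local notation "GQ" => (AlgebraicClosure ℚ ≃ₐ[ℚ] AlgebraicClosure ℚ)

/-- a prime which is not one of the `qv i` does not divide their product -/
theorem ihr_not_dvd_prod {r : ℕ} (qv : Fin r → ℕ) (hq : ∀ i, (qv i).Prime) {ℓ : ℕ} (hℓ : ℓ.Prime)
    (hne : ∀ i, ℓ ≠ qv i) : ¬ ℓ ∣ ∏ i, qv i := by
  intro h
  obtain ⟨i, -, hi⟩ := (Prime.dvd_finsetProd_iff hℓ.prime qv).mp h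
  exact hne i ((Nat.prime_dvd_prime_iff_eq hℓ (hq i)).mp hi)

/-- **the target of the modular side** -/
theorem ihr_modular : IhaModular := by
  classical
  intro P _ N hcond hpN hirr hmodN hmin hC 𝒪 _ _ _ _ _ _ _ hp𝒪 hsq b Tc hTc φv σv hφv hσv ϖ hϖ μ hμ cs
    hcs hcsρ q₀
  haveI : NeZero N := ⟨hcond.pos.ne'⟩
  have hp : P.p.Prime := Fact.out
  have hp5 : 5 ≤ P.p := P.hp5
  have hp2 : P.p ≠ 2 := by omega
  have hN0 : 0 < N := hcond.pos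
  have hNsq : Squarefree N := hcond.squarefree
  obtain ⟨f, W, 𝔪, t, hf, hW, hΔ, h𝔪, hp𝔪, hcong, -, ht⟩ := ihr_exists_eig_of_modular P hmodN
  have h2N : 2 ∣ N := ihr_two_dvd_level P hf hW hΔ h𝔪 hp𝔪 hcong hirr
  have habs : (ihrRep P (ResidueField 𝒪)).IsAbsolutelyIrreducible := ihr_habs P _ hirr
  -- the set `S₀ = {2, p} ∪ Tc`
  have hS₀sub : ({2, P.p} : Finset ℕ) ⊆ {2, P.p} ∪ ihgNat Tc := Finset.subset_union_left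
  have h2S₀ : (2 : ℕ) ∈ ({2, P.p} : Finset ℕ) ∪ ihgNat Tc :=
    hS₀sub (Finset.mem_insert_self _ _)
  have hpS₀ : P.p ∈ ({2, P.p} : Finset ℕ) ∪ ihgNat Tc :=
    hS₀sub (Finset.mem_insert_of_mem (Finset.mem_singleton_self _))
  have hTcS₀ : ∀ v ∈ Tc, ((v : Nat.Primes) : ℕ) ∈ ({2, P.p} : Finset ℕ) ∪ ihgNat Tc :=
    fun v hv => Finset.mem_union_right _ (mem_ihgNat.2 hv)
  have hS₀N : ∀ ℓ : ℕ, ℓ.Prime → ℓ ∉ ({2, P.p} : Finset ℕ) ∪ ihgNat Tc → ¬ ℓ ∣ N ∧ ℓ ≠ P.p :=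
    fun ℓ hℓ hℓS => ⟨ihq_not_dvd_of_notMem Tc hTc _ h2S₀ hTcS₀ hℓ hℓS, fun h => hℓS (h ▸ hpS₀)⟩
  -- the eigenvalue function at level `N`
  have hfrob₀ : ∀ (ℓ : ℕ), ℓ.Prime → ℓ ∉ ({2, P.p} : Finset ℕ) ∪ ihgNat Tc →
      ∀ A : ValuationSubring Qbar, A.LiesOverPrime ℓ → ∀ σ : GQ, A.IsFrobeniusAt σ ℓ →
        LinearMap.charpoly ((ihrRep P (ResidueField 𝒪)).ρ σ) =
          X ^ 2 - C (residue 𝒪 ((fun ℓ => ((t ℓ : ℤ) : 𝒪)) ℓ)) * X + C ((ℓ : ResidueField 𝒪)) :=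
    fun ℓ hℓ hℓS A hA σ hσ => ihr_frob_theta0 P ht (fun ℓ => ((t ℓ : ℤ) : 𝒪)) hℓ (hS₀N ℓ hℓ hℓS).1
      (hS₀N ℓ hℓ hℓS).2 (by simp only [sub_self]; exact zero_mem _) A hA σ hσ
  refine ⟨{2, P.p} ∪ ihgNat Tc, hS₀sub, hTcS₀,
    Module.finrank 𝒪 ↥(ih4Part 𝒪 N (ihrPs N P.p) (fun ℓ => ((t ℓ : ℤ) : 𝒪))),
    ihr_rank_pos P ht hf h𝔪 hp𝔪 𝒪 hp𝒪, ?_⟩
  intro r n qv hqinj hqv hTW
  have hqv' : ∀ i, (qv i).Prime ∧ qv i ∉ ({2, P.p} : Finset ℕ) ∪ ihgNat Tc :=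
    fun i => ⟨(hqv i).1, (hqv i).2.1⟩
  have hqn : ∀ i, P.p ^ (n + 1) ∣ qv i - 1 := fun i => (hqv i).2.2
  have hq1 : ∀ i, P.p ∣ qv i - 1 :=
    fun i => (dvd_pow_self P.p (Nat.succ_ne_zero n)).trans (hqn i)
  have h : IhqData (N * ∏ i, qv i) (ihqPrimes Tc qv) (ihqOrders Tc qv P.p) :=
    ihq_data_of_modular Tc qv hTc _ h2S₀ hTcS₀ hqinj hqv'
  obtain ⟨hM0, hM6, hMsq, hpM, hRlne, hN'0, hpN', hS, hSmin, hPsform, hqfacts, hTcfacts⟩ :=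
    ihq_arith Tc qv hp hp2 hN0 hNsq h2N hpN hTc _ hS₀sub hTcS₀ hqinj hqv' q₀
  haveI : NeZero (N * ∏ i, qv i) := ⟨hM0.ne'⟩
  haveI : NeZero (N * (∏ i, qv i) * (ihqRl Tc qv).prod) := ⟨hN'0.ne'⟩
  have hqv3 : ∀ i, (qv i).Prime ∧ ¬ qv i ∣ N ∧ qv i ≠ P.p :=
    fun i => ⟨(hqv i).1, (hqfacts i).1, (hqfacts i).2.1⟩
  have hL : IhfLevel P.p (N * ∏ i, qv i) (ihqKappa h).ker :=
    ihq_level hp hp5 hMsq h (ihqOrders_pow Tc qv)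
  -- the list of Taylor–Wiles primes
  have hmem : ∀ q ∈ List.ofFn qv, ∃ i, qv i = q := fun q hq => (List.mem_ofFn' qv q).mp hq
  have hMQ : N * ∏ i, qv i = (List.ofFn qv).foldl (· * ·) N := (ihr_foldl_ofFn N qv).symm
  have hnd : (List.ofFn qv).Nodup := List.nodup_ofFn.mpr hqinj
  have hQ4 : ∀ q ∈ List.ofFn qv, q.Prime ∧ q ∉ ({2, P.p} : Finset ℕ) ∪ ihgNat Tc ∧ P.p ∣ q - 1 ∧
      IsTWPrime (ihrRep P (ResidueField 𝒪)) q := by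
    intro q hq
    obtain ⟨i, rfl⟩ := hmem q hq
    exact ⟨(hqv i).1, (hqv i).2.1, hq1 i, hTW i⟩
  have hQ2 : ∀ q ∈ List.ofFn qv, q.Prime ∧ ¬ q ∣ N := by
    intro q hq
    obtain ⟨i, rfl⟩ := hmem q hq
    exact ⟨(hqv3 i).1, (hqv3 i).2.1⟩
  have hPsQ : ∀ q ∈ List.ofFn qv, q ∈ ihrPs N P.p := by
    intro q hq
    obtain ⟨i, rfl⟩ := hmem q hq
    exact hqv3 i
  have hSN : ∀ ℓ : ℕ, ℓ.Prime → ℓ ∣ N → ℓ ∈ ({2, P.p} : Finset ℕ) ∪ ihgNat Tc := by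
    intro ℓ hℓ hℓN
    by_contra hℓS
    exact (hS₀N ℓ hℓ hℓS).1 hℓN
  have hPs₀ : ∀ ℓ : ℕ, ℓ.Prime → ℓ ∉ ({2, P.p} : Finset ℕ) ∪ ihgNat Tc → ℓ ∈ ihrPs N P.p :=
    fun ℓ hℓ hℓS => ⟨hℓ, (hS₀N ℓ hℓ hℓS).1, (hS₀N ℓ hℓ hℓS).2⟩
  -- (B) the eigensystem at level `M`
  obtain ⟨θ, bq, hoff, hsum, hθQ, hcharQ, hneQ, -, -, hinst⟩ :=
    ihm_lvl_free_TW 𝒪 (ihrRep P (ResidueField 𝒪)) habs _ (fun ℓ => ((t ℓ : ℤ) : 𝒪)) hfrob₀ hp𝒪 N hSN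
      (List.ofFn qv) hnd hQ4 (N * ∏ i, qv i) hM6 hMQ (ihqKappa h).ker hL (ihrPs N P.p) hPs₀
  have hshift : ih4Shift 𝒪 θ bq (List.ofFn qv) = fun ℓ => ((t ℓ : ℤ) : 𝒪) := by
    funext ℓ
    unfold ih4Shift
    by_cases hℓ : ℓ ∈ List.ofFn qv
    · simp only [hℓ, if_true]
      exact hsum ℓ hℓ
    · simp only [hℓ, if_false]
      exact hoff ℓ hℓ
  -- the non-Eisenstein prime
  obtain ⟨ℓ₀, hℓ₀, hℓ₀S, hℓ₀T, hθ₀⟩ := ihm_exists_nonEis 𝒪 (ihrRep P (ResidueField 𝒪)) habs _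
    (Finset.univ.image qv) (fun ℓ => ((t ℓ : ℤ) : 𝒪)) hfrob₀
  have hℓ₀q : ∀ i, ℓ₀ ≠ qv i :=
    fun i h0 => hℓ₀T (Finset.mem_image.mpr ⟨i, Finset.mem_univ i, h0.symm⟩)
  have hℓ₀Q : ℓ₀ ∉ List.ofFn qv := fun h0 => by
    obtain ⟨i, hi⟩ := hmem ℓ₀ h0
    exact hℓ₀q i hi.symm
  have hℓ₀M : ¬ ℓ₀ ∣ N * ∏ i, qv i := fun h0 => by
    rcases (Nat.Prime.dvd_mul hℓ₀).mp h0 with h1 | h1
    · exact (hS₀N ℓ₀ hℓ₀ hℓ₀S).1 h1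
    · exact ihr_not_dvd_prod qv (fun i => (hqv i).1) hℓ₀ hℓ₀q h1
  have hℓ₀Ps : ℓ₀ ∈ ihrPs N P.p := hPs₀ ℓ₀ hℓ₀ hℓ₀S
  have hθ : IsUnit (θ ℓ₀ - ((ℓ₀ : 𝒪) + 1)) := by
    rw [hoff ℓ₀ hℓ₀Q]
    exact hθ₀
  -- the character `χ` of `Δ₁`
  choose av uv hvau hu ha hμpoly hμroots hμprim using hμ
  choose ζv hζvmem hζvprim using hμprim
  obtain ⟨χ, hχ⟩ := ihq_exists_chi h (fun v : ↥Tc => ((ζv v : 𝒪ˣ) : 𝒪)) (fun v => by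
    rw [ihq_padicValNat_eq hp (hvau v) (hu v)]
    have h1 := (hμroots v (ζv v) (hζvmem v)).1
    have h2 := congrArg Units.val h1
    simpa using h2)
  have hχv : ∀ v : ↥Tc, χ ((ihqD1Equiv h).symm (ihqGen _ v)) ≠ 1 := by
    intro v h1
    rw [hχ v] at h1
    exact (hμroots v (ζv v) (hζvmem v)).2 (Units.ext h1)
  -- the Hecke set and the Frobenius condition
  have hPs : ∀ l : ℕ, l.Prime →
      l ∉ ({2, P.p} : Finset ℕ) ∪ ihgNat Tc ∪ Finset.univ.image qv → l ∈ ihrPs N P.p :=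
    fun l hl hlS => ⟨hl, (hPsform l hl hlS).1, (hPsform l hl hlS).2⟩
  have hfrob : ∀ (ℓ : ℕ), ℓ.Prime →
      ℓ ∉ ({2, P.p} : Finset ℕ) ∪ ihgNat Tc ∪ Finset.univ.image qv →
      ∀ A : ValuationSubring Qbar, A.LiesOverPrime ℓ → ∀ σ : GQ, A.IsFrobeniusAt σ ℓ →
        LinearMap.charpoly ((ihrRep P (ResidueField 𝒪)).ρ σ) =
          X ^ 2 - C (residue 𝒪 (θ ℓ)) * X + C ((ℓ : ResidueField 𝒪)) := by
    intro ℓ hℓ hℓS A hA σ hσ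
    have hℓS₀ : ℓ ∉ ({2, P.p} : Finset ℕ) ∪ ihgNat Tc :=
      fun h0 => hℓS (Finset.mem_union_left _ h0)
    have hℓQ : ℓ ∉ List.ofFn qv := fun h0 => by
      obtain ⟨i, hi⟩ := hmem ℓ h0
      exact hℓS (Finset.mem_union_right _ (Finset.mem_image.mpr ⟨i, Finset.mem_univ i, hi⟩))
    rw [hoff ℓ hℓQ]
    exact hfrob₀ ℓ hℓ hℓS₀ A hA σ hσ
  -- the local data
  obtain ⟨Pl, φ, σ, hloc⟩ := ihr_tw_local P hmodN hirr (ResidueField 𝒪) qv hqv3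
  have hTcp : ∀ v : ↥Tc, ((v : Nat.Primes) : ℕ) ≠ P.p := fun v => (hTcfacts v).2.1
  have hσv' : ∀ v ∈ Tc, σv v ∈ (primeLocalPlace v).inertiaSubgroupIn ℚ :=
    fun v hv => (hσv v hv).mem
  have hCv : ∀ v : ↥Tc, IhwCPrime P ((v : Nat.Primes) : ℕ) :=
    fun v => hC _ (v : Nat.Primes).2 (hTcfacts v).1 (hTcfacts v).2.2
  have hunr : ∀ v : ↥Tc, (ihrRep P (ResidueField 𝒪)).IsUnramifiedAt ((v : Nat.Primes) : ℕ) :=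
    fun v => ihr_unramified P _ (hCv v).unram
  have hq₀1 : P.p ∣ ((q₀ : Nat.Primes) : ℕ) - 1 := (hCv q₀).one_mod
  -- the instances on `M^χ`
  haveI : Module.Free 𝒪 (IhmChiPart 𝒪 (N * ∏ i, qv i) hM6 (ihqKappa h).ker (ihrPs N P.p) θ
    (ihqD1 h) χ) := (hinst (ihqD1 h) χ).1
  have hd : Module.finrank 𝒪 ↥(ih4Part 𝒪 N (ihrPs N P.p) (ih4Shift 𝒪 θ bq (List.ofFn qv)))
      = Module.finrank 𝒪 ↥(ih4Part 𝒪 N (ihrPs N P.p) (fun ℓ => ((t ℓ : ℤ) : 𝒪))) := by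
    rw [hshift]
  have hpSmin : P.p ∈ ({2, P.p} : Finset ℕ) :=
    Finset.mem_insert_of_mem (Finset.mem_singleton_self _)
  have hpS : P.p ∈ ({2, P.p} : Finset ℕ) ∪ ihgNat Tc ∪ Finset.univ.image qv :=
    Finset.mem_union_left _ hpS₀
  have hyp : IhtcHyp (N * ∏ i, qv i) (ihqKappa h).ker (ihqRl Tc qv) (ihqK Tc qv P.p) :=
    ihq_tcHyp_sum Tc qv hMsq hp hp2 h
  exact ihk_hecke 𝒪 P.p (N * ∏ i, qv i) hM6 h (ihrPs N P.p) θ χ hp5 hp𝒪 hMsq hyp hRlne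
    (N' := N * (∏ i, qv i) * (ihqRl Tc qv).prod) rfl {2, P.p}
    (S := ({2, P.p} : Finset ℕ) ∪ ihgNat Tc ∪ Finset.univ.image qv) rfl hS hPs hpSmin hpN' hSmin
    (ihrRep P (ResidueField 𝒪)) habs hfrob b hℓ₀ hℓ₀M hℓ₀Ps hθ N (List.ofFn qv) hMQ hnd hQ2 hPsQ bq
    hθQ _ hd (ihr_rank_pos P ht hf h𝔪 hp𝔪 𝒪 hp𝒪) n hqn φv σv hTcp hφv hσv' ϖ μ cs q₀
    (fun a θ' hpart _ rA hcts out v => ihk_fields_TC 𝒪 P.p (N * ∏ i, qv i) hM6 h (ihrPs N P.p) θ χ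
      (ihrRep P (ResidueField 𝒪)) b {2, P.p} a θ' hpart rA hcts out rfl hpS hS hp2 hp𝒪 hMsq v
      (hTcp v) (hunr v) (hφv v v.2) (hσv v v.2) (av v) (uv v) (hvau v) (hu v) (ha v) (μ v)
      (hμpoly v) (hχv v))
    (fun a θ' hpart _ rA hcts out => ihsc_hAQ 𝒪 P.p (N * ∏ i, qv i) hM6 h (ihrPs N P.p) θ χ hp5 hp𝒪
      hMsq rfl hpS hS (ihrRep P (ResidueField 𝒪)) habs b {2, P.p}
      (fun Δ₁' χ' => (hinst Δ₁' χ').1) (List.ofFn qv)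
      (fun i => (List.mem_ofFn' qv _).mpr ⟨i, rfl⟩) hPsQ bq hθQ n hqn q₀ Pl φ σ hloc hTW a θ' hpart
      rA hcts out)
    (ihr_hE P hcond h2N hirr hmin hf hW h𝔪 hp𝔪 ht 𝒪 hp𝒪 b hTc hqinj hqv3 (N * ∏ i, qv i) hM6 rfl h θ
      bq (fun ℓ hℓ => hoff ℓ hℓ) hθQ hshift hℓ₀ hℓ₀M hℓ₀Ps hθ χ hyp hRlne rfl {2, P.p} hpS hS hPs
      hpN' hSmin hfrob φv hφv ϖ hϖ cs hcs hcsρ q₀ hq₀1 (ihq_mem_Rl_inl Tc qv q₀))

end Fermat.Agent.Ihara
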